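import Fermat.Agent.LT.TF.Aleph.HMax
import Fermat.Agent.LT.TF.ConvKern

/-!
The number of translates of a point near a given point is at most a multiple of the height of the
latter: high up only upper triangular elements occur, and they are translations up to finitely many.
-/

set_option autoImplicit false
set_option linter.style.haveILetI false
set_option linter.unusedSectionVars false
set_option synthInstance.maxHeartbeats 200000

noncomputable section

namespace FLTAgent.LT.Aleph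

open NumberField IsDedekindDomain Matrix MeasureTheory Module
open FLTAgent.LT.Ht
open scoped ENNReal

variable {F : Type*} [Field F] [NumberField F] {N : ℕ}

local notation "M2F" => Matrix (Fin 2) (Fin 2) F

/-- Where a term of a kernel is nonzero. -/
theorem exists_kTerm_Near {t : Test F} (ht : t.Ok N) :
    ∃ (K : ℝ) (H : Set (Cos F N)), H.Finite ∧ ∀ p q : Pt F N, kTerm t p q ≠ 0 → Near K H p q := by
  obtain ⟨R, hR⟩ := exists_radius ht
  exact ⟨Real.cosh R, _, ht.finite, fun p q h =>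
    ⟨fun w => coshDist_le_of_hdist (hR _ (right_ne_zero_of_mul h) w), kTerm_cos_mem t h⟩⟩

/-- A nonzero term joins comparable heights. -/
theorem exists_hMax_kTerm {t : Test F} (ht : t.Ok N) :
    ∃ C, 1 ≤ C ∧ ∀ p q : Pt F N, kTerm t p q ≠ 0 →
      hMax p ≤ C * hMax q ∧ hMax q ≤ C * hMax p := by
  obtain ⟨K, H, hH, hn⟩ := exists_kTerm_Near ht
  obtain ⟨C, hC, hle⟩ := exists_hMax_Near K hH
  exact ⟨C, hC, fun p q h => hle p q (hn p q h)⟩

/-- A nonzero kernel joins comparable heights. -/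
theorem exists_hMax_kern {t : Test F} (ht : t.Ok N) :
    ∃ C, 1 ≤ C ∧ ∀ p q : Pt F N, kern t p q ≠ 0 →
      hMax p ≤ C * hMax q ∧ hMax q ≤ C * hMax p := by
  obtain ⟨C, hC, hle⟩ := exists_hMax_kTerm ht
  refine ⟨C, hC, fun p q h => ?_⟩
  rw [kern_eq_tsum ht] at h
  obtain ⟨γ, hγ⟩ : ∃ γ : PG F, kTerm t p (γ • q) ≠ 0 := by
    by_contra hall
    push Not at hall
    exact h (by simp [hall])
  have := hle p (γ • q) hγ
  rwa [hMax_smul] at this

/-- Translates of nearby points are nearby, for a larger set of classes. -/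
theorem Near.smul {K : ℝ} {H : Set (Cos F N)} {p q : Pt F N} (h : Near K H p q) (g : PG F) :
    Near K (Red.levelOrbit N (Quotient.out '' H)) (g • p) (g • q) := by
  obtain ⟨γ, rfl⟩ := QuotientGroup.mk_surjective g
  obtain ⟨hd, d, hd', e⟩ := h
  rw [mk_smul, mk_smul]
  refine ⟨fun w => ?_, ?_⟩
  · show coshDist (act _ (p.1 w)) (act _ (q.1 w)) ≤ K
    rw [Hyp.coshDist_act]
    exact hd w
  · obtain ⟨u, hu, eu⟩ := toFin_smul_out γ p.2
    obtain ⟨k, hk, a, hka⟩ := Red.mem_UZ.1 (inv_mem hu)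
    refine ⟨u⁻¹ • d, ⟨k, Red.inLevel_one_of_inLevel hk, d.out, ⟨d, hd', rfl⟩, ?_⟩, ?_⟩
    · conv_lhs => rw [← QuotientGroup.out_eq' d, MulAction.Quotient.smul_mk, smul_eq_mul, hka,
        mul_assoc, Red.scalarGF_comm, ← mul_assoc]
      exact QuotientGroup.mk_mul_of_mem _ (Subgroup.subset_closure (Or.inr ⟨a, rfl⟩))
    · show (toFin γ • p.2).out • u⁻¹ • d = toFin γ • q.2
      rw [← e, smul_smul, smul_smul, eu, mul_inv_cancel_right]

/-- An element with vanishing lower left entry is affine modulo the centre. -/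
theorem exists_upper_mk {g : GL (Fin 2) F} (h : (g : M2F) 1 0 = 0) :
    ∃ (a : Fˣ) (b : F), (QuotientGroup.mk g : PG F) = QuotientGroup.mk (Red.upperF a b) := by
  have hd : (g : M2F) 0 0 * (g : M2F) 1 1 ≠ 0 := by
    have h1 := g.det_ne_zero
    rw [Matrix.det_fin_two, h, mul_zero, sub_zero] at h1
    exact h1
  set e : Fˣ := Units.mk0 _ (right_ne_zero_of_mul hd)
  set a : Fˣ := Units.mk0 _ (left_ne_zero_of_mul hd) * e⁻¹
  refine ⟨a, (g : M2F) 0 1 / (g : M2F) 1 1, ?_⟩
  have hge : g = Red.upperF a ((g : M2F) 0 1 / (g : M2F) 1 1) *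
      Matrix.GeneralLinearGroup.scalar (Fin 2) e := by
    apply Units.ext
    ext i j
    have h11 := right_ne_zero_of_mul hd
    fin_cases i <;> fin_cases j <;>
      simp [Red.upperF, a, e, Matrix.GeneralLinearGroup.scalar, Matrix.mul_apply, h, h11]
  conv_lhs => rw [hge]
  exact QuotientGroup.mk_mul_of_mem _ ((mem_center_iff_scalar _).2 ⟨e, rfl⟩)

variable [IsTotallyComplex F]

omit [IsTotallyComplex F] in
/-- The number of integers in a polydisc. -/
theorem exists_card_int_le {c : ℝ} (hc : 0 < c) :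
    ∃ C, 0 ≤ C ∧ ∀ ρ : InfinitePlace F → ℝ, (∀ w, c ≤ ρ w) →
      ∃ s : Finset (𝓞 F), (∀ β : 𝓞 F, (∀ w : InfinitePlace F, w (β : F) ≤ ρ w) → β ∈ s) ∧
        (s.card : ℝ) ≤ C * ∏ w : InfinitePlace F, ρ w ^ 2 := by
  classical
  refine ⟨∏ _w : InfinitePlace F, (4 + 5 / c) ^ 2, Finset.prod_nonneg fun w _ => sq_nonneg _,
    fun ρ hρ => ?_⟩
  set S : Set (𝓞 F) := {β | ∀ w : InfinitePlace F, w (β : F) ≤ ρ w}
  set n : InfinitePlace F → ℕ := fun w => ⌈2 * ρ w⌉₊ + 1
  set cd : 𝓞 F → InfinitePlace F → ℤ × ℤ := fun β w =>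
    (⌊2 * (w.embedding (β : F)).re⌋, ⌊2 * (w.embedding (β : F)).im⌋)
  set T := Fintype.piFinset fun w : InfinitePlace F =>
    Finset.Icc (-(n w : ℤ)) (n w) ×ˢ Finset.Icc (-(n w : ℤ)) (n w)
  have hfl : ∀ (w : InfinitePlace F) (x : ℝ), |x| ≤ ρ w →
      ⌊2 * x⌋ ∈ Finset.Icc (-(n w : ℤ)) (n w) := by
    intro w x hx
    obtain ⟨h1, h2⟩ := abs_le.1 hx
    have hn : 2 * ρ w + 1 ≤ (n w : ℝ) := by
      simp only [n, Nat.cast_add, Nat.cast_one]
      linarith [Nat.le_ceil (2 * ρ w)]
    refine Finset.mem_Icc.2 ⟨Int.le_floor.2 (by push_cast; linarith), ?_⟩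
    exact Int.cast_le.1 ((Int.floor_le _).trans
      ((by linarith : 2 * x ≤ (n w : ℝ)).trans_eq (Int.cast_natCast _).symm))
  have hmaps : ∀ β ∈ S, cd β ∈ T := fun β hβ => Fintype.mem_piFinset.2 fun w =>
    Finset.mem_product.2 ⟨hfl w _ ((Complex.abs_re_le_norm _).trans
      ((InfinitePlace.norm_embedding_eq w _).trans_le (hβ w))),
      hfl w _ ((Complex.abs_im_le_norm _).trans
      ((InfinitePlace.norm_embedding_eq w _).trans_le (hβ w)))⟩
  have hinj : Set.InjOn cd S := by
    intro β _ β' _ he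
    by_contra hne
    have hlt : ∀ w : InfinitePlace F, w ((β - β' : 𝓞 F) : F) < 1 := by
      intro w
      obtain ⟨h1, h2⟩ := Prod.ext_iff.1 (congrFun he w)
      have h1' := Int.abs_sub_lt_one_of_floor_eq_floor h1
      have h2' := Int.abs_sub_lt_one_of_floor_eq_floor h2
      rw [← mul_sub, abs_mul, abs_two] at h1' h2'
      rw [← InfinitePlace.norm_embedding_eq]
      refine lt_of_le_of_lt (Complex.norm_le_abs_re_add_abs_im _) ?_
      simp only [map_sub, Complex.sub_re, Complex.sub_im]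
      linarith
    have hne' : ((β - β' : 𝓞 F) : F) ≠ 0 :=
      RingOfIntegers.coe_ne_zero_iff.2 (sub_ne_zero.2 hne)
    have h := Red.one_le_prod_of_isIntegral hne' (β - β').2
    have h' : ∏ w : InfinitePlace F, w ((β - β' : 𝓞 F) : F) ^ w.mult <
        ∏ _w : InfinitePlace F, (1 : ℝ) :=
      Finset.prod_lt_prod_of_nonempty (fun w _ => pow_pos (InfinitePlace.pos_iff.2 hne') _)
        (fun w _ => pow_lt_one₀ (apply_nonneg w _) (hlt w) InfinitePlace.mult_ne_zero)
        Finset.univ_nonempty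
    rw [Finset.prod_const_one] at h'
    linarith
  have hfin : S.Finite := Set.Finite.of_finite_image
    (T.finite_toSet.subset (Set.image_subset_iff.2 hmaps)) hinj
  refine ⟨hfin.toFinset, fun β hβ => hfin.mem_toFinset.2 hβ, ?_⟩
  have hcard : hfin.toFinset.card ≤ T.card :=
    Finset.card_le_card_of_injOn cd (fun β hβ => hmaps β (hfin.mem_toFinset.1 hβ))
      fun β hβ β' hβ' => hinj (hfin.mem_toFinset.1 hβ) (hfin.mem_toFinset.1 hβ')
  calc (hfin.toFinset.card : ℝ) ≤ (T.card : ℝ) := Nat.cast_le.2 hcard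
    _ = ∏ w : InfinitePlace F, (2 * (n w : ℝ) + 1) ^ 2 := by
        simp only [T, Fintype.card_piFinset, Finset.card_product, Int.card_Icc]
        push_cast
        refine Finset.prod_congr rfl fun w _ => ?_
        have : ((n w : ℤ) + 1 - -(n w : ℤ)).toNat = 2 * n w + 1 := by omega
        rw [this]
        push_cast
        ring
    _ ≤ ∏ w : InfinitePlace F, ((4 + 5 / c) * ρ w) ^ 2 := by
        refine Finset.prod_le_prod (fun w _ => sq_nonneg _) fun w _ => ?_
        refine pow_le_pow_left₀ (by positivity) ?_ 2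
        have hρ0 : 0 ≤ ρ w := hc.le.trans (hρ w)
        have h5 : 5 ≤ 5 / c * ρ w := by
          rw [div_mul_eq_mul_div, le_div_iff₀ hc]
          linarith [hρ w]
        simp only [n, Nat.cast_add, Nat.cast_one]
        linarith [Nat.ceil_lt_add_one (show 0 ≤ 2 * ρ w by positivity)]
    _ = _ := by simp only [mul_pow, Finset.prod_mul_distrib]

set_option maxHeartbeats 1000000 in
/-- The count on a Siegel set. -/
theorem exists_near_count_siegel (hN : 0 < N) (K : ℝ) {H : Set (Cos F N)} (hH : H.Finite)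
    {S : Set (Cos F N)} (hS : S.Finite) (R : ℝ) {c : ℝ} (hc : 0 < c) :
    ∃ C, 0 ≤ C ∧ ∀ p ∈ Red.siegelSet S R c, ∀ r : Pt F N,
      {γ : PG F | Near K H p (γ • r)}.Finite ∧
        ({γ : PG F | Near K H p (γ • r)}.ncard : ℝ) ≤ C * tProd p.1 := by
  classical
  obtain ⟨C₀, hC₀, hnear⟩ := exists_ht_Near K hH
  obtain ⟨C₁, hC₁, hcmp⟩ := exists_hMax_siegel hS R hc
  obtain ⟨R₀, hR₀⟩ := Red.exists_translate_bound F
  set K' := max K 1
  have hK' : 1 ≤ K' := le_max_right _ _
  have hK0 : 0 < K' := one_pos.trans_le hK'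
  set R' := max R 0
  have hR' : 0 ≤ R' := le_max_right _ _
  set S' : Set (Cos F N) := Set.image2 (fun s h : Cos F N => s.out • h) S H
  have hS' : S'.Finite := hS.image2 _ hH
  set T' := Red.levelOrbit N (Quotient.out '' S') ∪ S'
  have hT' : T'.Finite := (Red.finite_levelOrbit hN (hS'.image _)).union hS'
  -- the box of low points
  set A := C₁ * C₀
  have hA : 0 ≤ A := mul_nonneg (zero_le_one.trans hC₁) (zero_le_one.trans hC₀)
  set B : ℝ := ∑ w : InfinitePlace F, max 1 (A / ∏ w' ∈ Finset.univ.erase w, c ^ w'.mult)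
  set K₂ := 1 + ((R' + 2 * K' * B) ^ 2 + (2 * K' * B + 1) ^ 2) / (2 * (c / (2 * K')))
  have hK₂ : 1 ≤ K₂ := by
    have : 0 ≤ ((R' + 2 * K' * B) ^ 2 + (2 * K' * B + 1) ^ 2) / (2 * (c / (2 * K'))) := by
      positivity
    simp only [K₂]
    linarith
  set R₂ := max |R₀| (R' + 2 * K' * B + 2 * K₂ * (2 * K' * B))
  set c₂ := min (1 / (2 * K' * (2 * K'))) (c / (2 * K') / (2 * K₂))
  have hc₂ : 0 < c₂ := lt_min (by positivity) (by positivity)
  set base : Xinf F := fun _ => (0, ⟨1, Set.mem_Ioi.2 one_pos⟩)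
  have hΓ' : (⋃ s ∈ S', {δ : PG F | δ • ((base, s) : Pt F N) ∈ Red.siegelSet T' R₂ c₂}).Finite :=
    hS'.biUnion fun s _ => Red.finite_meets hT' R₂ hc₂ _
  set Γ := hΓ'.toFinset
  -- translations
  set L := |R₀| / c + (1 + 2 * K' * (2 * K')) * (R' / c + 2 * K') + 1
  have hL : 1 ≤ L := by
    have h1 : 0 ≤ |R₀| / c := by positivity
    have h2 : 0 ≤ (1 + 2 * K' * (2 * K')) * (R' / c + 2 * K') := by positivity
    simp only [L]
    linarith
  obtain ⟨C₂, hC₂, hints⟩ := exists_card_int_le (F := F) hc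
  refine ⟨(Γ.card : ℝ) * (C₂ * ∏ _w : InfinitePlace F, L ^ 2),
    mul_nonneg (Nat.cast_nonneg _) (mul_nonneg hC₂ (Finset.prod_nonneg fun w _ => sq_nonneg _)),
    fun p hp r => ?_⟩
  set tp : InfinitePlace F → ℝ := fun w => ((p.1 w).2 : ℝ)
  obtain ⟨sβ, hsβ, hcardβ⟩ := hints (fun w => L * tp w)
    fun w => (hp.2 w).2.trans (le_mul_of_one_le_left (p.1 w).2.2.le hL)
  set X := {γ : PG F | Near K H p (γ • r)}
  have htP : ∏ w : InfinitePlace F, (L * tp w) ^ 2 = (∏ _w : InfinitePlace F, L ^ 2) * tProd p.1 := by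
    simp only [mul_pow, Finset.prod_mul_distrib, tProd, tp]
    congr 1
    refine Finset.prod_congr rfl fun w _ => ?_
    rw [show w.mult = 2 from InfinitePlace.mult_isComplex ⟨w, IsTotallyComplex.isComplex w⟩]
  -- the shape of the elements
  have hshape : ∀ γ ∈ X, ∀ γ₀ ∈ X, ∃ δ ∈ Γ, ∃ β ∈ sβ,
      γ = (QuotientGroup.mk (Red.upperF 1 ((β : 𝓞 F) : F)) : PG F)⁻¹ * δ * γ₀ := by
    intro γ hγ γ₀ hγ₀
    set q := γ • r with hq'
    set q₀ := γ₀ • r
    set δ := γ * γ₀⁻¹ with hδ'
    have hδ : δ • q₀ = q := by rw [← mul_smul, inv_mul_cancel_right]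
    have hmem : ∀ {x : Pt F N}, Near K H p x → x.2 ∈ S' := fun {x} hx => by
      obtain ⟨h, hh, e⟩ := hx.2
      exact ⟨p.2, hp.1, h, hh, e⟩
    have hd : ∀ {x : Pt F N}, Near K H p x → ∀ w, ‖(x.1 w).1‖ ≤ R' + 2 * K' * tp w ∧
        tp w / (2 * K') ≤ ((x.1 w).2 : ℝ) ∧ ((x.1 w).2 : ℝ) ≤ 2 * K' * tp w := fun {x} hx w =>
      box_of_coshDist ((hx.1 w).trans (le_max_left _ _)) ((hp.2 w).1.trans (le_max_left _ _))
        le_rfl le_rfl
    by_cases hlow : ht (lastRow F) p ≤ C₀
    · -- low: a box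
      have hB : ∀ w, tp w ≤ B := fun w => by
        have hA' : tProd p.1 ≤ A :=
          (hcmp p hp).2.trans (mul_le_mul_of_nonneg_left hlow (zero_le_one.trans hC₁))
        set P := ∏ w' ∈ Finset.univ.erase w, c ^ w'.mult
        have hP : 0 < P := Finset.prod_pos fun _ _ => pow_pos hc _
        have hw : tp w ^ w.mult ≤ A / P := by
          rw [le_div_iff₀ hP]
          refine le_trans (mul_le_mul_of_nonneg_left (Finset.prod_le_prod
            (fun _ _ => (pow_pos hc _).le)
            fun w' _ => pow_le_pow_left₀ hc.le (hp.2 w').2 _) (pow_nonneg (p.1 w).2.2.le _)) ?_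
          rw [Finset.mul_prod_erase Finset.univ (fun w' => tp w' ^ w'.mult) (Finset.mem_univ w)]
          exact hA'
        refine le_trans ?_ (Finset.single_le_sum
          (f := fun w : InfinitePlace F => max 1 (A / ∏ w' ∈ Finset.univ.erase w, c ^ w'.mult))
          (fun i _ => zero_le_one.trans (le_max_left _ _)) (Finset.mem_univ w))
        rcases le_total (tp w) 1 with h | h
        · exact h.trans (le_max_left _ _)
        · exact le_max_of_le_right ((le_self_pow₀ h InfinitePlace.mult_ne_zero).trans hw)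
      have hbox : ∀ {x : Pt F N}, Near K H p x → ∀ w, ‖(x.1 w).1‖ ≤ R' + 2 * K' * B ∧
          c / (2 * K') ≤ ((x.1 w).2 : ℝ) ∧ ((x.1 w).2 : ℝ) ≤ 2 * K' * B := fun {x} hx w =>
        ⟨(hd hx w).1.trans (by gcongr; exact hB w),
          le_trans (by gcongr; exact (hp.2 w).2) (hd hx w).2.1,
          (hd hx w).2.2.trans (by gcongr; exact hB w)⟩
      refine ⟨δ, hΓ'.mem_toFinset.2 (Set.mem_iUnion₂.2 ⟨q₀.2, hmem hγ₀, ?_, fun w => ?_⟩), 0,
        hsβ 0 fun w => ?_, ?_⟩
      · show (δ • ((base, q₀.2) : Pt F N)).2 ∈ T'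
        refine Or.inr ?_
        rw [show (δ • ((base, q₀.2) : Pt F N)).2 = (δ • q₀).2 from rfl, hδ]
        exact hmem hγ
      · have h2 : coshDist (q.1 w) ((δ • ((base, q₀.2) : Pt F N)).1 w) ≤ K₂ := by
          rw [← hδ]
          show coshDist (act _ (q₀.1 w)) (act _ (base w)) ≤ K₂
          rw [Hyp.coshDist_act]
          exact coshDist_base_le (by positivity) (hbox hγ₀ w).1 (hbox hγ₀ w).2.1 (hbox hγ₀ w).2.2
        obtain ⟨b1, b2, -⟩ := box_of_coshDist h2 (hbox hγ w).1 (hbox hγ w).2.1 (hbox hγ w).2.2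
        exact ⟨b1.trans (le_max_right _ _), (min_le_right _ _).trans b2⟩
      · show w ((0 : 𝓞 F) : F) ≤ L * tp w
        rw [show ((0 : 𝓞 F) : F) = 0 from map_zero (algebraMap (𝓞 F) F), map_zero]
        exact mul_nonneg (zero_le_one.trans hL) (p.1 w).2.2.le
      · have h1 : Red.upperF (1 : Fˣ) ((0 : 𝓞 F) : F) = 1 := by
          apply Units.ext
          ext i j
          fin_cases i <;> fin_cases j <;> simp [Red.upperF]
        rw [h1, QuotientGroup.mk_one, inv_one, one_mul, inv_mul_cancel_right]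
    · -- high: affine
      push Not at hlow
      have hhigh : ∀ {x : Pt F N}, Near K H p x → 1 < ht (lastRow F) x := fun {x} hx => by
        by_contra hle
        push Not at hle
        have := (hnear _ lastRow_ne_zero p x hx).1
        nlinarith
      have hdet : (δ.out : M2F) 1 0 = 0 := by
        by_contra hne
        have h1 : 1 < ht (lastRow F) q := hhigh hγ
        rw [← hδ, show δ • q₀ = smulPt δ.out q₀ from rfl, ht_smulPt lastRow_ne_zero] at h1
        have h2 : 1 < ht (lastRow F) q₀ := hhigh hγ₀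
        have h3 := ht_mul_le_one (r := lastRow F) (r' := lastRow F ᵥ* (δ.out : M2F)) (p := q₀)
          (by simp [lastRow, Matrix.vecMul, dotProduct, Fin.sum_univ_two, hne])
        nlinarith
      obtain ⟨a, b, hab⟩ := exists_upper_mk hdet
      rw [QuotientGroup.out_eq'] at hab
      have hq1 : q.1 = actInf (Red.upperF a b) q₀.1 := by
        rw [← hδ, hab, mk_smul]
        rfl
      have ha : ∀ w : InfinitePlace F, 1 / (2 * K' * (2 * K')) ≤ w (a : F) ∧
          w (a : F) ≤ 2 * K' * (2 * K') := by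
        intro w
        have e : ((q.1 w).2 : ℝ) = w (a : F) * (q₀.1 w).2 := by
          rw [hq1]
          exact Red.actInf_upperF_snd a b _ w
        obtain ⟨-, l1, u1⟩ := hd hγ w
        obtain ⟨-, l0, u0⟩ := hd hγ₀ w
        rw [div_le_iff₀ (by positivity)] at l1 l0
        have hw0 : 0 ≤ w (a : F) := apply_nonneg w _
        have hq₀ : (0 : ℝ) < (q₀.1 w).2 := (q₀.1 w).2.2
        constructor
        · rw [div_le_iff₀ (by positivity)]
          refine le_of_mul_le_mul_right ?_ (show (0 : ℝ) < tp w from (p.1 w).2.2)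
          rw [one_mul]
          calc tp w ≤ ((q.1 w).2 : ℝ) * (2 * K') := l1
            _ = w (a : F) * ((q₀.1 w).2 : ℝ) * (2 * K') := by rw [e]
            _ ≤ w (a : F) * (2 * K' * tp w) * (2 * K') :=
                mul_le_mul_of_nonneg_right (mul_le_mul_of_nonneg_left u0 hw0) (by linarith)
            _ = w (a : F) * (2 * K' * (2 * K')) * tp w := by ring
        · refine le_of_mul_le_mul_right ?_ hq₀
          calc w (a : F) * ((q₀.1 w).2 : ℝ) ≤ 2 * K' * tp w := e ▸ u1
            _ ≤ 2 * K' * (((q₀.1 w).2 : ℝ) * (2 * K')) :=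
                mul_le_mul_of_nonneg_left l0 (by linarith)
            _ = 2 * K' * (2 * K') * ((q₀.1 w).2 : ℝ) := by ring
      obtain ⟨β, hβ⟩ := hR₀ fun w => w.embedding b
      refine ⟨QuotientGroup.mk (Red.upperF 1 (β : F)) * δ,
        hΓ'.mem_toFinset.2 (Set.mem_iUnion₂.2 ⟨q₀.2, hmem hγ₀, ?_, fun w => ?_⟩), β,
        hsβ β fun w => ?_, ?_⟩
      · show ((QuotientGroup.mk (Red.upperF 1 (β : F)) * δ : PG F) • ((base, q₀.2) : Pt F N)).2 ∈ T'
        refine Or.inl ⟨toFin (Red.upperF 1 (β : F)), ?_, q.2.out, ⟨q.2, hmem hγ, rfl⟩, ?_⟩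
        · simpa using Red.inLevel_toFin_upperF (F := F) 1 β
        · rw [mul_smul, mk_smul]
          show toFin _ • (δ • q₀).2 = _
          rw [hδ]
          conv_lhs => rw [← QuotientGroup.out_eq' q.2]
          rfl
      · have e : ((QuotientGroup.mk (Red.upperF 1 (β : F)) * δ : PG F) •
            ((base, q₀.2) : Pt F N)).1 = actInf (Red.upperF a (b + (β : F))) base := by
          rw [hab, ← QuotientGroup.mk_mul, mk_smul, Red.upperF_mul, one_mul, Units.val_one, one_mul]
          rfl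
        rw [e, Red.actInf_upperF_fst, Red.actInf_upperF_snd]
        refine ⟨?_, ?_⟩
        · simp only [base, mul_zero, zero_add, map_add]
          exact ((hβ w).trans (le_abs_self _)).trans (le_max_left _ _)
        · simp only [base, mul_one]
          exact (min_le_left _ _).trans (ha w).1
      · show w (β : F) ≤ L * tp w
        have e : w.embedding b = (q.1 w).1 - w.embedding (a : F) * (q₀.1 w).1 := by
          rw [hq1, Red.actInf_upperF_fst]
          ring
        have hbw : ‖w.embedding b‖ ≤ (1 + 2 * K' * (2 * K')) * (R' + 2 * K' * tp w) := by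
          rw [e]
          refine (norm_sub_le _ _).trans ?_
          rw [norm_mul, InfinitePlace.norm_embedding_eq, add_mul, one_mul]
          exact add_le_add (hd hγ w).1
            (mul_le_mul (ha w).2 (hd hγ₀ w).1 (norm_nonneg _) (by positivity))
        have hβw : w (β : F) ≤ |R₀| + ‖w.embedding b‖ := by
          rw [← InfinitePlace.norm_embedding_eq]
          calc ‖w.embedding (β : F)‖ = ‖(w.embedding b + w.embedding (β : F)) - w.embedding b‖ := by
                rw [add_sub_cancel_left]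
            _ ≤ _ := (norm_sub_le _ _).trans (by gcongr; exact (hβ w).trans (le_abs_self _))
        have ht0 : 0 < tp w := (p.1 w).2.2
        have h5 : |R₀| ≤ |R₀| / c * tp w := by
          rw [div_mul_eq_mul_div, le_div_iff₀ hc]
          exact mul_le_mul_of_nonneg_left (hp.2 w).2 (abs_nonneg _)
        have h6 : R' ≤ R' / c * tp w := by
          rw [div_mul_eq_mul_div, le_div_iff₀ hc]
          exact mul_le_mul_of_nonneg_left (hp.2 w).2 hR'
        have h7 := mul_le_mul_of_nonneg_left h6 (show (0 : ℝ) ≤ 1 + 2 * K' * (2 * K') by positivity)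
        calc w (β : F) ≤ |R₀| + (1 + 2 * K' * (2 * K')) * (R' + 2 * K' * tp w) :=
              hβw.trans (by gcongr)
          _ ≤ L * tp w := by simp only [L, add_mul]; linarith
      · rw [inv_mul_cancel_left, inv_mul_cancel_right]
  -- counting
  rcases X.eq_empty_or_nonempty with h0 | ⟨γ₀, hγ₀⟩
  · rw [h0]
    refine ⟨Set.finite_empty, ?_⟩
    have := tProd_pos p.1
    simp only [Set.ncard_empty, Nat.cast_zero]
    positivity
  set U := (Γ ×ˢ sβ).image fun x : PG F × 𝓞 F =>
    (QuotientGroup.mk (Red.upperF 1 (x.2 : F)) : PG F)⁻¹ * x.1 * γ₀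
  have hsub : X ⊆ U := fun γ hγ => by
    obtain ⟨δ, hδ, β, hβ, rfl⟩ := hshape γ hγ γ₀ hγ₀
    exact Finset.mem_image.2 ⟨(δ, β), Finset.mem_product.2 ⟨hδ, hβ⟩, rfl⟩
  refine ⟨U.finite_toSet.subset hsub, ?_⟩
  calc (X.ncard : ℝ) ≤ (U.card : ℝ) := by
        rw [← Set.ncard_coe_finset U]
        exact Nat.cast_le.2 (Set.ncard_le_ncard hsub U.finite_toSet)
    _ ≤ (Γ.card : ℝ) * sβ.card := by
        rw [← Nat.cast_mul, ← Finset.card_product]
        exact Nat.cast_le.2 Finset.card_image_le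
    _ ≤ (Γ.card : ℝ) * (C₂ * ∏ w : InfinitePlace F, (L * tp w) ^ 2) :=
        mul_le_mul_of_nonneg_left hcardβ (Nat.cast_nonneg _)
    _ = _ := by rw [htP]; ring

/-- **The number of translates near a point is at most a multiple of its height.** -/
theorem exists_near_count (hN : 0 < N) (K : ℝ) {H : Set (Cos F N)} (hH : H.Finite) :
    ∃ C, 0 ≤ C ∧ ∀ p r : Pt F N, {γ : PG F | Near K H p (γ • r)}.Finite ∧
      ({γ : PG F | Near K H p (γ • r)}.ncard : ℝ) ≤ C * hMax p := by
  obtain ⟨S, R, c, hS, hc, hcover⟩ := Red.exists_cover (F := F) hN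
  obtain ⟨C, hC, hcount⟩ := exists_near_count_siegel hN K
    (Red.finite_levelOrbit (N := N) hN (hH.image Quotient.out)) hS R hc
  obtain ⟨C₁, hC₁, hcmp⟩ := exists_hMax_siegel hS R hc
  refine ⟨C * C₁, mul_nonneg hC (zero_le_one.trans hC₁), fun p r => ?_⟩
  obtain ⟨g, hg⟩ := hcover p
  obtain ⟨hfin, hcard⟩ := hcount (g • p) hg r
  have hmaps : (fun γ => g * γ) '' {γ : PG F | Near K H p (γ • r)} ⊆
      {γ | Near K (Red.levelOrbit N (Quotient.out '' H)) (g • p) (γ • r)} := by
    rintro _ ⟨γ, hγ, rfl⟩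
    show Near _ _ _ ((g * γ) • r)
    rw [mul_smul]
    exact hγ.smul g
  have hfin' := Set.Finite.of_finite_image (hfin.subset hmaps) (mul_right_injective g).injOn
  refine ⟨hfin', ?_⟩
  calc ({γ : PG F | Near K H p (γ • r)}.ncard : ℝ)
      ≤ ({γ | Near K (Red.levelOrbit N (Quotient.out '' H)) (g • p) (γ • r)}.ncard : ℝ) := by
        rw [← Set.ncard_image_of_injective _ (mul_right_injective g)]
        exact Nat.cast_le.2 (Set.ncard_le_ncard hmaps hfin)
    _ ≤ C * tProd (g • p).1 := hcard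
    _ ≤ C * (C₁ * ht (lastRow F) (g • p)) := mul_le_mul_of_nonneg_left (hcmp _ hg).2 hC
    _ ≤ C * C₁ * hMax p := by
        rw [mul_assoc, ← hMax_smul g p]
        exact mul_le_mul_of_nonneg_left
          (mul_le_mul_of_nonneg_left (ht_le_hMax lastRow_ne_zero _) (zero_le_one.trans hC₁)) hC

/-- The terms of a kernel sum to at most a multiple of the height. -/
theorem exists_tsum_kTerm_le (hN : 0 < N) {t : Test F} (ht : t.Ok N) :
    ∃ C : ℝ, 0 ≤ C ∧ ∀ p r : Pt F N,
      ∑' γ : PG F, ‖kTerm t p (γ • r)‖ₑ ≤ ENNReal.ofReal (C * hMax p) := by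
  obtain ⟨K, H, hH, hn⟩ := exists_kTerm_Near ht
  obtain ⟨C, hC, hcount⟩ := exists_near_count hN K hH
  obtain ⟨D, hD, hbd⟩ := ht.exists_bound
  refine ⟨C * D, mul_nonneg hC hD, fun p r => ?_⟩
  obtain ⟨hfin, hcard⟩ := hcount p r
  rw [tsum_eq_sum (s := hfin.toFinset) fun γ hγ => by
    rw [enorm_eq_zero]
    by_contra h
    exact hγ (hfin.mem_toFinset.2 (hn _ _ h))]
  refine (Finset.sum_le_card_nsmul _ _ (ENNReal.ofReal D) fun γ _ => ?_).trans ?_
  · rw [← ofReal_norm]
    exact ENNReal.ofReal_le_ofReal (hbd _ _)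
  · rw [nsmul_eq_mul, ← Set.ncard_eq_toFinset_card _ hfin, ← ENNReal.ofReal_natCast,
      ← ENNReal.ofReal_mul (Nat.cast_nonneg _)]
    refine ENNReal.ofReal_le_ofReal ?_
    calc (_ : ℝ) * D ≤ (C * hMax p) * D := mul_le_mul_of_nonneg_right hcard hD
      _ = C * D * hMax p := by ring

/-- A kernel is at most a multiple of the height. -/
theorem exists_norm_kern_le (hN : 0 < N) {t : Test F} (ht : t.Ok N) :
    ∃ C, 0 ≤ C ∧ ∀ p r : Pt F N, ‖kern t p r‖ ≤ C * hMax p := by
  obtain ⟨C, hC, hle⟩ := exists_tsum_kTerm_le hN ht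
  refine ⟨C, hC, fun p r => ?_⟩
  have h : ENNReal.ofReal ‖kern t p r‖ ≤ ENNReal.ofReal (C * hMax p) := by
    rw [ofReal_norm, kern_eq_tsum ht]
    exact enorm_tsum_le_tsum_enorm.trans (hle p r)
  exact (ENNReal.ofReal_le_ofReal_iff (mul_nonneg hC (hMax_pos p).le)).1 h

end FLTAgent.LT.Aleph
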