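import Fermat.Agent.LT.TF.Aleph.Kill
import Fermat.Agent.LT.TF.Aleph.NearCount
import Fermat.Agent.LT.TF.RadialOne

/-!
The operator of a killing family gains a power of the height: a cusp function differs from its box
average by the displacement of the box, which is small high up.
-/

set_option autoImplicit false
set_option linter.style.haveILetI false
set_option linter.unusedSectionVars false
set_option linter.style.longLine false
set_option synthInstance.maxHeartbeats 200000

noncomputable section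

namespace FLTAgent.LT.Aleph

open NumberField IsDedekindDomain MeasureTheory Module
open FLTAgent.LT.RS (boxSet HasPeriod Idx)
open scoped ENNReal

variable {F : Type*} [Field F] [NumberField F] {N : ℕ}

/-! ### Periods, invariance -/

/-- A period which serves every automorphic form at the given finite parts. -/
theorem exists_uniform_period (hN : 0 < N) (s : Finset (GF F)) :
    ∃ M, 0 < M ∧ ∀ Φ : Form F, Automorphic N Φ → ∀ g ∈ s, HasPeriod Φ g M := by
  classical
  choose D hD hsmall using fun g : GF F => RS.exists_conj_bound g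
  have hpos : 0 < ∏ g ∈ s, D g * N := Finset.prod_pos fun g _ => Nat.mul_pos (hD g) hN
  refine ⟨_, hpos, fun Φ ha g hg => ?_⟩
  have hper : HasPeriod Φ g (D g * N) := by
    refine ⟨Nat.mul_pos (hD g) hN, fun β x => ?_⟩
    set c : F := ((D g * N : ℕ) : F) * (β : F)
    have hk : InLevel N (g⁻¹ * upperGF 1 (algebraMap F (Af F) (-c) - algebraMap F (Af F) 0) * g) := by
      refine hsmall g N _ fun v => ?_
      rw [map_zero, sub_zero, map_neg]
      show Valued.v (-(algebraMap F (Af F) c v)) ≤ _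
      rw [Valuation.map_neg, map_mul, RS.af_mul_apply, map_mul, map_natCast]
      refine mul_le_of_le_one_right' ?_
      rw [Red.valued_algebraMap]
      exact v.valuation_le_one β
    have h1 := RS.apply_upperGF_mul ha (η := 0) hk x
    have hk2 : InLevel N (g⁻¹ *
        upperGF 1 (algebraMap F (Af F) (-c) - algebraMap F (Af F) (-c)) * g) :=
      hsmall g N _ fun v => by
        rw [sub_self]
        show Valued.v (0 : v.adicCompletion F) ≤ _
        simp
    have h2 := RS.apply_upperGF_mul ha (η := -c) hk2 x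
    rw [h2] at h1
    convert h1 using 2
    · funext w
      simp [translate, RS.embF, c]
    · funext w
      simp [translate, RS.embF]
  rw [← Finset.mul_prod_erase s (fun g => D g * N) hg]
  exact hper.mul (Finset.prod_pos fun g' _ => Nat.mul_pos (hD g') hN)

theorem conv_translate (K : (InfinitePlace F → ℝ) → ℂ) (Φ : Form F) (z : InfinitePlace F → ℂ)
    (x : Xinf F) (g : GF F) :
    conv K Φ (translate z x) g =
      ∫ y, K (fun w => hdist (x w) (y w)) * Φ (translate z y) g ∂infMeasure F := by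
  rw [conv, ← (measurePreserving_translate z).integral_comp (measurableEmbedding_translate _)]
  simp only [hdist_translate]

theorem measurableEmbedding_actInf (γ : GL (Fin 2) F) :
    MeasurableEmbedding (actInf γ) :=
  MeasurableEquiv.measurableEmbedding
    { toEquiv :=
        { toFun := actInf γ
          invFun := actInf γ⁻¹
          left_inv := fun x => by rw [← actInf_mul, inv_mul_cancel, actInf_one]
          right_inv := fun x => by rw [← actInf_mul, mul_inv_cancel, actInf_one] }
      measurable_toFun := measurable_actInf γ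
      measurable_invFun := measurable_actInf γ⁻¹ }

theorem conv_actInf (K : (InfinitePlace F → ℝ) → ℂ) {Φ : Form F} (ha : Automorphic N Φ)
    (γ : GL (Fin 2) F) (x : Xinf F) (g : GF F) :
    conv K Φ (actInf γ x) (toFin γ * g) = conv K Φ x g := by
  rw [conv, ← (measurePreserving_actInf γ).integral_comp (measurableEmbedding_actInf γ)]
  simp only [conv, ha.left_inv]
  simp only [actInf, hdist_act]

variable {ι : Type*} [Fintype ι] {p : ℕ} {pl : ι → HeightOneSpectrum (𝓞 F)}

/-- The operator of a family commutes with `PGL₂(F)`. -/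
theorem Fam.op_smul (A : Fam ι (InfinitePlace F)) (hP : Places N p pl) {φ : Pt F N → ℂ}
    (hinv : ∀ (g : PG F) q, φ (g • q) = φ q) (g : PG F) (q : Pt F N) :
    A.op pl φ (g • q) = A.op pl φ q := by
  obtain ⟨γ, rfl⟩ := QuotientGroup.mk_surjective g
  have ha : Automorphic N (formOf φ) := automorphic_formOf fun γ r => by rw [← mk_smul, hinv]
  rw [mk_smul]
  have e1 : A.op pl φ (smulPt γ q) = formOf (A.op pl φ) (actInf γ q.1) (toFin γ * q.2.out) := by
    show _ = A.op pl φ (actInf γ q.1, QuotientGroup.mk (toFin γ * q.2.out))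
    congr 2
    conv_lhs => rw [smul_pt_apply, ← QuotientGroup.out_eq' q.2]
    rfl
  have e2 : A.op pl φ q = formOf (A.op pl φ) q.1 q.2.out := by
    show _ = A.op pl φ (q.1, QuotientGroup.mk q.2.out)
    rw [QuotientGroup.out_eq']
  rw [e1, e2, Fam.formOf_op A hP, Fam.formOf_op A hP]
  simp only [mul_assoc, conv_actInf _ ha]

/-- The periods of a family's operator. -/
theorem Fam.hasPeriod_op (A : Fam ι (InfinitePlace F)) (hP : Places N p pl) (φ : Pt F N → ℂ)
    (g : GF F) {M : ℕ} (hM : 0 < M)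
    (h : ∀ k, ∀ d ∈ wSupp N ((A.word k).map pl), HasPeriod (formOf φ) (g * d.out) M) :
    HasPeriod (formOf (A.op pl φ)) g M := by
  refine ⟨hM, fun β x => ?_⟩
  rw [Fam.formOf_op A hP, Fam.formOf_op A hP]
  refine Finset.sum_congr rfl fun k _ => Finset.sum_congr rfl fun d hd => ?_
  rw [conv_translate]
  simp only [(h k d hd).inv]
  rfl

/-! ### Integrals near a point -/

/-- The product of balls. -/
def nearBall (K : ℝ) (x : Xinf F) : Set (Xinf F) :=
  Set.univ.pi fun w => {y : H3 | coshDist (x w) y ≤ K}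

theorem measurableSet_nearBall (K : ℝ) (x : Xinf F) : MeasurableSet (nearBall K x) :=
  MeasurableSet.univ_pi fun w =>
    measurableSet_le (Hyp.continuous_coshDist.comp (continuous_const.prodMk continuous_id)).measurable
      measurable_const

theorem isCompact_nearBall (K : ℝ) (x : Xinf F) : IsCompact (nearBall K x) :=
  isCompact_univ_pi fun w => RS.isCompact_coshBall _ _

theorem infMeasure_nearBall (K : ℝ) (x : Xinf F) :
    infMeasure F (nearBall K x) = infMeasure F (nearBall K fun _ => Hyp.org) := by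
  rw [infMeasure, nearBall, nearBall, Measure.pi_pi, Measure.pi_pi]
  refine Finset.prod_congr rfl fun w _ => ?_
  have h := (Hyp.measurePreserving_act (Hyp.toPt (x w))).measure_preimage
    (measurableSet_le (f := fun y : H3 => coshDist (x w) y) (g := fun _ => K)
      (Hyp.continuous_coshDist.comp (continuous_const.prodMk continuous_id)).measurable
      measurable_const).nullMeasurableSet
  rw [← h]
  congr 1
  ext y
  simp only [Set.preimage_setOf_eq, Set.mem_setOf_eq]
  have e := Hyp.coshDist_act (Hyp.toPt (x w)) Hyp.org y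
  rw [Hyp.act_toPt_org] at e
  rw [e]

theorem setOf_Near (K : ℝ) (H : Set (Cos F N)) (q : Pt F N) :
    {r | Near K H q r} = nearBall K q.1 ×ˢ ((fun d => q.2.out • d) '' H) := by
  ext r
  simp [Near, nearBall]

theorem measurableSet_Near (K : ℝ) (H : Set (Cos F N)) (q : Pt F N) :
    MeasurableSet {r | Near K H q r} := by
  rw [setOf_Near]
  exact (measurableSet_nearBall K q.1).prod MeasurableSpace.measurableSet_top

/-- The integral of a function over the points near one point. -/
def nearInt (φ : Pt F N → ℂ) (K : ℝ) (H : Set (Cos F N)) (q : Pt F N) : ℝ≥0∞ :=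
  ∫⁻ r in {r | Near K H q r}, ‖φ r‖ₑ ∂ptMeasure F N

theorem measurable_of_slices [Countable (Cos F N)] {β : Type*} [MeasurableSpace β] {φ : Pt F N → β}
    (h : ∀ c, Measurable fun x => φ (x, c)) : Measurable φ :=
  measurable_from_prod_countable_left h

theorem lintegral_nearBall_le [Countable (Cos F N)] {φ : Pt F N → ℂ} (hm : Measurable φ) (K : ℝ)
    {H : Set (Cos F N)} (q : Pt F N) {d : Cos F N} (hd : d ∈ H) :
    ∫⁻ y in nearBall K q.1, ‖φ (y, q.2.out • d)‖ₑ ∂infMeasure F ≤ nearInt φ K H q := by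
  rw [nearInt, setOf_Near, ptMeasure, ← Measure.prod_restrict,
    lintegral_prod_symm _ hm.enorm.aemeasurable]
  refine le_trans ?_ (lintegral_mono' (Measure.restrict_mono (Set.singleton_subset_iff.2
    (Set.mem_image_of_mem (fun d => q.2.out • d) hd)) le_rfl) le_rfl)
  rw [lintegral_singleton, Measure.count_singleton, mul_one]

theorem nearInt_le_of_bound [Countable (Cos F N)] {φ : Pt F N → ℂ} {B : ℝ} {K : ℝ}
    {H : Set (Cos F N)} {q : Pt F N} (h : ∀ r, Near K H q r → ‖φ r‖ ≤ B) :
    nearInt φ K H q ≤ ENNReal.ofReal B * (infMeasure F (nearBall K fun _ => Hyp.org) *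
      Measure.count H) := by
  refine (setLIntegral_mono measurable_const fun r hr => ?_ :
    nearInt φ K H q ≤ ∫⁻ _ in {r | Near K H q r}, ENNReal.ofReal B ∂ptMeasure F N).trans_eq ?_
  · rw [← ofReal_norm]
    exact ENNReal.ofReal_le_ofReal (h r hr)
  · rw [setLIntegral_const, setOf_Near, ptMeasure, Measure.prod_prod, ← infMeasure_nearBall K q.1]
    congr 2
    rw [Measure.count_apply MeasurableSpace.measurableSet_top,
      Measure.count_apply MeasurableSpace.measurableSet_top,
      (MulAction.injective q.2.out).encard_image]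

/-- The integral near a point is controlled by the integral on the quotient. -/
theorem exists_nearInt_le [IsTotallyComplex F] (hN : 0 < N) (K : ℝ) {H : Set (Cos F N)}
    (hH : H.Finite) :
    ∃ C, 0 ≤ C ∧ ∀ (w : Pt F N → ℝ≥0∞), IsPtWeight w → ∀ (φ : Pt F N → ℂ), Measurable φ →
      (∀ (g : PG F) q, φ (g • q) = φ q) → ∀ q,
      nearInt φ K H q ≤ ENNReal.ofReal (C * hMax q) * ∫⁻ r, ‖φ r‖ₑ ∂quotMeasure w := by
  haveI := Red.countable_cos (F := F) hN
  obtain ⟨C, hC, hcount⟩ := exists_near_count hN K hH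
  refine ⟨C, hC, fun w hw φ hm hinv q => ?_⟩
  set U := {r | Near K H q r}
  have hU : MeasurableSet U := measurableSet_Near K H q
  rw [nearInt, ← lintegral_indicator hU,
    ← lintegral_unfold hw (g := U.indicator fun r => ‖φ r‖ₑ) (hm.enorm.indicator hU),
    ← lintegral_const_mul' _ _ ENNReal.ofReal_ne_top]
  refine lintegral_mono fun r => ?_
  obtain ⟨hfin, hcard⟩ := hcount q r
  rw [tsum_eq_sum (s := hfin.toFinset) fun γ hγ =>
    Set.indicator_of_notMem (s := U) (fun h => hγ (hfin.mem_toFinset.2 h)) _]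
  refine (Finset.sum_le_card_nsmul _ _ ‖φ r‖ₑ fun γ _ => ?_).trans ?_
  · exact (Set.indicator_le_self _ _ _).trans_eq (by rw [hinv])
  · rw [nsmul_eq_mul, ← Set.ncard_eq_toFinset_card _ hfin, ← ENNReal.ofReal_natCast]
    exact mul_le_mul' (ENNReal.ofReal_le_ofReal hcard) le_rfl

/-- Measurable invariant functions with finite integral on the quotient are forms with local
integrals. -/
theorem locForm_of_quot [IsTotallyComplex F] (hN : 0 < N) {w : Pt F N → ℝ≥0∞} (hw : IsPtWeight w)
    {φ : Pt F N → ℂ} (hinv : ∀ (g : PG F) q, φ (g • q) = φ q) (hm : Measurable φ)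
    (hfin : ∫⁻ r, ‖φ r‖ₑ ∂quotMeasure w ≠ ⊤) : LocForm (formOf φ) := by
  haveI := Red.countable_cos (F := F) hN
  refine ⟨fun g => hm.comp measurable_prodMk_right, fun g => ?_⟩
  intro x₀
  set K : ℝ := 2
  refine ⟨nearBall K x₀, set_pi_mem_nhds Set.finite_univ fun w _ => Filter.mem_of_superset
    ((isOpen_lt (Hyp.continuous_coshDist.comp (continuous_const.prodMk continuous_id))
      continuous_const).mem_nhds
        (show coshDist (x₀ w) (x₀ w) < K by simp [K, coshDist]))
    fun y (hy : coshDist (x₀ w) y < K) => show coshDist (x₀ w) y ≤ K from hy.le, ?_⟩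
  set q : Pt F N := (x₀, QuotientGroup.mk g)
  set d : Cos F N := q.2.out⁻¹ • QuotientGroup.mk g
  obtain ⟨C, hC, hle⟩ := exists_nearInt_le hN K (Set.finite_singleton d)
  have hsl : Measurable fun y : Xinf F => φ (y, QuotientGroup.mk g) := hm.comp measurable_prodMk_right
  refine ⟨hsl.aestronglyMeasurable, ?_⟩
  rw [hasFiniteIntegral_iff_enorm]
  have h1 := (lintegral_nearBall_le hm K q (Set.mem_singleton d)).trans (hle w hw φ hm hinv q)
  rw [smul_inv_smul] at h1
  exact h1.trans_lt (ENNReal.mul_lt_top ENNReal.ofReal_lt_top hfin.lt_top)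

/-! ### The gain -/

theorem hdist_translate_le (z : ℂ) (x : H3) :
    hdist x (x.1 + z, x.2) ≤ 2 * (‖z‖ / (x.2 : ℝ)) := by
  have ht : (0 : ℝ) < x.2 := x.2.2
  set u := ‖z‖ / (x.2 : ℝ)
  have hu : 0 ≤ u := div_nonneg (norm_nonneg _) ht.le
  refine hdist_le_of_coshDist_le (by positivity) ?_
  have e : coshDist x (x.1 + z, x.2) = 1 + u ^ 2 / 2 := by
    simp only [coshDist, u, Complex.normSq_eq_norm_sq]
    rw [show x.1 - (x.1 + z) = -z by ring, norm_neg]
    field_simp
    ring
  rw [e, Real.cosh_eq]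
  have h1 := Real.quadratic_le_exp_of_nonneg (show 0 ≤ 2 * u by positivity)
  have h2 := Real.add_one_le_exp (-(2 * u))
  nlinarith

/-- The kernel at two nearby centres. -/
theorem exists_radDiff {K : (InfinitePlace F → ℝ) → ℂ} (hK : ∃ C, LipschitzWith C K)
    (hKs : HasCompactSupport K) (δ₀ : ℝ) :
    ∃ L K₀ : ℝ, 0 ≤ L ∧ ∀ K' : ℝ, K₀ ≤ K' → ∀ (x x' y : Xinf F) (δ : ℝ), δ ≤ δ₀ →
      (∀ w, hdist (x w) (x' w) ≤ δ) →
      ‖K (fun w => hdist (x w) (y w)) - K (fun w => hdist (x' w) (y w))‖ ≤
        (nearBall K' x).indicator (fun _ => L * δ) y := by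
  obtain ⟨C, hC⟩ := hK
  obtain ⟨R, hR⟩ := hKs.isCompact.isBounded.subset_closedBall 0
  refine ⟨C, Real.cosh (|R| + |δ₀|), C.coe_nonneg, fun K' hK' x x' y δ hδ hxx => ?_⟩
  have hδ0 : 0 ≤ δ := (hdist_nonneg _ _).trans (hxx (Classical.arbitrary _))
  by_cases hy : y ∈ nearBall K' x
  · rw [Set.indicator_of_mem hy]
    refine (hC.norm_sub_le _ _).trans (mul_le_mul_of_nonneg_left ?_ C.coe_nonneg)
    refine (pi_norm_le_iff_of_nonneg hδ0).2 fun w => ?_
    rw [Pi.sub_apply, Real.norm_eq_abs, abs_le]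
    have h1 := hdist_triangle (x w) (x' w) (y w)
    have h2 := hdist_triangle (x' w) (x w) (y w)
    rw [hdist_comm (x' w) (x w)] at h2
    constructor <;> linarith [hxx w]
  · rw [Set.indicator_of_notMem hy]
    have hfar : ∀ x₁ : Xinf F, (∀ w, hdist (x w) (x₁ w) ≤ δ) →
        K (fun w => hdist (x₁ w) (y w)) = 0 := by
      intro x₁ hx₁
      by_contra hne
      refine hy fun w _ => ?_
      have h1 := hR (subset_tsupport _ hne)
      rw [Metric.mem_closedBall, dist_zero_right] at h1
      have h2 : hdist (x₁ w) (y w) ≤ R :=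
        (le_abs_self _).trans ((norm_le_pi_norm (fun w => hdist (x₁ w) (y w)) w).trans h1)
      have h3 : hdist (x w) (y w) ≤ |R| + |δ₀| :=
        (hdist_triangle _ _ _).trans (by linarith [hx₁ w, le_abs_self R, le_abs_self δ₀, hδ])
      show coshDist (x w) (y w) ≤ K'
      rw [← cosh_hdist]
      exact le_trans (Real.cosh_le_cosh.2 (by
        rw [abs_of_nonneg (hdist_nonneg _ _), abs_of_nonneg (by positivity : (0 : ℝ) ≤ |R| + |δ₀|)]
        exact h3)) hK'
    rw [hfar x fun w => by
      rw [show hdist (x w) (x w) = 0 by simp [hdist, coshDist]]; exact hδ0, hfar x' hxx, sub_self,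
      norm_zero]

theorem integrable_conv {Φ : Form F} (hl : LocForm Φ) {K : (InfinitePlace F → ℝ) → ℂ}
    (hKc : Continuous K) (hKs : HasCompactSupport K) (x : Xinf F) (g : GF F) :
    Integrable (fun y => K (fun w => hdist (x w) (y w)) * Φ y g) (infMeasure F) := by
  obtain ⟨R, hR⟩ := hKs.isCompact.isBounded.subset_closedBall 0
  obtain ⟨W, hW, hWy⟩ := exists_compact_dist x R
  obtain ⟨C, hC⟩ := hKc.bounded_above_of_compact_support hKs
  have hkc : Continuous fun y : Xinf F => K fun w => hdist (x w) (y w) :=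
    hKc.comp (continuous_pi fun w => continuous_hdist.comp (continuous_const.prodMk (continuous_apply w)))
  have h1 : IntegrableOn (fun y => K (fun w => hdist (x w) (y w)) * Φ y g) W (infMeasure F) :=
    ((hl.locInt g).integrableOn_isCompact hW).bdd_mul hkc.aestronglyMeasurable
      (Filter.Eventually.of_forall fun y => hC _)
  refine h1.integrable_of_forall_notMem_eq_zero fun y hy => ?_
  by_contra hne
  refine hy (hWy y fun w => ?_)
  have h2 := hR (subset_tsupport _ (left_ne_zero_of_mul hne))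
  rw [Metric.mem_closedBall, dist_zero_right] at h2
  exact (le_abs_self _).trans ((norm_le_pi_norm (fun w => hdist (x w) (y w)) w).trans h2)

set_option maxHeartbeats 1000000 in
/-- The operator is small high up, compared with the integrals nearby. -/
theorem Fam.exists_op_le_near [IsTotallyComplex F] [DecidableEq ι] {A : Fam ι (InfinitePlace F)}
    (hA : A.Reg) (hK : A.Kills (p : ℝ) fun _ => Real.log p) (hP : Places N p pl) (hN : 0 < N) :
    ∃ (K : ℝ) (H : Set (Cos F N)) (C : ℝ), H.Finite ∧ 0 ≤ C ∧ ∀ φ : Pt F N → ℂ,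
      (∀ (g : PG F) q, φ (g • q) = φ q) → LocForm (formOf φ) → ∀ q : Pt F N, ∃ g : PG F,
        ‖A.op pl φ q‖ₑ ≤ ENNReal.ofReal (C * hMax q ^ (-gain F)) * nearInt φ K H (g • q) := by
  classical
  haveI := Red.countable_cos (F := F) hN
  obtain ⟨T, R, c, κ, hT, hc, hκ, hcover⟩ := exists_balanced_cover (F := F) hN
  set ws : A.κ → List (HeightOneSpectrum (𝓞 F)) := fun k => (A.word k).map pl
  set H : Finset (Cos F N) := Finset.univ.biUnion fun k => wSupp N (ws k)
  obtain ⟨M, hM, hMper⟩ := exists_uniform_period hN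
    ((hT.toFinset ×ˢ H).image fun x => x.1.out * x.2.out)
  -- the box is bounded
  obtain ⟨Z, hZ⟩ := ((isCompact_univ_pi fun _ : Idx F => isCompact_Icc (a := (0 : ℝ)) (b := 1)).image
    (RS.continuous_boxVec M)).isBounded.subset_closedBall (0 : InfinitePlace F → ℂ)
  have hbox : ∀ z ∈ boxSet (Idx F), ∀ w, ‖boxVec M z w‖ ≤ |Z| := fun z hz w => by
    have h1 := hZ (Set.mem_image_of_mem _ ((Set.pi_mono fun _ _ => Set.Ico_subset_Icc_self) hz))
    rw [mem_closedBall_zero_iff] at h1
    exact (norm_le_pi_norm _ w).trans (h1.trans (le_abs_self Z))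
  choose L K₀ hL hdiff using fun k =>
    exists_radDiff (hA.lipschitz k) (hA.compact k) (2 * (|Z| / c))
  set K := ∑ k, |K₀ k|
  have hKk : ∀ k, K₀ k ≤ K := fun k =>
    (le_abs_self _).trans (Finset.single_le_sum (fun k _ => abs_nonneg (K₀ k)) (Finset.mem_univ k))
  set a : A.κ → Cos F N → ℝ := fun k d => ‖A.coef k‖ * ‖wordFin N (ws k) d.out‖ * L k
  set C₀ := ∑ k, ∑ d ∈ wSupp N (ws k), a k d
  have ha0 : ∀ k d, 0 ≤ a k d := fun k d =>
    mul_nonneg (mul_nonneg (norm_nonneg _) (norm_nonneg _)) (hL k)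
  have hC₀ : 0 ≤ C₀ := Finset.sum_nonneg fun k _ => Finset.sum_nonneg fun d _ => ha0 k d
  refine ⟨K, (H : Set (Cos F N)), C₀ * (2 * (|Z| / κ)), H.finite_toSet, by positivity,
    fun φ hinv hl q₁ => ?_⟩
  obtain ⟨g, hgT, hgt⟩ := hcover q₁
  refine ⟨g, ?_⟩
  have hinv' : ∀ γ r, φ (smulPt γ r) = φ r := fun γ r => by rw [← mk_smul, hinv]
  have haut : Automorphic N (formOf φ) := automorphic_formOf hinv'
  have hm : Measurable φ := measurable_of_slices fun c => by
    simpa [formOf, QuotientGroup.out_eq'] using hl.meas c.out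
  rw [← Fam.op_smul A hP hinv g q₁]
  set q := g • q₁
  set x := q.1
  set Ψ := formOf (A.op pl φ)
  have hq : A.op pl φ q = Ψ x q.2.out := by
    show _ = A.op pl φ (x, QuotientGroup.mk q.2.out)
    rw [QuotientGroup.out_eq']
  have hper : HasPeriod Ψ q.2.out M := Fam.hasPeriod_op A hP φ _ hM fun k d hd =>
    hMper _ haut _ (Finset.mem_image.2 ⟨(q.2, d), Finset.mem_product.2 ⟨hT.mem_toFinset.2 hgT.1,
      Finset.mem_biUnion.2 ⟨k, Finset.mem_univ _, hd⟩⟩, rfl⟩)
  have hcusp : ∫ z in boxSet (Idx F), Ψ (translate (boxVec M z) x) q.2.out = 0 :=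
    Fam.cusp_op hA hK hP hN hinv' hl q.2.out M hM hper.inv x
  set δ := 2 * (|Z| / κ) * hMax q₁ ^ (-gain F)
  set I := nearInt φ K (H : Set (Cos F N)) q
  set B : ℝ≥0∞ := ENNReal.ofReal (C₀ * δ) * I
  rw [show C₀ * (2 * (|Z| / κ)) * hMax q₁ ^ (-gain F) = C₀ * δ by simp only [δ]; ring]
  show ‖A.op pl φ q‖ₑ ≤ B
  -- each displacement
  have hpt : ∀ z ∈ boxSet (Idx F),
      ‖Ψ x q.2.out - Ψ (translate (boxVec M z) x) q.2.out‖ₑ ≤ B := by
    intro z hz
    set x' := translate (boxVec M z) x
    have hpos : 0 < hMax q₁ ^ gain F := Real.rpow_pos_of_pos (hMax_pos q₁) _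
    have hxx : ∀ w, hdist (x w) (x' w) ≤ δ := fun w => by
      refine (hdist_translate_le _ (x w)).trans ?_
      simp only [δ, Real.rpow_neg (hMax_pos q₁).le]
      rw [mul_assoc 2, ← div_eq_mul_inv, div_div]
      refine mul_le_mul_of_nonneg_left ?_ zero_le_two
      exact div_le_div₀ (abs_nonneg _) (hbox z hz w) (mul_pos hκ hpos) (hgt w)
    set δ' := min δ (2 * (|Z| / c))
    have hxx' : ∀ w, hdist (x w) (x' w) ≤ δ' := fun w => le_min (hxx w)
      ((hdist_translate_le _ (x w)).trans (mul_le_mul_of_nonneg_left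
        (div_le_div₀ (abs_nonneg _) (hbox z hz w) hc (hgT.2 w).2) zero_le_two))
    simp only [Ψ, Fam.formOf_op A hP, ← Finset.sum_sub_distrib, ← mul_sub]
    refine (enorm_sum_le _ _).trans ((Finset.sum_le_sum fun k _ => (enorm_sum_le _ _).trans
      (Finset.sum_le_sum (g := fun d => ENNReal.ofReal (a k d * δ) * I) fun d hd => ?_)).trans_eq ?_)
    · rw [enorm_mul, enorm_mul, ← mul_assoc]
      have hconv : ‖conv (A.rad k) (formOf φ) x (q.2.out * d.out) -
          conv (A.rad k) (formOf φ) x' (q.2.out * d.out)‖ₑ ≤ ENNReal.ofReal (L k * δ) * I := by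
        have hKc := (hA.lipschitz k).choose_spec.continuous
        rw [conv, conv, ← integral_sub (integrable_conv hl hKc (hA.compact k) x _)
          (integrable_conv hl hKc (hA.compact k) x' _)]
        refine (enorm_integral_le_lintegral_enorm _).trans ?_
        refine le_trans (lintegral_mono (g := (nearBall K x).indicator fun y =>
          ENNReal.ofReal (L k * δ) * ‖formOf φ y (q.2.out * d.out)‖ₑ) fun y => ?_) ?_
        · rw [← sub_mul, enorm_mul, ← ofReal_norm]
          have h1 := hdiff k K (hKk k) x x' y δ' (min_le_right _ _) hxx'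
          by_cases hy : y ∈ nearBall K x
          · rw [Set.indicator_of_mem hy] at h1 ⊢
            exact mul_le_mul' (ENNReal.ofReal_le_ofReal
              (h1.trans (mul_le_mul_of_nonneg_left (min_le_left _ _) (hL k)))) le_rfl
          · rw [Set.indicator_of_notMem hy] at h1 ⊢
            rw [ENNReal.ofReal_eq_zero.2 h1, zero_mul]
        · rw [lintegral_indicator (measurableSet_nearBall K x),
            lintegral_const_mul' _ _ ENNReal.ofReal_ne_top]
          refine mul_le_mul' le_rfl (le_of_eq_of_le ?_ (lintegral_nearBall_le hm K q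
            (d := d) (Finset.mem_biUnion.2 ⟨k, Finset.mem_univ _, hd⟩)))
          have e : q.2.out • d = (QuotientGroup.mk (q.2.out * d.out) : Cos F N) := by
            conv_lhs => rw [← QuotientGroup.out_eq' d]
            rfl
          simp only [formOf, e]
          rfl
      refine (mul_le_mul' le_rfl hconv).trans_eq ?_
      rw [← mul_assoc, ← ofReal_norm, ← ofReal_norm, ← ENNReal.ofReal_mul (norm_nonneg _),
        ← ENNReal.ofReal_mul (by positivity)]
      congr 2
      simp only [a, ws]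
      ring
    · simp only [B, C₀, Finset.sum_mul]
      rw [ENNReal.ofReal_sum_of_nonneg fun k _ => Finset.sum_nonneg fun d _ => by
        have := ha0 k d; have := hMax_pos q₁; positivity, Finset.sum_mul]
      refine Finset.sum_congr rfl fun k _ => ?_
      rw [ENNReal.ofReal_sum_of_nonneg fun d _ => by
        have := ha0 k d; have := hMax_pos q₁; positivity, Finset.sum_mul]
  rcases eq_or_ne B ⊤ with hB | hB
  · rw [hB]; exact le_top
  have hvol : (volume : Measure (Idx F → ℝ)) (boxSet (Idx F)) = 1 := RS.volume_boxSet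
  haveI : IsFiniteMeasure ((volume : Measure (Idx F → ℝ)).restrict (boxSet (Idx F))) :=
    ⟨by simp [hvol]⟩
  have hψm : Measurable fun z : Idx F → ℝ => Ψ (translate (boxVec M z) x) q.2.out := by
    simp only [Ψ, Fam.formOf_op A hP]
    exact Finset.measurable_sum _ fun k _ => Finset.measurable_sum _ fun d _ =>
      ((box_conv hl (hA.lipschitz k).choose_spec.continuous (hA.compact k) _ M x).1.const_mul
        _).const_mul _
  have hint : Integrable (fun z => Ψ x q.2.out - Ψ (translate (boxVec M z) x) q.2.out)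
      ((volume : Measure (Idx F → ℝ)).restrict (boxSet (Idx F))) := by
    refine ⟨(measurable_const.sub hψm).aestronglyMeasurable, ?_⟩
    rw [hasFiniteIntegral_iff_enorm]
    refine lt_of_le_of_lt (setLIntegral_mono measurable_const hpt) ?_
    rw [setLIntegral_const, hvol, mul_one]
    exact hB.lt_top
  have hval : A.op pl φ q =
      ∫ z in boxSet (Idx F), (Ψ x q.2.out - Ψ (translate (boxVec M z) x) q.2.out) := by
    have h2 : Integrable (fun z => Ψ (translate (boxVec M z) x) q.2.out)
        ((volume : Measure (Idx F → ℝ)).restrict (boxSet (Idx F))) := by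
      exact ((integrable_const (Ψ x q.2.out)).sub hint).congr
        (Filter.Eventually.of_forall fun z => by simp)
    rw [integral_sub (integrable_const _) h2, hcusp, sub_zero, setIntegral_const, hq]
    simp [Measure.real, hvol]
  rw [hval]
  refine (enorm_integral_le_lintegral_enorm _).trans ((setLIntegral_mono measurable_const hpt).trans
    (le_of_eq ?_))
  rw [setLIntegral_const, hvol, mul_one]

/-- Functions bounded by a power of the height are sent to functions bounded by a lower power. -/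
theorem Fam.exists_op_le_sup [IsTotallyComplex F] [DecidableEq ι] {A : Fam ι (InfinitePlace F)}
    (hA : A.Reg) (hK : A.Kills (p : ℝ) fun _ => Real.log p) (hP : Places N p pl) (hN : 0 < N)
    (a : ℝ) :
    ∃ C, 0 ≤ C ∧ ∀ φ : Pt F N → ℂ, (∀ (g : PG F) q, φ (g • q) = φ q) → LocForm (formOf φ) →
      ∀ M, 0 ≤ M → (∀ r, ‖φ r‖ ≤ M * hMax r ^ a) →
        ∀ q, ‖A.op pl φ q‖ ≤ C * M * hMax q ^ (a - gain F) := by
  haveI := Red.countable_cos (F := F) hN
  obtain ⟨K, H, C₀, hH, hC₀, hle⟩ := Fam.exists_op_le_near hA hK hP hN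
  obtain ⟨C₁, hC₁, hcmp⟩ := exists_hMax_Near K hH
  have hC1 : 0 < C₁ := one_pos.trans_le hC₁
  set V := infMeasure F (nearBall K fun _ => Hyp.org) * Measure.count H
  have hV : V ≠ ⊤ := ENNReal.mul_ne_top
    (isCompact_nearBall K (fun _ : InfinitePlace F => Hyp.org)).measure_lt_top.ne
    (Measure.count_apply_lt_top.2 hH).ne
  refine ⟨C₀ * C₁ ^ |a| * V.toReal,
    mul_nonneg (mul_nonneg hC₀ (Real.rpow_nonneg hC1.le _)) ENNReal.toReal_nonneg,
    fun φ hinv hl M hM hφ q => ?_⟩
  obtain ⟨g, hg⟩ := hle φ hinv hl q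
  have hnear : ∀ r, Near K H (g • q) r → ‖φ r‖ ≤ M * (C₁ ^ |a| * hMax q ^ a) := by
    intro r hr
    refine (hφ r).trans (mul_le_mul_of_nonneg_left ?_ hM)
    obtain ⟨h1, h2⟩ := hcmp _ _ hr
    rw [hMax_smul] at h1 h2
    rcases le_total 0 a with ha | ha
    · rw [abs_of_nonneg ha, ← Real.mul_rpow hC1.le (hMax_pos q).le]
      exact Real.rpow_le_rpow (hMax_pos r).le h2 ha
    · rw [abs_of_nonpos ha]
      calc hMax r ^ a ≤ (hMax q / C₁) ^ a :=
            Real.rpow_le_rpow_of_nonpos (div_pos (hMax_pos q) hC1)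
              (by rw [div_le_iff₀ hC1]; linarith) ha
        _ = C₁ ^ (-a) * hMax q ^ a := by
            rw [Real.div_rpow (hMax_pos q).le hC1.le, Real.rpow_neg hC1.le]
            ring
  have h0 : 0 ≤ C₀ * hMax q ^ (-gain F) := mul_nonneg hC₀ (Real.rpow_nonneg (hMax_pos q).le _)
  have h1 : 0 ≤ M * (C₁ ^ |a| * hMax q ^ a) := mul_nonneg hM
    (mul_nonneg (Real.rpow_nonneg hC1.le _) (Real.rpow_nonneg (hMax_pos q).le _))
  have h3 : nearInt φ K H (g • q) ≤ ENNReal.ofReal (M * (C₁ ^ |a| * hMax q ^ a)) * V :=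
    nearInt_le_of_bound hnear
  have h := hg.trans (mul_le_mul' le_rfl h3)
  rw [← ofReal_norm, ← ENNReal.ofReal_toReal hV, ← ENNReal.ofReal_mul h1,
    ← ENNReal.ofReal_mul h0, ENNReal.ofReal_le_ofReal_iff
      (mul_nonneg h0 (mul_nonneg h1 ENNReal.toReal_nonneg))] at h
  refine h.trans_eq ?_
  rw [sub_eq_add_neg, Real.rpow_add (hMax_pos q)]
  ring

/-- The bound by the integral on the quotient. -/
theorem Fam.exists_op_le_L1 [IsTotallyComplex F] [DecidableEq ι] {A : Fam ι (InfinitePlace F)}
    (hA : A.Reg) (hK : A.Kills (p : ℝ) fun _ => Real.log p) (hP : Places N p pl) (hN : 0 < N)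
    {w : Pt F N → ℝ≥0∞} (hw : IsPtWeight w) :
    ∃ C, 0 ≤ C ∧ ∀ φ : Pt F N → ℂ, (∀ (g : PG F) q, φ (g • q) = φ q) → Measurable φ →
      ∫⁻ r, ‖φ r‖ₑ ∂quotMeasure w ≠ ⊤ →
        ∀ q, ‖A.op pl φ q‖ ≤
          C * hMax q ^ (1 - gain F) * (∫⁻ r, ‖φ r‖ₑ ∂quotMeasure w).toReal := by
  obtain ⟨K, H, C₀, hH, hC₀, hle⟩ := Fam.exists_op_le_near hA hK hP hN
  obtain ⟨C₁, hC₁, hint⟩ := exists_nearInt_le hN K hH
  refine ⟨C₀ * C₁, mul_nonneg hC₀ hC₁, fun φ hinv hm hfin q => ?_⟩
  obtain ⟨g, hg⟩ := hle φ hinv (locForm_of_quot hN hw hinv hm hfin) q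
  have h := hg.trans (mul_le_mul' le_rfl (hint w hw φ hm hinv (g • q)))
  have h0 : 0 ≤ C₀ * hMax q ^ (-gain F) := mul_nonneg hC₀ (Real.rpow_nonneg (hMax_pos q).le _)
  have h1 : 0 ≤ C₁ * hMax q := mul_nonneg hC₁ (hMax_pos q).le
  rw [hMax_smul, ← ofReal_norm, ← ENNReal.ofReal_toReal hfin, ← ENNReal.ofReal_mul h1,
    ← ENNReal.ofReal_mul h0, ENNReal.ofReal_le_ofReal_iff
      (mul_nonneg h0 (mul_nonneg h1 ENNReal.toReal_nonneg))] at h
  refine h.trans_eq ?_
  rw [sub_eq_add_neg, Real.rpow_add (hMax_pos q), Real.rpow_one]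
  ring

/-- Where the operator is nonzero the function is nonzero at a point of comparable height. -/
theorem Fam.exists_op_support {A : Fam ι (InfinitePlace F)} (hA : A.Reg) (hP : Places N p pl) :
    ∃ C, 1 ≤ C ∧ ∀ (φ : Pt F N → ℂ) (q : Pt F N), A.op pl φ q ≠ 0 →
      ∃ r, φ r ≠ 0 ∧ hMax q ≤ C * hMax r ∧ hMax r ≤ C * hMax q := by
  classical
  choose R hR using fun k => (hA.compact k).isCompact.isBounded.subset_closedBall 0
  set K := ∑ k, Real.cosh (R k)
  set H : Finset (Cos F N) := Finset.univ.biUnion fun k => wSupp N ((A.word k).map pl)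
  obtain ⟨C, hC, hcmp⟩ := exists_hMax_Near K H.finite_toSet
  refine ⟨C, hC, fun φ q hne => ?_⟩
  have e : A.op pl φ q = formOf (A.op pl φ) q.1 q.2.out := by
    show _ = A.op pl φ (q.1, QuotientGroup.mk q.2.out)
    rw [QuotientGroup.out_eq']
  rw [e, Fam.formOf_op A hP] at hne
  obtain ⟨k, -, hk⟩ := Finset.exists_ne_zero_of_sum_ne_zero hne
  obtain ⟨d, hd, hd'⟩ := Finset.exists_ne_zero_of_sum_ne_zero hk
  have hc := right_ne_zero_of_mul (right_ne_zero_of_mul hd')
  obtain ⟨y, hy⟩ : ∃ y, A.rad k (fun w => hdist (q.1 w) (y w)) * formOf φ y (q.2.out * d.out) ≠ 0 := by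
    by_contra hall
    push Not at hall
    exact hc (by simp [conv, hall])
  refine ⟨(y, QuotientGroup.mk (q.2.out * d.out)), right_ne_zero_of_mul hy, hcmp _ _ ⟨fun w => ?_,
    d, Finset.mem_biUnion.2 ⟨k, Finset.mem_univ _, hd⟩, ?_⟩⟩
  · have h1 := hR k (subset_tsupport _ (left_ne_zero_of_mul hy))
    rw [Metric.mem_closedBall, dist_zero_right] at h1
    show coshDist (q.1 w) (y w) ≤ K
    refine le_trans ?_ (Finset.single_le_sum (fun k _ => (Real.cosh_pos (R k)).le) (Finset.mem_univ k))
    rw [← cosh_hdist]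
    exact Real.cosh_le_cosh.2 (((norm_le_pi_norm _ w).trans h1).trans (le_abs_self _))
  · show q.2.out • d = _
    conv_lhs => rw [← QuotientGroup.out_eq' d]
    rfl

end FLTAgent.LT.Aleph
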