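import Fermat.Agent.LT.RS.Torus

/-!
Integrals of measurable periodic functions over the unit box are unchanged by integral dilations
and by translations.
-/

set_option autoImplicit false
set_option linter.unusedSectionVars false

noncomputable section

namespace FLTAgent.LT.Aleph

open MeasureTheory UnitAddTorus
open FLTAgent.LT.RS (boxSet boxSet_ae_eq)
open FLTAgent.LT.Theta31 (rvec toTorus toTorus_eq_iff)

variable {d : Type*} [Fintype d]

local instance : MeasureSpace UnitAddCircle := ⟨AddCircle.haarAddCircle⟩

local instance : Measure.IsAddHaarMeasure (volume : Measure UnitAddCircle) :=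
  inferInstanceAs (Measure.IsAddHaarMeasure AddCircle.haarAddCircle)

local instance : IsProbabilityMeasure (volume : Measure UnitAddCircle) :=
  inferInstanceAs (IsProbabilityMeasure AddCircle.haarAddCircle)

/-- The representative in `(0, 1]`. -/
def torusRep (q : UnitAddTorus d) : d → ℝ := fun i => (AddCircle.equivIoc 1 0 (q i) : ℝ)

theorem measurable_torusRep : Measurable (torusRep (d := d)) :=
  measurable_pi_lambda _ fun i => measurable_subtype_coe.comp
    ((AddCircle.measurableEquivIoc 1 0).measurable.comp (measurable_pi_apply i))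

theorem toTorus_torusRep (q : UnitAddTorus d) : toTorus (torusRep q) = q :=
  funext fun i => (AddCircle.equivIoc 1 0).symm_apply_apply (q i)

variable {f : (d → ℝ) → ℂ}

theorem torusRep_eval (hper : ∀ (x : d → ℝ) (v : d → ℤ), f (x + rvec v) = f x) (x : d → ℝ) :
    f (torusRep (toTorus x)) = f x := by
  obtain ⟨v, hv⟩ := toTorus_eq_iff.1 (toTorus_torusRep (toTorus x))
  conv_rhs => rw [hv, hper]

theorem box_integral_eq_torus (hper : ∀ (x : d → ℝ) (v : d → ℤ), f (x + rvec v) = f x) :
    ∫ y in boxSet d, f y = ∫ q, f (torusRep q) := by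
  rw [setIntegral_congr_set boxSet_ae_eq, UnitAddTorus.integral_preimage (fun q => f (torusRep q)) 0]
  exact setIntegral_congr_fun (MeasurableSet.univ_pi' fun _ => measurableSet_Ioc)
    fun y _ => (torusRep_eval hper y).symm

/-- Invariance of box integrals under `y ↦ k y + b`. -/
theorem integral_box_affine (hf : Measurable f)
    (hper : ∀ (x : d → ℝ) (v : d → ℤ), f (x + rvec v) = f x) {k : ℤ} (hk : k ≠ 0) (b : d → ℝ) :
    ∫ y in boxSet d, f ((k : ℝ) • y + b) = ∫ y in boxSet d, f y := by
  have hg : ∀ (x : d → ℝ) (v : d → ℤ),
      f ((k : ℝ) • (x + rvec v) + b) = f ((k : ℝ) • x + b) := fun x v => by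
    rw [show (k : ℝ) • (x + rvec v) + b = ((k : ℝ) • x + b) + rvec (k • v) by
      funext i; simp [rvec]; ring, hper]
  rw [box_integral_eq_torus (f := fun y => f ((k : ℝ) • y + b)) hg, box_integral_eq_torus hper]
  set F : UnitAddTorus d → ℂ := fun q => f (torusRep q)
  have hF : Measurable F := hf.comp measurable_torusRep
  set g : UnitAddTorus d → UnitAddTorus d := fun q => (fun i => k • q i) + toTorus b
  have h1 : MeasurePreserving (fun q : UnitAddTorus d => fun i => k • q i) volume volume :=
    measurePreserving_pi _ _ fun _ => MeasureTheory.Measure.measurePreserving_zsmul _ hk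
  have hp : MeasurePreserving g volume volume :=
    (measurePreserving_add_right volume (toTorus b)).comp h1
  have key : ∀ q, f ((k : ℝ) • torusRep q + b) = F (g q) := fun q => by
    have e : g q = toTorus ((k : ℝ) • torusRep q + b) := by
      funext i
      have hq : ((torusRep q i : ℝ) : UnitAddCircle) = q i := congrFun (toTorus_torusRep q) i
      simp only [g, toTorus, Pi.add_apply, Pi.smul_apply, smul_eq_mul, AddCircle.coe_add]
      rw [← hq, ← AddCircle.coe_zsmul, zsmul_eq_mul]
    simp only [F, e, torusRep_eval hper]
  simp only [key]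
  have := integral_map (μ := volume) hp.measurable.aemeasurable
    (f := F) hF.aestronglyMeasurable
  rw [hp.map_eq] at this
  exact this.symm

theorem integral_box_const (c : ℂ) : ∫ _y in boxSet d, c = c := by
  simp [measureReal_def, RS.volume_boxSet]

end FLTAgent.LT.Aleph
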