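import Fermat.Agent.LT.Hyp.AbelKernel
import Fermat.Agent.LT.TF.Action
import Mathlib.MeasureTheory.Function.LocallyIntegrable

/-!
Integrals of functions of the heights against products of radial kernels.
-/

set_option autoImplicit false
set_option linter.unusedSectionVars false

noncomputable section

namespace FLTAgent.LT.Aleph

open MeasureTheory Real

variable {P : Type*} [Fintype P]

/-- Logarithms of the heights. -/
def logHt (x : P → H3) : P → ℝ := fun w => Real.log ((x w).2 : ℝ)

/-- `K` has the horospherical integrals `e^{-Σ l} h(l)`. -/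
def HasAbel (K : (P → ℝ) → ℂ) (h : (P → ℝ) → ℂ) : Prop :=
  ∀ (x : P → H3) (f : (P → ℝ) → ℂ), LocallyIntegrable f →
    Integrable (fun y => K (fun w => hdist (x w) (y w)) * f (logHt y))
        (Measure.pi fun _ : P => hypMeasure) ∧
      ∫ y, K (fun w => hdist (x w) (y w)) * f (logHt y) ∂(Measure.pi fun _ : P => hypMeasure) =
        ∫ l, ((exp (-∑ w, l w) : ℝ) : ℂ) * h l * f (logHt x + l)

/-- A product of radial kernels. -/
def radProd (h : P → ℝ → ℝ) (r : P → ℝ) : ℂ := ∏ w, ((Hyp.radKer (h w) (r w) : ℝ) : ℂ)

/-- The product of the prescribed transforms. -/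
def prodFun (h : P → ℝ → ℝ) (l : P → ℝ) : ℂ := ∏ w, ((h w (l w) : ℝ) : ℂ)

/-- Horospherical coordinates at every place. -/
def horoPi (x : P → H3) : (P → ℝ) × (P → ℂ) ≃ᵐ (P → H3) :=
  (MeasurableEquiv.arrowProdEquivProdArrow ℝ ℂ P).symm.trans
    (MeasurableEquiv.piCongrRight fun w => Hyp.horoEquiv (x w))

theorem horoPi_apply (x : P → H3) (z : (P → ℝ) × (P → ℂ)) (w : P) :
    horoPi x z w = Hyp.horo (x w) (z.1 w, z.2 w) := rfl

theorem logHt_horoPi (x : P → H3) (z : (P → ℝ) × (P → ℂ)) :
    logHt (horoPi x z) = logHt x + z.1 := by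
  funext w
  simp [logHt, horoPi_apply, Hyp.log_horo_snd]

theorem measurePreserving_horoPi (x : P → H3) :
    MeasurePreserving (horoPi x) (volume : Measure ((P → ℝ) × (P → ℂ)))
      (Measure.pi fun _ : P => hypMeasure) := by
  have h1 : MeasurePreserving (MeasurableEquiv.arrowProdEquivProdArrow ℝ ℂ P).symm
      (volume : Measure ((P → ℝ) × (P → ℂ))) (Measure.pi fun _ : P => (volume : Measure (ℝ × ℂ))) :=
    (measurePreserving_arrowProdEquivProdArrow ℝ ℂ P (fun _ => volume) (fun _ => volume)).symm _
  exact (measurePreserving_pi _ _ fun w => Hyp.measurePreserving_horo (x w)).comp h1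

theorem hdist_horoPi (x : P → H3) (z : (P → ℝ) × (P → ℂ)) (w : P) :
    hdist (x w) (horoPi x z w) =
      arcosh (cosh (z.1 w) + exp (z.1 w) * Complex.normSq (z.2 w) / 2) := by
  rw [hdist, horoPi_apply, Hyp.coshDist_horo]

theorem continuous_hdist : Continuous fun p : H3 × H3 => hdist p.1 p.2 :=
  Real.continuousOn_arcosh.comp_continuous Hyp.continuous_coshDist fun _ => Hyp.one_le_coshDist _ _

/-- Products of radial kernels have product transforms. -/
theorem hasAbel_radProd {h : P → ℝ → ℝ} (H : ∀ w, Hyp.AbelDatum (h w)) :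
    HasAbel (radProd h) (prodFun h) := by
  intro x f hf
  classical
  choose R hR0 hR using fun w => (H w).exists_bound
  set K : P → ℝ → ℂ → ℂ := fun w l ζ =>
    ((Hyp.radKer (h w) (arcosh (cosh l + exp l * Complex.normSq ζ / 2)) : ℝ) : ℂ)
  have hKc : ∀ w, Continuous fun q : ℝ × ℂ => K w q.1 q.2 := fun w =>
    Complex.continuous_ofReal.comp ((H w).continuous_radKer.comp
      (Real.continuousOn_arcosh.comp_continuous (by fun_prop) fun q =>
        (one_le_cosh _).trans (le_add_of_nonneg_right
          (div_nonneg (mul_nonneg (exp_pos _).le (Complex.normSq_nonneg _)) zero_le_two))))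
  -- support in a fixed compact set
  have hsupp : ∀ w l ζ, K w l ζ ≠ 0 →
      |l| ≤ R w ∧ ‖ζ‖ ≤ sqrt (2 * cosh (R w) * exp (R w)) := by
    intro w l ζ hne
    have hlt : arcosh (cosh l + exp l * Complex.normSq ζ / 2) < R w := by
      by_contra hge
      exact hne (by simp [K, (hR w _ ((not_lt.1 hge).trans (le_abs_self _))).2.2])
    have hb : 0 ≤ exp l * Complex.normSq ζ / 2 :=
      div_nonneg (mul_nonneg (exp_pos _).le (Complex.normSq_nonneg _)) zero_le_two
    have hc := cosh_lt_cosh.2 (show |arcosh (cosh l + exp l * Complex.normSq ζ / 2)| < |R w| by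
      rwa [abs_of_nonneg (arcosh_nonneg ((one_le_cosh _).trans (le_add_of_nonneg_right hb))),
        abs_of_pos (hR0 w)])
    rw [cosh_arcosh ((one_le_cosh _).trans (le_add_of_nonneg_right hb))] at hc
    have hl : |l| ≤ R w := by
      have : cosh l ≤ cosh (R w) := by linarith
      have := cosh_le_cosh.1 this
      rwa [abs_of_pos (hR0 w)] at this
    refine ⟨hl, ?_⟩
    rw [← Real.sqrt_sq (norm_nonneg ζ), ← Complex.normSq_eq_norm_sq]
    refine Real.sqrt_le_sqrt ?_
    have h1 : exp (-R w) * Complex.normSq ζ ≤ exp l * Complex.normSq ζ :=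
      mul_le_mul_of_nonneg_right (exp_le_exp.2 (by linarith [neg_abs_le l]))
        (Complex.normSq_nonneg _)
    have h2 : exp (-R w) * Complex.normSq ζ ≤ 2 * cosh (R w) := by
      linarith [one_le_cosh l]
    calc Complex.normSq ζ = exp (-R w) * Complex.normSq ζ * exp (R w) := by
          rw [mul_right_comm, ← exp_add, neg_add_cancel, exp_zero, one_mul]
      _ ≤ _ := mul_le_mul_of_nonneg_right h2 (exp_pos _).le
  choose M hM using fun w => (H w).continuous_radKer.bounded_above_of_compact_support
    (HasCompactSupport.intro (K := Set.Icc (-R w) (R w)) isCompact_Icc fun r hr =>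
      (hR w r (by
        rcases lt_or_ge r (-R w) with h' | h'
        · rw [abs_of_neg (by linarith [hR0 w])]; linarith
        · have : R w < r := by by_contra h''; exact hr ⟨h', not_lt.1 h''⟩
          exact this.le.trans (le_abs_self r))).2.2)
  set G : (P → ℝ) × (P → ℂ) → ℂ := fun z => (∏ w, K w (z.1 w) (z.2 w)) * f (logHt x + z.1)
  have hG : ∀ z, radProd h (fun w => hdist (x w) (horoPi x z w)) * f (logHt (horoPi x z)) = G z :=
    fun z => by simp [G, radProd, K, hdist_horoPi, logHt_horoPi]
  set A : Set (P → ℝ) := Set.pi Set.univ fun w => Set.Icc (-R w) (R w)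
  set B : Set (P → ℂ) := Set.pi Set.univ fun w =>
    Metric.closedBall 0 (sqrt (2 * cosh (R w) * exp (R w)))
  have hA : IsCompact A := isCompact_univ_pi fun _ => isCompact_Icc
  have hB : IsCompact B := isCompact_univ_pi fun _ => isCompact_closedBall _ _
  have hf' : IntegrableOn (fun l => f (logHt x + l)) A := by
    have := (hf.integrableOn_isCompact (hA.image (continuous_const_add (logHt x))))
    rwa [(measurePreserving_add_left volume (logHt x)).integrableOn_image
      (measurableEmbedding_addLeft _)] at this
  have hGm : AEStronglyMeasurable G (volume : Measure ((P → ℝ) × (P → ℂ))) := by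
    refine ((continuous_finsetProd _ fun w _ => (hKc w).comp
      (((continuous_apply w).comp continuous_fst).prodMk
        ((continuous_apply w).comp continuous_snd))).aestronglyMeasurable).mul ?_
    rw [Measure.volume_eq_prod]
    exact (hf.aestronglyMeasurable.comp_quasiMeasurePreserving
      (measurePreserving_add_left volume (logHt x)).quasiMeasurePreserving).comp_fst
  have hGi : Integrable G := by
    have hb : Integrable (fun z : (P → ℝ) × (P → ℂ) =>
        (∏ w, M w) * A.indicator (fun l => ‖f (logHt x + l)‖) z.1 *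
          B.indicator (fun _ => (1 : ℝ)) z.2) := by
      rw [Measure.volume_eq_prod]
      refine (((integrable_indicator_iff hA.measurableSet).2 hf'.norm).const_mul _).mul_prod
        ((integrable_indicator_iff hB.measurableSet).2 (integrableOn_const hB.measure_lt_top.ne))
    refine hb.mono' hGm (Filter.Eventually.of_forall fun z => ?_)
    have hM0 : ∀ w, 0 ≤ M w := fun w => (norm_nonneg _).trans (hM w 0)
    by_cases hz : ∀ w, K w (z.1 w) (z.2 w) ≠ 0
    · have ha : z.1 ∈ A := fun w _ => abs_le.1 (hsupp w _ _ (hz w)).1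
      have hb' : z.2 ∈ B := fun w _ => by simpa using (hsupp w _ _ (hz w)).2
      rw [Set.indicator_of_mem ha, Set.indicator_of_mem hb', mul_one, norm_mul, norm_prod]
      refine mul_le_mul_of_nonneg_right (Finset.prod_le_prod (fun w _ => norm_nonneg _)
        fun w _ => ?_) (norm_nonneg _)
      simpa [K, Complex.norm_real] using hM w _
    · push Not at hz
      obtain ⟨w, hw⟩ := hz
      rw [show G z = 0 by
        simp only [G, Finset.prod_eq_zero (f := fun w => K w (z.1 w) (z.2 w)) (Finset.mem_univ w) hw,
          zero_mul], norm_zero]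
      exact mul_nonneg (mul_nonneg (Finset.prod_nonneg fun w _ => hM0 w)
        (Set.indicator_nonneg (fun _ _ => norm_nonneg _) _))
        (Set.indicator_nonneg (fun _ _ => zero_le_one) _)
  have hp := measurePreserving_horoPi x
  refine ⟨(hp.integrable_comp_emb (horoPi x).measurableEmbedding).1 (by simpa only [Function.comp_def, hG] using hGi), ?_⟩
  rw [← hp.integral_comp (horoPi x).measurableEmbedding]
  simp only [hG]
  rw [Measure.volume_eq_prod, integral_prod G (Measure.volume_eq_prod (P → ℝ) (P → ℂ) ▸ hGi)]
  refine integral_congr_ae (Filter.Eventually.of_forall fun l => ?_)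
  simp only [G]
  rw [integral_mul_const, volume_pi, integral_fintype_prod_eq_prod (fun w ζ => K w (l w) ζ)]
  congr 1
  have hone : ∀ w, ∫ ζ : ℂ, K w (l w) ζ = ((exp (-l w) : ℝ) : ℂ) * ((h w (l w) : ℝ) : ℂ) := fun w => by
    rw [← Complex.ofReal_mul, ← (H w).integral_radKer]
    exact integral_ofReal
  simp only [hone, Finset.prod_mul_distrib, prodFun, ← Finset.sum_neg_distrib, exp_sum,
    Complex.ofReal_prod]

end FLTAgent.LT.Aleph
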