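import Fermat.Agent.LT.RS.Coef
import Fermat.Agent.LT.TF.Aleph.Box
import Fermat.Agent.LT.TF.Aleph.Height

/-!
Constant terms of measurable automorphic functions: independence of the period, dependence on the
heights only, invariance under adelic unipotents and under integral diagonal matrices, local
integrability.
-/

set_option autoImplicit false
set_option linter.unusedSectionVars false

noncomputable section

namespace FLTAgent.LT.Aleph

open NumberField IsDedekindDomain MeasureTheory
open FLTAgent.LT.RS (boxSet HasPeriod ptX Idx)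
open FLTAgent.LT.Theta31 (rvec)

variable {F : Type*} [Field F] [NumberField F]

variable (F) in
/-- The measure at infinity. -/
abbrev infMeasure : Measure (Xinf F) := Measure.pi fun _ : InfinitePlace F => hypMeasure

/-- Measurable and locally integrable in the variable at infinity. -/
structure LocForm (Φ : Form F) : Prop where
  meas : ∀ g, Measurable fun x => Φ x g
  locInt : ∀ g, LocallyIntegrable (fun x => Φ x g) (infMeasure F)

/-! ### Translations -/

theorem translate_translate (z z' : InfinitePlace F → ℂ) (x : Xinf F) :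
    translate z (translate z' x) = translate (z' + z) x := by
  funext w; simp [translate, add_assoc]

theorem continuous_translate_uncurry :
    Continuous fun p : (InfinitePlace F → ℂ) × Xinf F => translate p.1 p.2 := by
  unfold translate; fun_prop

theorem continuous_translate (z : InfinitePlace F → ℂ) : Continuous (translate (F := F) z) :=
  continuous_translate_uncurry.comp (continuous_const.prodMk continuous_id)

theorem continuous_boxTranslate (m : ℕ) :
    Continuous fun p : (Idx F → ℝ) × Xinf F => translate (boxVec m p.1) p.2 :=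
  continuous_translate_uncurry.comp
    (((RS.continuous_boxVec m).comp continuous_fst).prodMk continuous_snd)

theorem translate_eq_act (z : InfinitePlace F → ℂ) (x : Xinf F) :
    translate z x = fun w => act (Hyp.upperC 1 (z w) 1 one_ne_zero one_ne_zero) (x w) := by
  funext w
  refine Hyp.measurableEmbedding_emb.injective ?_
  rw [Hyp.act_upperC]
  simp [translate, Hyp.emb]

theorem measurePreserving_translate (z : InfinitePlace F → ℂ) :
    MeasurePreserving (translate z) (infMeasure F) (infMeasure F) := by
  rw [show (translate z : Xinf F → Xinf F) = _ from funext (translate_eq_act z)]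
  exact measurePreserving_pi _ _ fun w => Hyp.measurePreserving_act _

theorem measurableEmbedding_translate (z : InfinitePlace F → ℂ) :
    MeasurableEmbedding (translate (F := F) z) :=
  MeasurableEquiv.measurableEmbedding
    { toEquiv :=
        { toFun := translate z
          invFun := translate (-z)
          left_inv := fun x => by funext w; simp [translate]
          right_inv := fun x => by funext w; simp [translate] }
      measurable_toFun := (continuous_translate z).measurable
      measurable_invFun := (continuous_translate (-z)).measurable }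

theorem logHt_translate (z : InfinitePlace F → ℂ) (x : Xinf F) :
    logHt (translate z x) = logHt x := rfl

theorem hdist_translate (z : InfinitePlace F → ℂ) (x y : Xinf F) (w : InfinitePlace F) :
    hdist (translate z x w) (translate z y w) = hdist (x w) (y w) := by
  simp [hdist, coshDist, translate]

/-! ### The constant term -/

/-- The box average. -/
def ctm (Φ : Form F) (m : ℕ) (g : GF F) (x : Xinf F) : ℂ :=
  ∫ y in boxSet (Idx F), Φ (translate (boxVec m y) x) g

variable {Φ : Form F} {g : GF F}

theorem translate_boxVec_rvec {m : ℕ} (h : HasPeriod Φ g m) (x : Xinf F) (y : Idx F → ℝ)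
    (v : Idx F → ℤ) :
    Φ (translate (boxVec m (y + rvec v)) x) g = Φ (translate (boxVec m y) x) g := by
  rw [RS.boxVec_add, ← translate_translate, RS.boxVec_rvec, h.inv]

theorem measurable_boxFun (hm : Measurable fun x => Φ x g) (m : ℕ) (x : Xinf F) :
    Measurable fun y : Idx F → ℝ => Φ (translate (boxVec m y) x) g :=
  hm.comp ((continuous_boxTranslate m).comp (continuous_id.prodMk continuous_const)).measurable

theorem ctm_mul (hm : Measurable fun x => Φ x g) {m : ℕ} (h : HasPeriod Φ g m) {k : ℕ}
    (hk : 0 < k) (x : Xinf F) : ctm Φ (m * k) g x = ctm Φ m g x := by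
  have := integral_box_affine (measurable_boxFun hm m x) (translate_boxVec_rvec h x)
    (k := (k : ℤ)) (by exact_mod_cast hk.ne') 0
  simpa [ctm, RS.boxVec_smul] using this

theorem ctm_eq (hm : Measurable fun x => Φ x g) {m m' : ℕ} (h : HasPeriod Φ g m)
    (h' : HasPeriod Φ g m') (x : Xinf F) : ctm Φ m g x = ctm Φ m' g x := by
  rw [← ctm_mul hm h h'.pos, ← ctm_mul hm h' h.pos, mul_comm]

/-- The constant term. -/
def ct (Φ : Form F) (g : GF F) (x : Xinf F) : ℂ :=
  open Classical in if h : ∃ m, HasPeriod Φ g m then ctm Φ h.choose g x else 0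

theorem ct_eq (hm : Measurable fun x => Φ x g) {m : ℕ} (h : HasPeriod Φ g m) (x : Xinf F) :
    ct Φ g x = ctm Φ m g x := by
  classical
  have hex : ∃ m, HasPeriod Φ g m := ⟨m, h⟩
  rw [ct, dif_pos hex, ctm_eq hm hex.choose_spec h]

variable {N : ℕ}

theorem ct_mul_right (hN : 0 < N) (ha : Automorphic N Φ) (hl : LocForm Φ) (g : GF F) {k : GF F}
    (hk : k ∈ UZ F N) (x : Xinf F) : ct Φ (g * k) x = ct Φ g x := by
  have he : ∀ y, Φ y (g * k) = Φ y g := by
    refine Subgroup.closure_induction (p := fun k _ => ∀ g y, Φ y (g * k) = Φ y g)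
      ?_ ?_ ?_ ?_ hk g
    · rintro k (hk | ⟨a, rfl⟩) g y
      · exact ha.right_inv k hk y g
      · exact ha.central a y g
    · intro g y; rw [mul_one]
    · intro a b _ _ iha ihb g y; rw [← mul_assoc, ihb, iha]
    · intro a _ iha g y
      conv_rhs => rw [← inv_mul_cancel_right g a, iha]
  obtain ⟨m, hm⟩ := RS.exists_hasPeriod hN ha g
  have hm' : HasPeriod Φ (g * k) m := ⟨hm.pos, fun β y => by rw [he, he, hm.inv]⟩
  rw [ct_eq (hl.meas _) hm' x, ct_eq (hl.meas _) hm x]
  simp only [ctm, he]

theorem ctm_translate [IsTotallyComplex F] (hm : Measurable fun x => Φ x g) {m : ℕ}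
    (h : HasPeriod Φ g m) (z : InfinitePlace F → ℂ) (x : Xinf F) :
    ctm Φ m g (translate z x) = ctm Φ m g x := by
  set b : Idx F → ℝ := (RS.boxEquiv F).symm ((m : ℝ)⁻¹ • z)
  have hb : boxVec m b = z := by
    rw [RS.boxVec_eq_smul, ← RS.boxEquiv_apply, LinearEquiv.apply_symm_apply, smul_inv_smul₀]
    exact_mod_cast h.pos.ne'
  have e : ∀ y, translate (boxVec m y) (translate z x) =
      translate (boxVec m (((1 : ℤ) : ℝ) • y + b)) x := fun y => by
    rw [translate_translate, Int.cast_one, one_smul, RS.boxVec_add, hb, add_comm]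
  simp only [ctm, e]
  exact integral_box_affine (measurable_boxFun hm m x) (translate_boxVec_rvec h x) one_ne_zero b

theorem ct_translate [IsTotallyComplex F] (hN : 0 < N) (ha : Automorphic N Φ) (hl : LocForm Φ)
    (g : GF F) (z : InfinitePlace F → ℂ) (x : Xinf F) : ct Φ g (translate z x) = ct Φ g x := by
  obtain ⟨m, hm⟩ := RS.exists_hasPeriod hN ha g
  rw [ct_eq (hl.meas g) hm, ct_eq (hl.meas g) hm, ctm_translate (hl.meas g) hm]

/-- Invariance under adelic unipotents. -/
theorem ct_upper_mul [IsTotallyComplex F] (hN : 0 < N) (ha : Automorphic N Φ) (hl : LocForm Φ)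
    (g : GF F) (b : Af F) (x : Xinf F) : ct Φ (upperGF 1 b * g) x = ct Φ g x := by
  obtain ⟨D, hD, hsmall⟩ := RS.exists_conj_bound g
  obtain ⟨η, hη⟩ := Red.exists_sub_le b (Nat.mul_pos hD hN)
  have hval := fun y => RS.apply_upperGF_mul ha (hsmall N _ hη) y
  obtain ⟨m, hm⟩ := RS.exists_hasPeriod hN ha g
  have hm' : HasPeriod Φ (upperGF 1 b * g) m := ⟨hm.pos, fun β y => by
    rw [hval, hval, translate_translate, add_comm, ← translate_translate, hm.inv]⟩
  rw [ct_eq (hl.meas _) hm', ← ct_translate hN ha hl g (-RS.embF η), ct_eq (hl.meas g) hm]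
  simp only [ctm, hval, translate_translate, add_comm]

/-- `diag(a, 1)`. -/
def diagF (a : Fˣ) : GL (Fin 2) F where
  val := !![(a : F), 0; 0, 1]
  inv := !![((a⁻¹ : Fˣ) : F), 0; 0, 1]
  val_inv := by ext i j; fin_cases i <;> fin_cases j <;> simp [Matrix.mul_apply, Fin.sum_univ_two]
  inv_val := by ext i j; fin_cases i <;> fin_cases j <;> simp [Matrix.mul_apply, Fin.sum_univ_two]

theorem actInf_diagF (a : Fˣ) (x : Xinf F) (w : InfinitePlace F) :
    (actInf (diagF a) x w).1 = w.embedding (a : F) * (x w).1 ∧
      ((actInf (diagF a) x w).2 : ℝ) = ‖w.embedding (a : F)‖ * (x w).2 := by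
  constructor
  · simp [actInf, act, den, diagF]
  · simp [actInf, act, den, diagF, Matrix.det_fin_two]

theorem actInf_diagF_translate (a : Fˣ) (z : InfinitePlace F → ℂ) (x : Xinf F) :
    actInf (diagF a) (translate z x) =
      translate (fun w => w.embedding (a : F) * z w) (actInf (diagF a) x) := by
  funext w
  refine Prod.ext ?_ (Subtype.ext ?_)
  · rw [(actInf_diagF a _ w).1]
    simp only [translate, (actInf_diagF a x w).1, mul_add]
  · rw [(actInf_diagF a _ w).2]
    exact ((actInf_diagF a x w).2).symm

/-- Invariance under integral diagonal matrices. -/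
theorem ct_diag_mul (hN : 0 < N) (ha : Automorphic N Φ) (hl : LocForm Φ) (g : GF F) (k : ℤ)
    (a : Fˣ) (hak : (a : F) = k) (x : Xinf F) :
    ct Φ (toFin (diagF a) * g) (actInf (diagF a) x) = ct Φ g x := by
  have hk : k ≠ 0 := fun h => a.ne_zero (by rw [hak, h, Int.cast_zero])
  set γ := diagF a
  obtain ⟨m, hm⟩ := RS.exists_hasPeriod hN ha g
  obtain ⟨m', hm'⟩ := RS.exists_hasPeriod hN ha (toFin γ * g)
  have h1 := hm.mul hm'.pos
  have h2 := hm'.mul_left hm.pos
  rw [ct_eq (hl.meas _) h2, ct_eq (hl.meas g) h1]
  unfold ctm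
  rw [← integral_box_affine (measurable_boxFun (hl.meas _) (m * m') (actInf γ x))
    (translate_boxVec_rvec h2 (actInf γ x)) hk 0]
  refine setIntegral_congr_fun RS.measurableSet_boxSet fun y _ => ?_
  rw [add_zero, show boxVec (m * m') ((k : ℝ) • y) =
      fun w => w.embedding (a : F) * boxVec (m * m') y w from ?_,
    ← actInf_diagF_translate, ha.left_inv]
  funext w
  simp [boxVec, hak, Finset.mul_sum, map_intCast, mul_assoc, mul_left_comm]

/-! ### The constant term as a function of the heights -/

/-- The point with given logarithmic heights on the axis. -/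
def axisPt (L : InfinitePlace F → ℝ) : Xinf F := fun w => (0, ⟨Real.exp (L w), Real.exp_pos _⟩)

/-- The constant term in logarithmic heights. -/
def ctH (Φ : Form F) (g : GF F) (L : InfinitePlace F → ℝ) : ℂ := ct Φ g (axisPt L)

theorem ct_eq_ctH [IsTotallyComplex F] (hN : 0 < N) (ha : Automorphic N Φ) (hl : LocForm Φ)
    (g : GF F) (x : Xinf F) : ct Φ g x = ctH Φ g (logHt x) := by
  rw [ctH, ← ct_translate hN ha hl g (fun w => (x w).1) (axisPt (logHt x))]
  congr 1
  funext w
  exact Prod.ext (zero_add _).symm (Subtype.ext (Real.exp_log (x w).2.2).symm)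

theorem measurable_ctm (hm : Measurable fun x => Φ x g) (m : ℕ) :
    Measurable fun x => ctm Φ m g x :=
  (StronglyMeasurable.integral_prod_left'
    (μ := (volume : Measure (Idx F → ℝ)).restrict (boxSet (Idx F)))
    (f := fun p : (Idx F → ℝ) × Xinf F => Φ (translate (boxVec m p.1) p.2) g)
    (hm.comp (continuous_boxTranslate m).measurable).stronglyMeasurable).measurable

theorem locallyIntegrable_ctm (hm : Measurable fun x => Φ x g)
    (hi : LocallyIntegrable (fun x => Φ x g) (infMeasure F)) (m : ℕ) {W : Set (Xinf F)}
    (hW : IsCompact W) :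
    Integrable (fun p : (Idx F → ℝ) × Xinf F => Φ (translate (boxVec m p.1) p.2) g)
      (((volume : Measure (Idx F → ℝ)).restrict (boxSet (Idx F))).prod
        ((infMeasure F).restrict W)) := by
  have hbox : boxSet (Idx F) ⊆ Set.pi Set.univ fun _ : Idx F => Set.Icc (0 : ℝ) 1 :=
    Set.pi_mono fun _ _ => Set.Ico_subset_Icc_self
  set W' := (fun p : (Idx F → ℝ) × Xinf F => translate (boxVec m p.1) p.2) ''
    ((Set.pi Set.univ fun _ : Idx F => Set.Icc (0 : ℝ) 1) ×ˢ W)
  have hW' : IsCompact W' :=
    ((isCompact_univ_pi fun _ => isCompact_Icc).prod hW).image (continuous_boxTranslate m)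
  have hI := hi.integrableOn_isCompact hW'
  have hmeas := hm.comp (continuous_boxTranslate m).measurable
  have : IsFiniteMeasure ((volume : Measure (Idx F → ℝ)).restrict (boxSet (Idx F))) :=
    ⟨by simp [RS.volume_boxSet]⟩
  have hsub : ∀ y ∈ boxSet (Idx F), W ⊆ translate (boxVec m y) ⁻¹' W' :=
    fun y hy x hx => ⟨(y, x), ⟨hbox hy, hx⟩, rfl⟩
  refine (integrable_prod_iff hmeas.aestronglyMeasurable).2 ⟨?_, ?_⟩
  · refine ae_restrict_of_forall_mem RS.measurableSet_boxSet fun y hy => ?_
    refine ((measurePreserving_translate (boxVec m y)).restrict_preimage_emb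
      (measurableEmbedding_translate _) W').integrable_comp_emb
        (measurableEmbedding_translate _) |>.2 hI |>.mono_measure ?_
    exact Measure.restrict_mono (hsub y hy) le_rfl
  · refine Integrable.mono' (integrable_const (∫ x in W', ‖Φ x g‖ ∂infMeasure F))
      ((hmeas.norm.stronglyMeasurable.integral_prod_right
        (ν := (infMeasure F).restrict W))).aestronglyMeasurable
      (ae_restrict_of_forall_mem RS.measurableSet_boxSet fun y hy => ?_)
    rw [Real.norm_of_nonneg (integral_nonneg fun x => norm_nonneg _)]
    refine le_trans ?_ (le_of_eq ((measurePreserving_translate (boxVec m y)).setIntegral_preimage_emb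
      (measurableEmbedding_translate _) (fun x => ‖Φ x g‖) W'))
    refine setIntegral_mono_set ?_ (Filter.Eventually.of_forall fun x => norm_nonneg _)
      (Filter.Eventually.of_forall (hsub y hy))
    exact ((measurePreserving_translate (boxVec m y)).integrableOn_comp_preimage
      (measurableEmbedding_translate _)).2 hI.norm

theorem locallyIntegrable_ctH [IsTotallyComplex F] (hN : 0 < N) (ha : Automorphic N Φ)
    (hl : LocForm Φ) (g : GF F) : LocallyIntegrable (ctH Φ g) := by
  obtain ⟨m, hm⟩ := RS.exists_hasPeriod hN ha g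
  refine locallyIntegrable_iff.2 fun A hA => ?_
  set j : Xinf F := fun _ => Hyp.basePt
  set B : Set (InfinitePlace F → ℂ) := Set.pi Set.univ fun _ => Metric.closedBall (0 : ℂ) 1
  have hB : IsCompact B := isCompact_univ_pi fun _ => isCompact_closedBall _ _
  have hcont : Continuous (horoPi j) := by
    refine continuous_pi fun w => (Hyp.continuous_horo (j w)).comp ?_
    exact ((continuous_apply w).comp continuous_fst).prodMk ((continuous_apply w).comp continuous_snd)
  set W := horoPi j '' (A ×ˢ B)
  have h1 : IntegrableOn (fun x => ctm Φ m g x) W (infMeasure F) :=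
    (locallyIntegrable_ctm (hl.meas g) (hl.locInt g) m ((hA.prod hB).image hcont)).integral_prod_right
  have h2 := ((measurePreserving_horoPi j).integrableOn_image (horoPi j).measurableEmbedding).1 h1
  have h3 : ∀ p, ctm Φ m g (horoPi j p) = ctH Φ g p.1 := fun p => by
    rw [← ct_eq (hl.meas g) hm, ct_eq_ctH hN ha hl, logHt_horoPi]
    congr 1
    funext w
    simp [logHt, j, Hyp.basePt]
  rw [show (fun x => ctm Φ m g x) ∘ horoPi j = fun p => ctH Φ g p.1 from funext h3, IntegrableOn,
    Measure.volume_eq_prod, ← Measure.prod_restrict] at h2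
  refine h2.of_comp_fst (fun h => ?_)
  rw [Measure.restrict_eq_zero, volume_pi_pi] at h
  exact Finset.prod_ne_zero_iff.2 (fun w _ => (Metric.measure_closedBall_pos _ _ one_pos).ne') h

end FLTAgent.LT.Aleph
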