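import Fermat.Agent.LT.TF.Aleph.Poly
import Fermat.Agent.LT.TF.Aleph.Height
import Mathlib.MeasureTheory.Integral.Pi
import Mathlib.MeasureTheory.Measure.Lebesgue.Basic

/-!
Families of products of Hecke operators with radial factors which kill constant terms: the family
of three places, its constant coefficient, and its image for one place.
-/

set_option autoImplicit false
set_option linter.unusedSectionVars false

noncomputable section

namespace FLTAgent.LT.Aleph

open MeasureTheory AddMonoidAlgebra

/-- A finite family: a coefficient, a word in the places, a radial factor and its transform. -/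
structure Fam (ι P : Type*) where
  /-- The index type. -/
  κ : Type*
  /-- Finiteness. -/
  fintype : Fintype κ
  /-- The coefficients. -/
  coef : κ → ℂ
  /-- The words. -/
  word : κ → List ι
  /-- The radial factors. -/
  rad : κ → (P → ℝ) → ℂ
  /-- Their transforms. -/
  abel : κ → (P → ℝ) → ℂ

attribute [instance] Fam.fintype

variable {ι P : Type*} [DecidableEq ι] [Fintype P]

/-- The regularity of a family. -/
structure Fam.Reg (A : Fam ι P) : Prop where
  lipschitz : ∀ k, ∃ C, LipschitzWith C (A.rad k)
  compact : ∀ k, HasCompactSupport (A.rad k)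
  cont_abel : ∀ k, Continuous (A.abel k)
  compact_abel : ∀ k, HasCompactSupport (A.abel k)
  hasAbel : ∀ k, HasAbel (A.rad k) (A.abel k)

/-- The shift of a Hecke letter. -/
def letter (j : ι) : Grp ι P := (Pi.single j 1, 0)

/-- The operator of a word. -/
def monOp (js : List ι) : AddMonoidAlgebra ℂ (Grp ι P) :=
  (js.map fun j => symShift (letter j)).prod

/-- Locally integrable in the heights. -/
def SliceInt (G : Grp ι P → ℂ) : Prop := ∀ i, LocallyIntegrable fun L => G (i, L)

/-- The family annihilates every function invariant under the diagonal shift. -/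
def Fam.Kills (A : Fam ι P) (p : ℝ) (l : P → ℝ) : Prop :=
  ∀ G : Grp ι P → ℂ, SliceInt G → DiagPeriodic l G → ∀ g : Grp ι P,
    ∑ k, A.coef k * (p : ℂ) ^ (A.word k).length *
      ∫ x, A.abel k x * shiftOp (monOp (A.word k)) G (g + (0, x)) = 0

/-- The scalar on eigenvectors with vanishing Hecke eigenvalues. -/
def Fam.value (A : Fam ι P) : ℂ :=
  ∑ k, if A.word k = [] then A.coef k * ∫ x, A.abel k x else 0

theorem SliceInt.translate {G : Grp ι P → ℂ} (hG : SliceInt G) (a : Grp ι P) :
    SliceInt fun g => G (g + a) := fun i => by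
  have := hG (i + a.1)
  refine locallyIntegrable_iff.2 fun A hA => ?_
  have h1 := this.integrableOn_isCompact (hA.image (continuous_add_const a.2))
  rwa [(measurePreserving_add_right volume a.2).integrableOn_image
    (measurableEmbedding_addRight _)] at h1

/-- The slice integrable functions as a submodule. -/
def sliceSpace : Submodule ℂ (Grp ι P → ℂ) where
  carrier := {G | SliceInt G}
  zero_mem' _ := locallyIntegrable_zero
  add_mem' hf hg i := (hf i).add (hg i)
  smul_mem' c _ hf i := (hf i).smul c

theorem SliceInt.shiftOp {G : Grp ι P → ℂ} (hG : SliceInt G)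
    (x : AddMonoidAlgebra ℂ (Grp ι P)) : SliceInt (Aleph.shiftOp x G) :=
  shiftOp_mem (S := sliceSpace) (fun a _ hF => SliceInt.translate hF a) x G hG

theorem SliceInt.integrable {G : Grp ι P → ℂ} (hG : SliceInt G) {h : (P → ℝ) → ℂ}
    (hc : Continuous h) (hs : HasCompactSupport h) (g : Grp ι P) :
    Integrable fun x => h x * G (g + (0, x)) := by
  have h1 : LocallyIntegrable fun x => G (g + (0, x)) := by
    refine (hG.translate (0, g.2) g.1).congr (Filter.Eventually.of_forall fun x => ?_)
    show G _ = G _
    congr 1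
    exact Prod.ext (by simp) (add_comm _ _)
  exact h1.integrable_smul_left_of_hasCompactSupport hc hs

/-! ### The family of three places -/

/-- The symmetrised translate. -/
def symFun (g : ℝ → ℝ) (a : P → ℝ) (w : P) (x : ℝ) : ℝ := (g (x - a w) + g (x + a w)) / 2

theorem abelDatum_symFun {g : ℝ → ℝ} (hg : Hyp.AbelDatum g) (a : P → ℝ) (w : P) :
    Hyp.AbelDatum (symFun g a w) := by
  refine ⟨((hg.smooth.comp (contDiff_id.sub contDiff_const)).add
    (hg.smooth.comp (contDiff_id.add contDiff_const))).div_const 2, fun x => ?_, ?_⟩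
  · simp only [symFun]
    rw [show -x - a w = -(x + a w) by ring, show -x + a w = -(x - a w) by ring, hg.even, hg.even]
    ring
  · have h1 : HasCompactSupport fun x => g (x - a w) :=
      hg.compact.comp_homeomorph (Homeomorph.subRight (a w))
    have h2 : HasCompactSupport fun x => g (x + a w) :=
      hg.compact.comp_homeomorph (Homeomorph.addRight (a w))
    exact (h1.add h2).comp_left (g := fun y : ℝ => y / 2) (zero_div _)

theorem continuous_radProd {h : P → ℝ → ℝ} (H : ∀ w, Hyp.AbelDatum (h w)) :
    Continuous (radProd h) :=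
  continuous_finsetProd _ fun w _ =>
    Complex.continuous_ofReal.comp ((H w).continuous_radKer.comp (continuous_apply w))

theorem hasCompactSupport_radProd {h : P → ℝ → ℝ} (H : ∀ w, Hyp.AbelDatum (h w)) :
    HasCompactSupport (radProd h) := by
  choose R _ hR using fun w => (H w).exists_bound
  refine HasCompactSupport.intro (K := Set.pi Set.univ fun w => Set.Icc (-R w) (R w))
    (isCompact_univ_pi fun _ => isCompact_Icc) fun r hr => ?_
  simp only [Set.mem_pi, Set.mem_univ, true_implies, not_forall, Set.mem_Icc] at hr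
  obtain ⟨w, hw⟩ := hr
  refine Finset.prod_eq_zero (Finset.mem_univ w) ?_
  have : R w ≤ |r w| := by
    by_contra h
    exact hw ⟨by linarith [neg_abs_le (r w)], by linarith [le_abs_self (r w)]⟩
  simp [(hR w _ this).2.2]

theorem exists_lipschitz_prod {f : P → ℝ → ℂ} (hL : ∀ w, ∃ C, LipschitzWith C (f w))
    (hb : ∀ w, ∃ M, ∀ x, ‖f w x‖ ≤ M) (s : Finset P) :
    ∃ C, LipschitzWith C (fun r : P → ℝ => ∏ w ∈ s, f w (r w)) ∧
      ∃ M, ∀ r : P → ℝ, ‖∏ w ∈ s, f w (r w)‖ ≤ M := by
  classical
  induction s using Finset.induction_on with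
  | empty => exact ⟨0, by simp [LipschitzWith.const (1 : ℂ)], 1, fun r => by simp⟩
  | @insert w s hw ih =>
    obtain ⟨C, hC, M, hM⟩ := ih
    obtain ⟨L, hL'⟩ := hL w
    obtain ⟨B, hB⟩ := hb w
    have hM0 : 0 ≤ M := (norm_nonneg _).trans (hM 0)
    have hB0 : 0 ≤ B := (norm_nonneg _).trans (hB 0)
    refine ⟨(B * C + L * M).toNNReal, LipschitzWith.of_dist_le_mul fun r r' => ?_, B * M,
      fun r => ?_⟩
    · rw [Finset.prod_insert hw, Finset.prod_insert hw, dist_eq_norm,
        Real.coe_toNNReal _ (by positivity), add_mul,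
        show f w (r w) * (∏ x ∈ s, f x (r x)) - f w (r' w) * (∏ x ∈ s, f x (r' x)) =
          f w (r w) * ((∏ x ∈ s, f x (r x)) - ∏ x ∈ s, f x (r' x)) +
            (f w (r w) - f w (r' w)) * ∏ x ∈ s, f x (r' x) by ring]
      refine (norm_add_le _ _).trans (add_le_add ?_ ?_)
      · rw [norm_mul, mul_assoc]
        exact mul_le_mul (hB _) (by simpa [dist_eq_norm] using hC.dist_le_mul r r')
          (norm_nonneg _) hB0
      · rw [norm_mul, mul_right_comm]
        refine mul_le_mul ?_ (hM r') (norm_nonneg _) (by positivity)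
        rw [← dist_eq_norm]
        exact (hL'.dist_le_mul _ _).trans
          (mul_le_mul_of_nonneg_left (dist_le_pi_dist r r' w) L.coe_nonneg)
    · rw [Finset.prod_insert hw, norm_mul]
      exact mul_le_mul (hB _) (hM r) (norm_nonneg _) hB0

theorem exists_lipschitz_radProd {h : P → ℝ → ℝ} (H : ∀ w, Hyp.AbelDatum (h w)) :
    ∃ C, LipschitzWith C (radProd h) := by
  obtain ⟨C, hC, -⟩ := exists_lipschitz_prod (f := fun w x => ((Hyp.radKer (h w) x : ℝ) : ℂ))
    (fun w => by
      obtain ⟨C, hC⟩ := (H w).exists_lipschitz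
      exact ⟨C, LipschitzWith.of_dist_le_mul fun a b => by
        rw [Complex.isometry_ofReal.dist_eq]; exact hC.dist_le_mul a b⟩)
    (fun w => by
      obtain ⟨R, hR0, hR⟩ := (H w).exists_bound
      obtain ⟨M, hM⟩ := (H w).continuous_radKer.bounded_above_of_compact_support
        (HasCompactSupport.intro (K := Set.Icc (-R) R) isCompact_Icc fun r hr => by
          refine (hR r ?_).2.2
          by_contra h'
          exact hr ⟨by linarith [neg_abs_le r], by linarith [le_abs_self r]⟩)
      exact ⟨M, fun x => by simpa [Complex.norm_real] using hM x⟩) Finset.univ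
  exact ⟨C, hC⟩

theorem continuous_prodFun {h : P → ℝ → ℝ} (H : ∀ w, Hyp.AbelDatum (h w)) :
    Continuous (prodFun h) :=
  continuous_finsetProd _ fun w _ =>
    Complex.continuous_ofReal.comp ((H w).diff.continuous.comp (continuous_apply w))

theorem hasCompactSupport_prodFun {h : P → ℝ → ℝ} (H : ∀ w, Hyp.AbelDatum (h w)) :
    HasCompactSupport (prodFun h) := by
  refine HasCompactSupport.intro (K := Set.pi Set.univ fun w => tsupport (h w))
    (isCompact_univ_pi fun w => (H w).compact) fun x hx => ?_
  simp only [Set.mem_pi, Set.mem_univ, true_implies, not_forall] at hx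
  obtain ⟨w, hw⟩ := hx
  refine Finset.prod_eq_zero (Finset.mem_univ w) ?_
  simp [image_eq_zero_of_notMem_tsupport hw]

variable [DecidableEq P]

/-- The index of a term: a monomial and a translation in its coefficient. -/
abbrev TermIdx (l : P → ℝ) : Type _ :=
  Σ e : ↥(alephPoly l).support, ↥((MvPolynomial.coeff e.1 (alephPoly l)).coeff.support)

/-- The family of three places. -/
def alephFam (l : P → ℝ) (p : ℝ) (g : ℝ → ℝ) : Fam (Fin 3) P where
  κ := TermIdx l
  fintype := inferInstance
  coef k := (MvPolynomial.coeff k.1.1 (alephPoly l)).coeff k.2.1 /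
    (p : ℂ) ^ (Finsupp.toMultiset k.1.1).toList.length
  word k := (Finsupp.toMultiset k.1.1).toList
  rad k := radProd (symFun g k.2.1)
  abel k := prodFun (symFun g k.2.1)

variable {g : ℝ → ℝ}

theorem alephFam_reg (hg : Hyp.AbelDatum g) (l : P → ℝ) (p : ℝ) : (alephFam l p g).Reg := by
  refine ⟨fun k => ?_, fun k => ?_, fun k => ?_, fun k => ?_, fun k => ?_⟩
  · exact exists_lipschitz_radProd fun w => abelDatum_symFun hg _ w
  · exact hasCompactSupport_radProd fun w => abelDatum_symFun hg _ w
  · exact continuous_prodFun fun w => abelDatum_symFun hg _ w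
  · exact hasCompactSupport_prodFun fun w => abelDatum_symFun hg _ w
  · exact hasAbel_radProd fun w => abelDatum_symFun hg _ w

theorem monOp_toList (e : Fin 3 →₀ ℕ) :
    monOp (P := P) (Finsupp.toMultiset e).toList = e.prod fun j n => symShift (eVec j) ^ n := by
  rw [monOp, Multiset.prod_map_toList, Finsupp.toMultiset_map]
  rw [show (Finsupp.toMultiset (e.mapDomain fun j : Fin 3 =>
      symShift (letter (P := P) j))).prod = _ from Finsupp.prod_toMultiset _,
    Finsupp.prod_mapDomain_index (fun _ => pow_zero _) fun _ _ _ => pow_add _ _ _]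
  rfl

theorem toShifts_alephPoly (l : P → ℝ) (f : P → Bool) :
    toShifts f (alephPoly l) = ∑ k : TermIdx l,
      single (inHt (flipHom f k.2.1)) ((MvPolynomial.coeff k.1.1 (alephPoly l)).coeff k.2.1) *
        monOp (Finsupp.toMultiset k.1.1).toList := by
  conv_lhs => rw [MvPolynomial.as_sum (alephPoly l)]
  rw [map_sum, Fintype.sum_sigma, ← Finset.sum_coe_sort (alephPoly l).support]
  refine Finset.sum_congr rfl fun e _ => ?_
  dsimp only
  rw [toShifts, MvPolynomial.eval₂Hom_monomial, monOp_toList, ← Finset.sum_mul]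
  congr 1
  set c := MvPolynomial.coeff e.1 (alephPoly l)
  conv_lhs => rw [← sum_coeff_single c]
  rw [Finsupp.sum, map_sum, ← Finset.sum_coe_sort c.coeff.support]
  refine Finset.sum_congr rfl fun a _ => ?_
  simp

theorem prodFun_symFun (a x : P → ℝ) :
    prodFun (symFun g a) x =
      ∑ f : P → Bool, ((2 : ℂ) ^ Fintype.card P)⁻¹ * prodFun (fun _ => g) (x - flipHom f a) := by
  simp only [prodFun, symFun, Complex.ofReal_div, Complex.ofReal_add, Finset.prod_div_distrib,
    Complex.ofReal_ofNat, Finset.prod_const, Finset.card_univ]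
  rw [← Finset.mul_sum, div_eq_inv_mul]
  congr 1
  rw [Finset.prod_congr rfl fun w _ => show ((g (x w - a w) : ℝ) : ℂ) + (g (x w + a w) : ℝ) =
      ∑ b : Bool, ((g (x w - if b then a w else -a w) : ℝ) : ℂ) by simp,
    Fintype.prod_sum]
  simp [flipHom]

theorem alephFam_kills (hg : Hyp.AbelDatum g) (l : P → ℝ) {p : ℝ} (hp : p ≠ 0) :
    (alephFam l p g).Kills p l := by
  intro G hG hper g0
  set G0 := prodFun (P := P) fun _ => g
  have hG0c : Continuous G0 := continuous_prodFun fun _ => hg
  have hG0s : HasCompactSupport G0 := hasCompactSupport_prodFun fun _ => hg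
  have hp' : (p : ℂ) ≠ 0 := Complex.ofReal_ne_zero.2 hp
  set c : ℂ := ((2 : ℂ) ^ Fintype.card P)⁻¹
  have hterm : ∀ k : TermIdx l, (alephFam l p g).coef k *
      (p : ℂ) ^ ((alephFam l p g).word k).length *
        ∫ x, (alephFam l p g).abel k x * shiftOp (monOp ((alephFam l p g).word k)) G (g0 + (0, x)) =
      ∑ f : P → Bool, c * ∫ x, G0 x * shiftOp (single (inHt (flipHom f k.2.1))
        ((MvPolynomial.coeff k.1.1 (alephPoly l)).coeff k.2.1) *
          monOp (Finsupp.toMultiset k.1.1).toList) G (g0 + (0, x)) := by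
    intro k
    set H := shiftOp (monOp (P := P) (Finsupp.toMultiset k.1.1).toList) G
    have hH : SliceInt H := hG.shiftOp _
    show _ / _ * (p : ℂ) ^ (Finsupp.toMultiset k.1.1).toList.length *
      ∫ x, prodFun (symFun g k.2.1) x * H (g0 + (0, x)) = _
    rw [div_mul_cancel₀ _ (pow_ne_zero _ hp')]
    simp only [prodFun_symFun, Finset.sum_mul]
    have hint : ∀ f : P → Bool, Integrable fun x =>
        c * prodFun (fun _ => g) (x - flipHom f k.2.1) * H (g0 + (0, x)) := fun f =>
      hH.integrable (continuous_const.mul (hG0c.comp (continuous_id.sub continuous_const)))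
        ((hG0s.comp_homeomorph (Homeomorph.subRight (flipHom f k.2.1))).mul_left) g0
    rw [integral_finsetSum _ fun f _ => hint f, Finset.mul_sum]
    refine Finset.sum_congr rfl fun f _ => ?_
    simp only [mul_assoc, integral_const_mul, shiftOp_mul, shiftOp_single]
    rw [← integral_add_right_eq_self (fun x => prodFun (fun _ => g) (x - flipHom f k.2.1) *
      H (g0 + (0, x))) (flipHom f k.2.1), mul_left_comm, ← integral_const_mul]
    congr 1
    refine integral_congr_ae (Filter.Eventually.of_forall fun x => ?_)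
    simp only [add_sub_cancel_right, inHt, AddMonoidHom.inr_apply, add_assoc, Prod.mk_add_mk,
      add_zero, H]
    ring
  refine (Finset.sum_congr rfl fun k _ => hterm k).trans ?_
  refine Finset.sum_comm.trans (Finset.sum_eq_zero fun f _ => ?_)
  change (Finset.univ : Finset (TermIdx l)).sum (fun k => c * ∫ x, G0 x *
    shiftOp (single (inHt (flipHom f k.2.1))
      ((MvPolynomial.coeff k.1.1 (alephPoly l)).coeff k.2.1) *
        monOp (Finsupp.toMultiset k.1.1).toList) G (g0 + (0, x))) = 0
  rw [← Finset.mul_sum, ← integral_finsetSum]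
  · have h0 : (∑ k : TermIdx l, shiftOp (single (inHt (flipHom f k.2.1))
        ((MvPolynomial.coeff k.1.1 (alephPoly l)).coeff k.2.1) *
          monOp (Finsupp.toMultiset k.1.1).toList) G) = 0 := by
      rw [← LinearMap.sum_apply, ← map_sum, ← toShifts_alephPoly, shiftOp_aleph l f G hper]
    have h1 : ∀ x : P → ℝ, ∑ k : TermIdx l, G0 x * shiftOp (single (inHt (flipHom f k.2.1))
        ((MvPolynomial.coeff k.1.1 (alephPoly l)).coeff k.2.1) *
          monOp (Finsupp.toMultiset k.1.1).toList) G (g0 + (0, x)) = 0 := fun x => by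
      rw [← Finset.mul_sum, ← Finset.sum_apply, h0, Pi.zero_apply, mul_zero]
    simp only [h1, integral_zero, mul_zero]
  · exact fun k _ => (hG.shiftOp _).integrable hG0c hG0s g0

theorem integral_symFun (hg : Hyp.AbelDatum g) (a : P → ℝ) (w : P) :
    ∫ x, symFun g a w x = ∫ x, g x := by
  have hi := hg.diff.continuous.integrable_of_hasCompactSupport hg.compact (μ := volume)
  simp only [symFun]
  rw [integral_div, integral_add (hi.comp_sub_right (a w)) (hi.comp_add_right (a w)),
    integral_sub_right_eq_self g, integral_add_right_eq_self g]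
  ring

theorem alephFam_value (hg : Hyp.AbelDatum g) (l : P → ℝ) (p : ℝ) :
    (alephFam l p g).value =
      16 ^ 2 ^ Fintype.card P * ((∫ x, g x : ℝ) : ℂ) ^ Fintype.card P := by
  classical
  set Q := alephPoly l
  set I : ℂ := ((∫ x, g x : ℝ) : ℂ) ^ Fintype.card P
  have hI : ∀ a : P → ℝ, ∫ x, prodFun (symFun g a) x = I := fun a => by
    simp only [prodFun]
    rw [volume_pi, integral_fintype_prod_eq_prod fun w (x : ℝ) => ((symFun g a w x : ℝ) : ℂ)]
    have e : ∀ w, ∫ x, ((symFun g a w x : ℝ) : ℂ) = ((∫ x, g x : ℝ) : ℂ) := fun w => by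
      rw [← integral_symFun hg a w]; exact integral_ofReal
    simp [e, I]
  have hw : ∀ e : Fin 3 →₀ ℕ, (Finsupp.toMultiset e).toList = [] ↔ e = 0 := fun e => by
    rw [Multiset.toList_eq_nil]
    exact ⟨fun h => by simpa using congrArg Multiset.toFinsupp h, fun h => by simp [h]⟩
  have hc : ∑ a ∈ (MvPolynomial.coeff 0 Q).coeff.support, (MvPolynomial.coeff 0 Q).coeff a =
      16 ^ 2 ^ Fintype.card P := by
    rw [← alephPoly_value l, MvPolynomial.constantCoeff_eq]
    conv_rhs => rw [← sum_coeff_single (MvPolynomial.coeff 0 (alephPoly l))]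
    simp [Finsupp.sum, Q]
  rw [Fam.value]
  change ∑ k : TermIdx l, (if (Finsupp.toMultiset k.1.1).toList = [] then
    (MvPolynomial.coeff k.1.1 Q).coeff k.2.1 / (p : ℂ) ^ _ * ∫ x, prodFun (symFun g k.2.1) x
    else 0) = _
  rw [Fintype.sum_sigma]
  have step : ∀ e : ↥Q.support, (∑ a : ↥((MvPolynomial.coeff e.1 Q).coeff.support),
      if (Finsupp.toMultiset e.1).toList = [] then
        (MvPolynomial.coeff e.1 Q).coeff a.1 / (p : ℂ) ^ (Finsupp.toMultiset e.1).toList.length *
          ∫ x, prodFun (symFun g a.1) x else 0) =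
      if e.1 = 0 then 16 ^ 2 ^ Fintype.card P * I else 0 := fun e => by
    by_cases he : e.1 = 0
    · rw [if_pos he]
      obtain ⟨e, hmem⟩ := e
      subst he
      simp only [map_zero, Multiset.toList_zero, List.length_nil, pow_zero, div_one, if_true,
        hI, ← Finset.sum_mul]
      rw [Finset.sum_coe_sort (MvPolynomial.coeff 0 Q).coeff.support
        (fun a => (MvPolynomial.coeff 0 Q).coeff a), hc]
    · simp [he, hw]
  refine (Finset.sum_congr rfl fun e _ => step e).trans ?_
  rw [Finset.sum_coe_sort Q.support fun e => if e = 0 then (16 : ℂ) ^ 2 ^ Fintype.card P * I else 0,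
    Finset.sum_ite_eq', if_pos]
  rw [MvPolynomial.mem_support_iff]
  intro h
  have h16 : (16 : ℂ) ^ 2 ^ Fintype.card P = 0 := by
    rw [← alephPoly_value l, MvPolynomial.constantCoeff_eq]
    show AddMonoidAlgebra.lift ℂ ℂ (P → ℝ) 1 (MvPolynomial.coeff 0 Q) = 0
    rw [h, map_zero]
  exact absurd h16 (pow_ne_zero _ (by norm_num))

/-! ### The image for one place -/

theorem DiagPeriodic.iterate {l : P → ℝ} {G : Grp ι P → ℂ} (h : DiagPeriodic l G) :
    ∀ (n : ℕ) (i : ι → ℤ) (L : P → ℝ), G (i + (n : ι → ℤ), L + n • l) = G (i, L)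
  | 0, i, L => by simp
  | n + 1, i, L => by
    rw [Nat.cast_succ, ← add_assoc, succ_nsmul, ← add_assoc, h, DiagPeriodic.iterate h n]

variable {ι' P' : Type*} [Fintype ι] [Unique ι'] [Unique P'] [Fintype P'] [DecidableEq ι']

/-- The projection of the shifts. -/
def projHom : Grp ι P →+ Grp ι' P' where
  toFun a := (fun _ => ∑ j, a.1 j, fun _ => ∑ w, a.2 w)
  map_zero' := by ext <;> simp
  map_add' a b := by ext <;> simp [Finset.sum_add_distrib]

theorem shiftOp_comp_proj (x : AddMonoidAlgebra ℂ (Grp ι P)) (G : Grp ι' P' → ℂ) (g : Grp ι P) :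
    shiftOp x (fun a => G (projHom a)) g = shiftOp (mapDomainRingHom ℂ projHom x) G (projHom g) := by
  conv_lhs => rw [← sum_coeff_single x]
  conv_rhs => rw [← sum_coeff_single x]
  simp [Finsupp.sum, LinearMap.sum_apply, Finset.sum_apply, shiftOp_single]

theorem map_monOp (js : List ι) :
    mapDomainRingHom ℂ (projHom (ι' := ι') (P' := P')) (monOp (P := P) js) =
      monOp (List.replicate js.length (default : ι')) := by
  induction js with
  | nil => simp [monOp]
  | cons j js ih =>
    rw [List.length_cons, List.replicate_succ]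
    simp only [monOp, List.map_cons, List.prod_cons, map_mul] at ih ⊢
    rw [ih, symShift_map]
    congr 2
    refine Prod.ext (funext fun i => ?_) (funext fun w => by simp [projHom, letter])
    simp [projHom, letter, Unique.eq_default i]

theorem locallyIntegrable_comp_sum [Nonempty P] {f : (P' → ℝ) → ℂ} (hf : LocallyIntegrable f) :
    LocallyIntegrable fun x : P → ℝ => f fun _ => ∑ w, x w := by
  classical
  obtain ⟨w0⟩ := ‹Nonempty P›
  set f1 : ℝ → ℂ := fun s => f fun _ => s
  have hf1 : LocallyIntegrable f1 := by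
    refine locallyIntegrable_iff.2 fun A hA => ?_
    have hA' : IsCompact ((fun s : ℝ => (fun _ : P' => s)) '' A) :=
      hA.image (continuous_pi fun _ => continuous_id)
    have hm : MeasurePreserving (MeasurableEquiv.funUnique P' ℝ).symm volume volume := by
      convert (volume_preserving_funUnique P' ℝ).symm _
    exact (hm.integrableOn_image (MeasurableEquiv.measurableEmbedding _)).1
      (hf.integrableOn_isCompact hA')
  -- change the coordinate `w0` to the sum
  set T : (P → ℝ) →ₗ[ℝ] (P → ℝ) := LinearMap.pi fun w =>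
    if w = w0 then ∑ u, LinearMap.proj u else LinearMap.proj w
  have hT : ∀ x w, T x w = if w = w0 then ∑ u, x u else x w := fun x w => by
    by_cases h : w = w0 <;> simp [T, h]
  have hinj : Function.Injective T := fun x y h => by
    have hne : ∀ w, w ≠ w0 → x w = y w := fun w hw => by
      simpa [hT, hw] using congrFun h w
    funext w
    by_cases hw : w = w0
    · subst hw
      have := congrFun h w
      rw [hT, hT, if_pos rfl, if_pos rfl, ← Finset.add_sum_erase _ _ (Finset.mem_univ w),
        ← Finset.add_sum_erase _ _ (Finset.mem_univ w),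
        Finset.sum_congr rfl fun u hu => hne u (Finset.ne_of_mem_erase hu)] at this
      linarith
    · exact hne w hw
  have hdet : LinearMap.det T ≠ 0 := fun h =>
    (LinearMap.bot_lt_ker_of_det_eq_zero h).ne' (LinearMap.ker_eq_bot.2 hinj)
  refine locallyIntegrable_iff.2 fun A hA => ?_
  obtain ⟨R, hR⟩ := (Metric.isBounded_iff_subset_closedBall (0 : P → ℝ)).1
    (hA.image T.continuous_of_finiteDimensional).isBounded
  set B : Set (P → ℝ) := Set.pi Set.univ fun _ => Set.Icc (-R) R
  have hB : IntegrableOn (fun y : P → ℝ => f1 (y w0)) B := by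
    have : IsFiniteMeasure ((volume : Measure ℝ).restrict (Set.Icc (-R) R)) :=
      ⟨by simp⟩
    rw [IntegrableOn, volume_pi, Measure.restrict_pi_pi]
    exact integrable_comp_eval (μ := fun _ : P => (volume : Measure ℝ).restrict (Set.Icc (-R) R))
      (hf1.integrableOn_isCompact isCompact_Icc)
  have hsub : A ⊆ T ⁻¹' B := fun x hx w _ => by
    have h1 := hR ⟨x, hx, rfl⟩
    rw [Metric.mem_closedBall, dist_zero_right] at h1
    exact abs_le.1 ((norm_le_pi_norm (T x) w).trans h1)
  have he : MeasurableEmbedding T := (LinearMap.isClosedEmbedding_of_injective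
    (LinearMap.ker_eq_bot.2 hinj)).measurableEmbedding
  have hmap := Real.map_linearMap_volume_pi_eq_smul_volume_pi hdet
  have h2 : IntegrableOn ((fun y : P → ℝ => f1 (y w0)) ∘ T) (T ⁻¹' B) := by
    rw [← he.integrableOn_map_iff, hmap, IntegrableOn, Measure.restrict_smul]
    exact hB.smul_measure ENNReal.ofReal_ne_top
  refine (h2.mono_set hsub).congr (Filter.Eventually.of_forall fun x => ?_)
  simp [f1, hT]

/-- The image family. -/
def Fam.push (A : Fam ι P) (rad' abel' : A.κ → (P' → ℝ) → ℂ) : Fam ι' P' where
  κ := A.κ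
  fintype := A.fintype
  coef := A.coef
  word k := List.replicate (A.word k).length default
  rad := rad'
  abel := abel'

/-- The transform of the image is the pushforward along the sum. -/
def IsPush (h : (P → ℝ) → ℂ) (h' : (P' → ℝ) → ℂ) : Prop :=
  ∀ f : (P' → ℝ) → ℂ, LocallyIntegrable f →
    ∫ s, h' s * f s = ∫ x : P → ℝ, h x * f fun _ => ∑ w, x w

theorem Fam.Kills.push [Nonempty P] {A : Fam ι P} {p : ℝ} {l : P → ℝ} (hA : A.Kills p l)
    {l' : P' → ℝ} (hcard : Fintype.card ι • l' = fun _ => ∑ w, l w)
    {rad' abel' : A.κ → (P' → ℝ) → ℂ} (hpush : ∀ k, IsPush (A.abel k) (abel' k))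
    (hne : Nonempty ι) :
    (A.push rad' abel' : Fam ι' P').Kills p l' := by
  intro G hG hper g
  obtain ⟨j0⟩ := hne
  obtain ⟨w0⟩ := ‹Nonempty P›
  set G1 : Grp ι P → ℂ := fun a => G (g + projHom a)
  have hG1 : SliceInt G1 := fun i => by
    have h1 := hG.translate g fun _ => ∑ j, i j
    refine (locallyIntegrable_comp_sum h1).congr (Filter.Eventually.of_forall fun x => ?_)
    simp [G1, projHom, add_comm]
  have hper1 : DiagPeriodic l G1 := fun i L => by
    have h := hper.iterate (Fintype.card ι) (g + projHom (i, L)).1 (g + projHom (i, L)).2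
    simp only [G1]
    rw [← h, hcard]
    congr 1
    refine Prod.ext (funext fun _ => ?_) (funext fun _ => ?_) <;>
      simp [projHom, Finset.sum_add_distrib, add_assoc]
  have := hA G1 hG1 hper1 0
  rw [← this]
  refine Finset.sum_congr rfl fun k _ => ?_
  show A.coef k * (p : ℂ) ^ (List.replicate (A.word k).length (default : ι')).length *
    (∫ x, abel' k x * shiftOp (monOp (List.replicate (A.word k).length (default : ι'))) G
      (g + (0, x))) = _
  rw [List.length_replicate]
  congr 1
  have h1 : LocallyIntegrable fun x => shiftOp (monOp (List.replicate (A.word k).length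
      (default : ι'))) G (g + (0, x)) := by
    refine (((hG.shiftOp (monOp (List.replicate (A.word k).length (default : ι')))).translate
      (0, g.2)) g.1).congr (Filter.Eventually.of_forall fun x => ?_)
    show shiftOp _ G _ = shiftOp _ G _
    exact congrArg _ (Prod.ext (by simp) (add_comm _ _))
  rw [hpush k _ h1]
  refine integral_congr_ae (Filter.Eventually.of_forall fun x => ?_)
  simp only
  congr 1
  set G2 : Grp ι' P' → ℂ := fun b => G (g + b)
  have e : ∀ (y : AddMonoidAlgebra ℂ (Grp ι' P')) b, shiftOp y G2 b = shiftOp y G (g + b) := by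
    intro y b
    rw [← sum_coeff_single y]
    simp [Finsupp.sum, LinearMap.sum_apply, Finset.sum_apply, shiftOp_single, G2, add_assoc]
  rw [show G1 = fun a => G2 (projHom a) from rfl, shiftOp_comp_proj, map_monOp, e]
  simp [projHom]
  rfl

theorem Fam.value_push {A : Fam ι P} {rad' abel' : A.κ → (P' → ℝ) → ℂ}
    (hpush : ∀ k, IsPush (A.abel k) (abel' k)) :
    (A.push rad' abel' : Fam ι' P').value = A.value := by
  refine Finset.sum_congr rfl fun k _ => ?_
  have h := hpush k (fun _ => 1) (locallyIntegrable_const _)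
  simp only [mul_one] at h
  show (if List.replicate (A.word k).length (default : ι') = [] then _ else _) = _
  simp only [List.replicate_eq_nil_iff, List.length_eq_zero_iff]
  show (if A.word k = [] then A.coef k * ∫ x, abel' k x else 0) = _
  rw [h]

end FLTAgent.LT.Aleph
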