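import Fermat.Agent.LT.TF.Height
import Fermat.Agent.LT.Red.Main

/-!
The largest height at a point: invariant under `PGL₂(F)`, comparable at nearby points, comparable to
the product of the vertical coordinates on a Siegel set, and a balanced Siegel set in which every
vertical coordinate grows with it.
-/

set_option autoImplicit false
set_option linter.style.haveILetI false
set_option linter.unusedSectionVars false
set_option synthInstance.maxHeartbeats 200000

noncomputable section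

namespace FLTAgent.LT.Aleph

open NumberField IsDedekindDomain Matrix MeasureTheory Module
open FLTAgent.LT.Ht
open scoped ENNReal

variable {F : Type*} [Field F] [NumberField F] {N : ℕ}

variable (F) in
/-- The last row. -/
abbrev lastRow : Fin 2 → F := ![0, 1]

theorem lastRow_ne_zero : lastRow F ≠ 0 := fun h => one_ne_zero (congrFun h 1)

/-- The largest height, at least one. -/
def hMax (p : Pt F N) : ℝ := max 1 (⨆ r : {r : Fin 2 → F // r ≠ 0}, ht r.1 p)

theorem one_le_hMax (p : Pt F N) : 1 ≤ hMax p := le_max_left _ _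

theorem hMax_pos (p : Pt F N) : 0 < hMax p := one_pos.trans_le (one_le_hMax p)

/-- One row bounds all. -/
theorem ht_le_max {r r₀ : Fin 2 → F} (hr : r ≠ 0) (hr₀ : r₀ ≠ 0) (p : Pt F N) :
    ht r p ≤ max (ht r₀ p) (ht r₀ p)⁻¹ := by
  by_cases hd : r₀ 0 * r 1 - r₀ 1 * r 0 = 0
  · obtain ⟨c, rfl⟩ := eq_smul_of_det_eq_zero hr₀ hd
    have hc : c ≠ 0 := fun h => hr (by rw [h, zero_smul])
    rw [ht_scale hc hr₀]
    exact le_max_left _ _
  · refine le_max_of_le_right ?_
    rw [inv_eq_one_div, le_div_iff₀ (ht_pos hr₀ p), mul_comm]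
    exact ht_mul_le_one hd p

theorem bddAbove_ht (p : Pt F N) :
    BddAbove (Set.range fun r : {r : Fin 2 → F // r ≠ 0} => ht r.1 p) :=
  ⟨_, Set.forall_mem_range.2 fun r => ht_le_max r.2 lastRow_ne_zero p⟩

theorem ht_le_hMax {r : Fin 2 → F} (hr : r ≠ 0) (p : Pt F N) : ht r p ≤ hMax p :=
  le_max_of_le_right (le_ciSup (bddAbove_ht p) ⟨r, hr⟩)

theorem hMax_le_iff {T : ℝ} (p : Pt F N) : hMax p ≤ T ↔ 1 ≤ T ∧ p ∈ lowSet F N T := by
  haveI : Nonempty {r : Fin 2 → F // r ≠ 0} := ⟨⟨_, lastRow_ne_zero⟩⟩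
  rw [hMax, max_le_iff, ciSup_le_iff (bddAbove_ht p)]
  exact and_congr_right fun _ => ⟨fun h r hr => h ⟨r, hr⟩, fun h r => h r.1 r.2⟩

theorem hMax_smul (g : PG F) (p : Pt F N) : hMax (g • p) = hMax p := by
  refine eq_of_forall_ge_iff fun T => ?_
  rw [hMax_le_iff, hMax_le_iff, smul_mem_lowSet_iff]

theorem measurable_hMax : Measurable fun p : Pt F N => hMax p := by
  refine measurable_of_Iic fun T => ?_
  have h : (fun p : Pt F N => hMax p) ⁻¹' Set.Iic T =
      {p | 1 ≤ T} ∩ lowSet F N T := by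
    ext p
    exact hMax_le_iff p
  rw [h]
  exact (MeasurableSet.const _).inter (measurableSet_lowSet T)

/-! ### Nearby points -/

theorem ht_mk (r : Fin 2 → F) (x : Xinf F) (g : GF F) :
    ht r ((x, QuotientGroup.mk g) : Pt F N) = finHt r g * infHt r x := by
  obtain ⟨u, hu, e⟩ : ∃ u ∈ UZ F N, (QuotientGroup.mk g : Cos F N).out = g * u :=
    ⟨_, QuotientGroup.eq.1 (QuotientGroup.out_eq' _).symm, (mul_inv_cancel_left _ _).symm⟩
  rw [ht]
  simp only [e, finHt_mul_of_mem_UZ r hu]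

theorem infHt_le_near (K : ℝ) {r : Fin 2 → F} (hr : r ≠ 0) {x y : Xinf F}
    (hd : ∀ w, coshDist (x w) (y w) ≤ K) :
    infHt r x ≤ (∏ w : InfinitePlace F, (2 * K) ^ w.mult) * infHt r y := by
  rw [infHt, infHt, ← Finset.prod_mul_distrib]
  refine Finset.prod_le_prod (fun w _ => (pow_pos (inv_pos.2 (qf_row_pos hr w _)) _).le)
    fun w _ => ?_
  rw [← mul_pow]
  refine pow_le_pow_left₀ (inv_nonneg.2 (qf_row_pos hr w _).le) ?_ _
  rw [← div_eq_mul_inv, inv_eq_one_div, div_le_div_iff₀ (qf_row_pos hr w _)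
    (qf_row_pos hr w _), one_mul]
  exact (qf_le_coshDist _ _ (x w) (y w)).trans
    (mul_le_mul_of_nonneg_right (by linarith [hd w]) (qf_row_pos hr w _).le)

/-- Comparison at a point and a translate nearby, row by row. -/
theorem exists_ht_near (h : GF F) (K : ℝ) :
    ∃ C, 1 ≤ C ∧ ∀ (r : Fin 2 → F), r ≠ 0 → ∀ (x y : Xinf F) (g : GF F),
      (∀ w, coshDist (x w) (y w) ≤ K) →
      ht r ((x, QuotientGroup.mk g) : Pt F N) ≤ C * ht r ((y, QuotientGroup.mk (g * h)) : Pt F N) ∧
      ht r ((y, QuotientGroup.mk (g * h)) : Pt F N) ≤ C * ht r ((x, QuotientGroup.mk g) : Pt F N) := by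
  obtain ⟨C₁, hC₁, h₁⟩ := exists_finHt_le h
  obtain ⟨C₂, hC₂, h₂⟩ := exists_finHt_le h⁻¹
  set P := ∏ w : InfinitePlace F, (2 * max K 0) ^ w.mult
  have hP : 0 ≤ P := Finset.prod_nonneg fun w _ => pow_nonneg (by positivity) _
  refine ⟨max 1 (max C₁ C₂ * P), le_max_left _ _, fun r hr x y g hd => ?_⟩
  have hd' : ∀ w, coshDist (x w) (y w) ≤ max K 0 := fun w => (hd w).trans (le_max_left _ _)
  rw [ht_mk, ht_mk]
  constructor
  · calc finHt r g * infHt r x ≤ (C₁ * finHt r (g * h)) * (P * infHt r y) :=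
          mul_le_mul (h₁ r hr g) (infHt_le_near _ hr hd') (infHt_pos hr _).le
            (mul_nonneg hC₁ (finHt_pos hr _).le)
      _ = C₁ * P * (finHt r (g * h) * infHt r y) := by ring
      _ ≤ _ := mul_le_mul_of_nonneg_right (le_max_of_le_right
          (mul_le_mul_of_nonneg_right (le_max_left _ _) hP))
          (mul_pos (finHt_pos hr _) (infHt_pos hr _)).le
  · have hf := h₂ r hr (g * h)
    rw [mul_inv_cancel_right] at hf
    calc finHt r (g * h) * infHt r y ≤ (C₂ * finHt r g) * (P * infHt r x) :=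
          mul_le_mul hf (infHt_le_near _ hr fun w => by rw [Hyp.coshDist_comm]; exact hd' w)
            (infHt_pos hr _).le (mul_nonneg hC₂ (finHt_pos hr _).le)
      _ = C₂ * P * (finHt r g * infHt r x) := by ring
      _ ≤ _ := mul_le_mul_of_nonneg_right (le_max_of_le_right
          (mul_le_mul_of_nonneg_right (le_max_right _ _) hP))
          (mul_pos (finHt_pos hr _) (infHt_pos hr _)).le

/-- Points within `K` with finite parts differing by one of the classes `H`. -/
def Near (K : ℝ) (H : Set (Cos F N)) (p q : Pt F N) : Prop :=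
  (∀ w, coshDist (p.1 w) (q.1 w) ≤ K) ∧ q.2 ∈ (fun d => p.2.out • d) '' H

theorem exists_ht_Near (K : ℝ) {H : Set (Cos F N)} (hH : H.Finite) :
    ∃ C, 1 ≤ C ∧ ∀ (r : Fin 2 → F), r ≠ 0 → ∀ p q : Pt F N, Near K H p q →
      ht r p ≤ C * ht r q ∧ ht r q ≤ C * ht r p := by
  choose C hC hle using fun h : Cos F N => exists_ht_near (N := N) h.out K
  refine ⟨1 + ∑ h ∈ hH.toFinset, C h, le_add_of_nonneg_right
    (Finset.sum_nonneg fun h _ => zero_le_one.trans (hC h)), ?_⟩
  rintro r hr p ⟨y, c⟩ ⟨hd, h, hh, rfl⟩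
  have e : p.2.out • h = (QuotientGroup.mk (p.2.out * h.out) : Cos F N) := by
    conv_lhs => rw [← QuotientGroup.out_eq' h]
    rfl
  obtain ⟨h1, h2⟩ := hle h r hr p.1 y p.2.out hd
  rw [QuotientGroup.out_eq', ← e] at h1 h2
  have hle' : C h ≤ 1 + ∑ h ∈ hH.toFinset, C h :=
    (Finset.single_le_sum (f := C) (fun h _ => zero_le_one.trans (hC h))
      (hH.mem_toFinset.2 hh)).trans (le_add_of_nonneg_left zero_le_one)
  exact ⟨h1.trans (mul_le_mul_of_nonneg_right hle' (ht_pos hr _).le),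
    h2.trans (mul_le_mul_of_nonneg_right hle' (ht_pos hr _).le)⟩

theorem exists_hMax_Near (K : ℝ) {H : Set (Cos F N)} (hH : H.Finite) :
    ∃ C, 1 ≤ C ∧ ∀ p q : Pt F N, Near K H p q → hMax p ≤ C * hMax q ∧ hMax q ≤ C * hMax p := by
  obtain ⟨C, hC, hle⟩ := exists_ht_Near K hH
  refine ⟨C, hC, fun p q hpq => ?_⟩
  have h1 : ∀ q : Pt F N, 1 ≤ C * hMax q := fun q => one_le_mul_of_one_le_of_one_le hC (one_le_hMax q)
  constructor
  · exact (hMax_le_iff p).2 ⟨h1 q, fun r hr => (hle r hr p q hpq).1.trans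
      (mul_le_mul_of_nonneg_left (ht_le_hMax hr q) (zero_le_one.trans hC))⟩
  · exact (hMax_le_iff q).2 ⟨h1 p, fun r hr => (hle r hr p q hpq).2.trans
      (mul_le_mul_of_nonneg_left (ht_le_hMax hr p) (zero_le_one.trans hC))⟩

/-! ### Siegel sets -/

/-- The product of the vertical coordinates with multiplicities. -/
def tProd (x : Xinf F) : ℝ := ∏ w : InfinitePlace F, ((x w).2 : ℝ) ^ w.mult

theorem tProd_pos (x : Xinf F) : 0 < tProd x :=
  Finset.prod_pos fun w _ => pow_pos (x w).2.2 _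

theorem infHt_lastRow (x : Xinf F) : infHt (lastRow F) x = tProd x :=
  Finset.prod_congr rfl fun w _ => by simp [lastRow, qf_zero_one]

theorem le_tProd {c : ℝ} (hc : 0 ≤ c) {x : Xinf F} (hx : ∀ w, c ≤ ((x w).2 : ℝ)) :
    c ^ finrank ℚ F ≤ tProd x := by
  rw [← InfinitePlace.sum_mult_eq, ← Finset.prod_pow_eq_pow_sum]
  exact Finset.prod_le_prod (fun w _ => pow_nonneg hc _) fun w _ => pow_le_pow_left₀ hc (hx w) _

/-- On a Siegel set the largest height is the product of the vertical coordinates. -/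
theorem exists_hMax_siegel {S : Set (Cos F N)} (hS : S.Finite) (R : ℝ) {c : ℝ} (hc : 0 < c) :
    ∃ C, 1 ≤ C ∧ ∀ q ∈ Red.siegelSet S R c,
      hMax q ≤ C * tProd q.1 ∧ tProd q.1 ≤ C * ht (lastRow F) q := by
  set f : Cos F N → ℝ := fun s => finHt (lastRow F) s.out
  have hf : ∀ s, 0 < f s := fun s => finHt_pos lastRow_ne_zero _
  set A := ∑ s ∈ hS.toFinset, f s
  set B := ∑ s ∈ hS.toFinset, (f s)⁻¹
  have hA : 0 ≤ A := Finset.sum_nonneg fun s _ => (hf s).le
  have hB : 0 ≤ B := Finset.sum_nonneg fun s _ => (inv_pos.2 (hf s)).le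
  set P := c ^ finrank ℚ F
  have hP : 0 < P := pow_pos hc _
  refine ⟨1 + A + B + B / P ^ 2 + 1 / P, by
    have : 0 ≤ B / P ^ 2 + 1 / P := by positivity
    linarith, fun q hq => ?_⟩
  set C := 1 + A + B + B / P ^ 2 + 1 / P
  have h0 : 0 ≤ B / P ^ 2 := by positivity
  have h0' : 0 ≤ 1 / P := by positivity
  have hqT := hS.mem_toFinset.2 hq.1
  have hP' : P ≤ tProd q.1 := le_tProd hc.le fun w => (hq.2 w).2
  have ht0 := tProd_pos q.1
  have hht : ht (lastRow F) q = f q.2 * tProd q.1 := by rw [ht, infHt_lastRow]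
  constructor
  · have hC1 : 1 ≤ C * tProd q.1 := by
      calc (1 : ℝ) = 1 / P * P := by field_simp
        _ ≤ C * tProd q.1 := mul_le_mul (by linarith) hP' hP.le (by linarith)
    refine (hMax_le_iff q).2 ⟨hC1, fun r hr => (ht_le_max hr lastRow_ne_zero q).trans (max_le ?_ ?_)⟩
    · rw [hht]
      refine mul_le_mul_of_nonneg_right ?_ ht0.le
      have := Finset.single_le_sum (f := f) (fun s _ => (hf s).le) hqT
      linarith
    · rw [hht, mul_inv]
      calc (f q.2)⁻¹ * (tProd q.1)⁻¹ ≤ B * P⁻¹ :=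
            mul_le_mul (Finset.single_le_sum (f := fun s => (f s)⁻¹)
              (fun s _ => (inv_pos.2 (hf s)).le) hqT) (inv_anti₀ hP hP')
              (inv_pos.2 ht0).le hB
        _ = B / P ^ 2 * P := by field_simp
        _ ≤ C * tProd q.1 := mul_le_mul (by linarith) hP' hP.le (by linarith)
  · rw [hht]
    calc tProd q.1 = (f q.2)⁻¹ * (f q.2 * tProd q.1) := by rw [inv_mul_cancel_left₀ (hf _).ne']
      _ ≤ C * (f q.2 * tProd q.1) := by
        refine mul_le_mul_of_nonneg_right ?_ (mul_pos (hf _) ht0).le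
        have := Finset.single_le_sum (f := fun s => (f s)⁻¹) (fun s _ => (inv_pos.2 (hf s)).le) hqT
        linarith

variable (F) in
/-- The exponent of the gain. -/
def gain : ℝ := (finrank ℚ F : ℝ)⁻¹

theorem gain_pos : 0 < gain F := inv_pos.2 (Nat.cast_pos.2 Module.finrank_pos)

variable [IsTotallyComplex F]

/-- Units balance positive real tuples. -/
theorem exists_unit_balance_real :
    ∃ B : ℝ, 0 < B ∧ ∀ t : InfinitePlace F → ℝ, (∀ w, 0 < t w) →
      ∃ ε : (𝓞 F)ˣ, ∀ w : InfinitePlace F,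
        (∏ v : InfinitePlace F, t v ^ v.mult) ^ gain F / B ≤ w ((ε : 𝓞 F) : F) * t w := by
  classical
  obtain ⟨R, hR⟩ := Red.exists_translate_bound F
  obtain ⟨B, hB, hbal⟩ := Red.exists_unit_balance (F := F) ((3 / 2 : ℝ) ^ finrank ℚ F)
  refine ⟨2 * B, by positivity, fun t ht => ?_⟩
  set P := ∏ v : InfinitePlace F, t v ^ v.mult
  have hP : 0 < P := Finset.prod_pos fun v _ => pow_pos (ht v) _
  set G := P ^ gain F with hG'
  have hG : 0 < G := Real.rpow_pos_of_pos hP _
  have hGd : G ^ finrank ℚ F = P := Real.rpow_inv_natCast_pow hP.le Module.finrank_pos.ne'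
  set v : InfinitePlace F → ℝ := fun w => G / t w
  have hv : ∀ w, 0 < v w := fun w => div_pos hG (ht w)
  obtain ⟨M, hM⟩ := exists_nat_gt (∑ w, 2 * |R| / v w)
  have hM0 : (0 : ℝ) < M := lt_of_le_of_lt (Finset.sum_nonneg fun w _ => by
    have := hv w; positivity) hM
  obtain ⟨β, hβ⟩ := hR fun w => ((M * v w : ℝ) : ℂ)
  set a : F := -(β : F) / (M : F)
  have ha : ∀ w : InfinitePlace F, |w a - v w| ≤ v w / 2 := by
    intro w
    have hMC : (M : ℂ) ≠ 0 := Nat.cast_ne_zero.2 fun h => by simp [h] at hM0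
    have e : w.embedding a - ((v w : ℝ) : ℂ) =
        -(((M * v w : ℝ) : ℂ) + w.embedding (β : F)) / (M : ℂ) := by
      simp only [a, map_div₀, map_neg, map_natCast, Complex.ofReal_mul, Complex.ofReal_natCast]
      field_simp
      ring
    calc |w a - v w| = |‖w.embedding a‖ - ‖((v w : ℝ) : ℂ)‖| := by
          rw [InfinitePlace.norm_embedding_eq, Complex.norm_real, Real.norm_of_nonneg (hv w).le]
      _ ≤ ‖w.embedding a - ((v w : ℝ) : ℂ)‖ := abs_norm_sub_norm_le _ _
      _ ≤ |R| / M := by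
          rw [e, norm_div, norm_neg, Complex.norm_natCast]
          exact div_le_div_of_nonneg_right ((hβ w).trans (le_abs_self R)) hM0.le
      _ ≤ v w / 2 := by
          rw [div_le_div_iff₀ hM0 two_pos, ← div_le_iff₀' (hv w), mul_comm |R|]
          refine le_trans (Finset.single_le_sum (f := fun w => 2 * |R| / v w)
            (fun w _ => by have := hv w; positivity) (Finset.mem_univ w)) hM.le
  have hapos : ∀ w : InfinitePlace F, 0 < w a := fun w => by
    have := abs_le.1 (ha w); linarith [hv w]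
  have ha0 : a ≠ 0 := InfinitePlace.pos_iff.1 (hapos (Classical.arbitrary _))
  have hprod : ∏ w : InfinitePlace F, w a ^ w.mult ≤ (3 / 2 : ℝ) ^ finrank ℚ F := by
    calc ∏ w : InfinitePlace F, w a ^ w.mult
        ≤ ∏ w : InfinitePlace F, (3 / 2 * v w) ^ w.mult :=
          Finset.prod_le_prod (fun w _ => pow_nonneg (hapos w).le _) fun w _ =>
            pow_le_pow_left₀ (hapos w).le (by have := abs_le.1 (ha w); linarith) _
      _ = (3 / 2 : ℝ) ^ finrank ℚ F * (G ^ finrank ℚ F / P) := by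
          simp only [v, P, mul_pow, div_pow, Finset.prod_mul_distrib, Finset.prod_div_distrib,
            Finset.prod_pow_eq_pow_sum, InfinitePlace.sum_mult_eq]
      _ = _ := by rw [hGd, div_self hP.ne', mul_one]
  obtain ⟨ε, hε⟩ := hbal a ha0 hprod
  refine ⟨ε⁻¹, fun w => ?_⟩
  have h1 : 0 < w ((ε : 𝓞 F) : F) :=
    InfinitePlace.pos_iff.2 (RingOfIntegers.coe_ne_zero_iff.2 ε.ne_zero)
  have e1 : w (((ε⁻¹ : (𝓞 F)ˣ) : 𝓞 F) : F) = (w ((ε : 𝓞 F) : F))⁻¹ := by
    refine eq_inv_of_mul_eq_one_left ?_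
    rw [← map_mul, ← map_mul (algebraMap (𝓞 F) F), Units.inv_mul, map_one, map_one]
  have h2 : v w / 2 * w ((ε : 𝓞 F) : F) ≤ B :=
    le_trans (mul_le_mul_of_nonneg_right (by have := abs_le.1 (ha w); linarith) h1.le) (hε w)
  have h3 : G * w ((ε : 𝓞 F) : F) ≤ 2 * B * t w := by
    have e : G * w ((ε : 𝓞 F) : F) = v w / 2 * w ((ε : 𝓞 F) : F) * (2 * t w) := by
      have := (ht w).ne'
      simp only [v]
      field_simp
    rw [e]
    linarith [mul_le_mul_of_nonneg_right h2 (by have := (ht w).le; positivity : (0 : ℝ) ≤ 2 * t w)]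
  rw [e1, div_le_iff₀ (by positivity), inv_mul_eq_div, div_mul_eq_mul_div, le_div_iff₀ h1]
  linarith

/-- Every orbit meets a Siegel set on which every vertical coordinate grows with the height. -/
theorem exists_balanced_cover (hN : 0 < N) :
    ∃ (T : Set (Cos F N)) (R c κ : ℝ), T.Finite ∧ 0 < c ∧ 0 < κ ∧
      ∀ p : Pt F N, ∃ γ : PG F, γ • p ∈ Red.siegelSet T R c ∧
        ∀ w, κ * hMax p ^ gain F ≤ (((γ • p).1 w).2 : ℝ) := by
  classical
  obtain ⟨S, R₁, c₁, hS, hc₁, hcover⟩ := Red.exists_cover (F := F) hN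
  obtain ⟨R, hR⟩ := Red.exists_translate_bound F
  obtain ⟨B, hB, hbal⟩ := exists_unit_balance_real (F := F)
  obtain ⟨C, hC, hcmp⟩ := exists_hMax_siegel hS R₁ hc₁
  have hC0 : 0 < C := one_pos.trans_le hC
  refine ⟨Red.levelOrbit N (Quotient.out '' S), R, c₁ / B, (1 / C) ^ gain F / B,
    Red.finite_levelOrbit hN (hS.image _), div_pos hc₁ hB,
    div_pos (Real.rpow_pos_of_pos (by positivity) _) hB, fun p => ?_⟩
  obtain ⟨g, hg⟩ := hcover p
  set q := g • p with hq
  obtain ⟨ε, hε⟩ := hbal (fun w => ((q.1 w).2 : ℝ)) fun w => (q.1 w).2.2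
  set e : Fˣ := Units.map (algebraMap (𝓞 F) F).toMonoidHom ε
  obtain ⟨β, hβ⟩ := hR fun w => w.embedding (e : F) * (q.1 w).1
  set δ := Red.upperF e (β : F)
  refine ⟨QuotientGroup.mk δ * g, ?_⟩
  rw [mul_smul, ← hq, mk_smul]
  have hsnd : ∀ w, ((actInf δ q.1 w).2 : ℝ) = w ((ε : 𝓞 F) : F) * (q.1 w).2 := fun w =>
    Red.actInf_upperF_snd _ _ _ _
  refine ⟨⟨⟨toFin δ, Red.inLevel_toFin_upperF ε β, q.2.out, ⟨_, hg.1, rfl⟩, ?_⟩, fun w => ⟨?_, ?_⟩⟩,
    fun w => ?_⟩
  · show toFin δ • q.2 = _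
    conv_lhs => rw [← QuotientGroup.out_eq' q.2]
    rfl
  · show ‖(actInf δ q.1 w).1‖ ≤ R
    rw [Red.actInf_upperF_fst]
    exact hβ w
  · show c₁ / B ≤ ((actInf δ q.1 w).2 : ℝ)
    rw [hsnd]
    refine le_trans (div_le_div_of_nonneg_right ?_ hB.le) (hε w)
    rw [show c₁ = (c₁ ^ finrank ℚ F) ^ gain F from
      (Real.pow_rpow_inv_natCast hc₁.le Module.finrank_pos.ne').symm]
    exact Real.rpow_le_rpow (pow_nonneg hc₁.le _) (le_tProd hc₁.le fun w => (hg.2 w).2) gain_pos.le
  · show _ ≤ ((actInf δ q.1 w).2 : ℝ)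
    rw [hsnd]
    refine le_trans ?_ (hε w)
    rw [div_mul_eq_mul_div]
    refine div_le_div_of_nonneg_right ?_ hB.le
    rw [← Real.mul_rpow (by positivity) (hMax_pos p).le]
    refine Real.rpow_le_rpow (by have := hMax_pos p; positivity) ?_ gain_pos.le
    rw [one_div, inv_mul_le_iff₀ hC0, ← hMax_smul g p]
    exact (hcmp q hg).1

/-- A power below one of the squared height is integrable on a cusp strip. -/
theorem integrable_cusp_rpow (R : ℝ) {c : ℝ} (hc : 0 < c) {b : ℝ} (hb : b < 1) :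
    Integrable ({y : H3 | ‖y.1‖ ≤ R ∧ c ≤ (y.2 : ℝ)}.indicator fun y => ((y.2 : ℝ) ^ 2) ^ b)
      hypMeasure := by
  set A := {y : H3 | ‖y.1‖ ≤ R ∧ c ≤ (y.2 : ℝ)}
  have hA : MeasurableSet A := (measurableSet_le measurable_fst.norm measurable_const).inter
    (measurableSet_le measurable_const measurable_snd.subtype_val)
  have hm : Measurable (A.indicator fun y : H3 => ((y.2 : ℝ) ^ 2) ^ b) :=
    ((measurable_snd.subtype_val.pow_const 2).pow_const b).indicator hA
  refine ⟨hm.aestronglyMeasurable, ?_⟩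
  rw [hasFiniteIntegral_iff_enorm]
  simp only [← ofReal_norm]
  rw [Hyp.lintegral_hyp hm.norm.ennreal_ofReal]
  have hle : ∀ x : ℂ × ℝ, ENNReal.ofReal ((x.2 ^ 3)⁻¹) *
      Hyp.liftFun (fun y => ENNReal.ofReal ‖A.indicator (fun y : H3 => ((y.2 : ℝ) ^ 2) ^ b) y‖) x ≤
        (Metric.closedBall (0 : ℂ) R).indicator 1 x.1 *
          (Set.Ici c).indicator (fun t : ℝ => ENNReal.ofReal (t ^ (2 * b - 3))) x.2 := by
    intro x
    rw [Hyp.liftFun]
    split_ifs with h
    · by_cases hx : (x.1, (⟨x.2, h⟩ : Set.Ioi (0 : ℝ))) ∈ A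
      · have h1 : x.1 ∈ Metric.closedBall (0 : ℂ) R := mem_closedBall_zero_iff.2 hx.1
        have h2 : x.2 ∈ Set.Ici c := hx.2
        rw [Set.indicator_of_mem hx, Set.indicator_of_mem h1, Set.indicator_of_mem h2, Pi.one_apply,
          one_mul, Real.norm_of_nonneg (Real.rpow_nonneg (by positivity) _),
          ← ENNReal.ofReal_mul (by positivity)]
        refine le_of_eq (congrArg _ ?_)
        have e3 : x.2 ^ 3 = x.2 ^ (3 : ℝ) := (Real.rpow_ofNat x.2 3).symm
        have e2 : x.2 ^ 2 = x.2 ^ (2 : ℝ) := (Real.rpow_ofNat x.2 2).symm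
        show (x.2 ^ 3)⁻¹ * (x.2 ^ 2) ^ b = x.2 ^ (2 * b - 3)
        rw [e3, e2, ← Real.rpow_neg h.le, ← Real.rpow_mul h.le, ← Real.rpow_add h]
        congr 1
        ring
      · rw [Set.indicator_of_notMem hx, norm_zero, ENNReal.ofReal_zero, mul_zero]
        exact zero_le
    · rw [mul_zero]
      exact zero_le
  refine lt_of_le_of_lt (lintegral_mono hle) ?_
  rw [Measure.volume_eq_prod, lintegral_prod_mul
    ((measurable_one.indicator measurableSet_closedBall).aemeasurable)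
    ((Measurable.indicator (by fun_prop) measurableSet_Ici).aemeasurable)]
  refine ENNReal.mul_lt_top ?_ ?_
  · rw [lintegral_indicator_one measurableSet_closedBall]
    exact measure_closedBall_lt_top
  · rw [lintegral_indicator measurableSet_Ici, setLIntegral_congr Ioi_ae_eq_Ici.symm]
    exact (integrableOn_Ioi_rpow_of_lt (a := 2 * b - 3) (by linarith) hc).lintegral_lt_top

/-- Powers of the height below one are integrable on the quotient. -/
theorem lintegral_hMax_rpow_lt_top (hN : 0 < N) {w : Pt F N → ℝ≥0∞} (hw : IsPtWeight w) {b : ℝ}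
    (hb : b < 1) : ∫⁻ p, ENNReal.ofReal (hMax p ^ b) ∂quotMeasure w < ⊤ := by
  classical
  haveI := Red.countable_cos (F := F) hN
  obtain ⟨T, R, c, hT, hc, hcover⟩ := Red.exists_cover (F := F) hN
  obtain ⟨C, hC, hcmp⟩ := exists_hMax_siegel hT R hc
  set b' := max b 0
  have hb0 : 0 ≤ b' := le_max_right _ _
  set g : H3 → ℝ := {y : H3 | ‖y.1‖ ≤ R ∧ c ≤ (y.2 : ℝ)}.indicator fun y => ((y.2 : ℝ) ^ 2) ^ b'
  have hg0 : ∀ y, 0 ≤ g y := fun y =>
    Set.indicator_nonneg (fun y _ => Real.rpow_nonneg (sq_nonneg _) _) _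
  have hgI : Integrable g hypMeasure := integrable_cusp_rpow R hc (max_lt hb one_pos)
  have hI : Integrable (fun x : Xinf F => ∏ v, g (x v))
      (Measure.pi fun _ : InfinitePlace F => hypMeasure) := Integrable.fintype_prod fun _ => hgI
  have hfm : Measurable fun p : Pt F N => ENNReal.ofReal (hMax p ^ b) :=
    (measurable_hMax.pow_const b).ennreal_ofReal
  rw [quotMeasure, RS.lintegral_wMeasure hw.1 hfm]
  refine lt_of_le_of_lt (((isPtWeight_iff w).1 hw).lintegral_le_cover (μ := ptMeasure F N)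
    (Red.measurableSet_siegelSet T R c) hcover hfm fun γ p => by rw [hMax_smul]) ?_
  rw [← lintegral_indicator (Red.measurableSet_siegelSet T R c)]
  refine lt_of_le_of_lt (lintegral_mono (g := fun p : Pt F N =>
    ENNReal.ofReal (C ^ b') * ENNReal.ofReal (∏ v, g (p.1 v)) * T.indicator 1 p.2) fun p => ?_) ?_
  · by_cases hp : p ∈ Red.siegelSet T R c
    · simp only [Set.indicator_of_mem hp, Set.indicator_of_mem hp.1, Pi.one_apply, mul_one]
      rw [← ENNReal.ofReal_mul (Real.rpow_nonneg (zero_le_one.trans hC) _)]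
      refine ENNReal.ofReal_le_ofReal ?_
      calc hMax p ^ b ≤ hMax p ^ b' := Real.rpow_le_rpow_of_exponent_le (one_le_hMax p) (le_max_left _ _)
        _ ≤ (C * tProd p.1) ^ b' := Real.rpow_le_rpow (hMax_pos p).le (hcmp p hp).1 hb0
        _ = C ^ b' * ∏ v, g (p.1 v) := by
          rw [Real.mul_rpow (zero_le_one.trans hC) (tProd_pos _).le, tProd,
            ← Real.finsetProd_rpow _ _ fun v _ => pow_nonneg (p.1 v).2.2.le _]
          congr 1
          refine Finset.prod_congr rfl fun v _ => ?_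
          rw [show v.mult = 2 from InfinitePlace.mult_isComplex ⟨v, IsTotallyComplex.isComplex v⟩]
          exact (Set.indicator_of_mem
            (show p.1 v ∈ {y : H3 | ‖y.1‖ ≤ R ∧ c ≤ (y.2 : ℝ)} from hp.2 v)
            (fun y : H3 => ((y.2 : ℝ) ^ 2) ^ b')).symm
    · simp only [Set.indicator_of_notMem hp]
      exact zero_le
  · simp only [ptMeasure]
    rw [lintegral_prod_mul (f := fun x : Xinf F => ENNReal.ofReal (C ^ b') * ENNReal.ofReal (∏ v, g (x v)))
      (g := fun d : Cos F N => T.indicator 1 d)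
      (hI.aemeasurable.ennreal_ofReal.const_mul _) (measurable_of_countable _).aemeasurable]
    refine ENNReal.mul_lt_top ?_ ?_
    · rw [lintegral_const_mul' _ _ ENNReal.ofReal_ne_top]
      exact ENNReal.mul_lt_top ENNReal.ofReal_lt_top hI.lintegral_lt_top
    · rw [lintegral_indicator_one MeasurableSpace.measurableSet_top]
      exact Measure.count_apply_lt_top.2 hT

end FLTAgent.LT.Aleph
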