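import Fermat.Agent.LT.TF.Aleph.Local
import Fermat.Agent.LT.Red.Iwasawa
import Fermat.Agent.LT.TF.Action

/-!
Products of Hecke operators as tests, and their action on functions of a finite adelic matrix
which are invariant under adelic unipotents.
-/

set_option autoImplicit false
set_option linter.unusedSectionVars false

noncomputable section

namespace FLTAgent.LT.Aleph

open NumberField IsDedekindDomain
open FLTAgent.LT.Red (loc loc_mul loc_one loc_ext inLevel_iff)

variable {F : Type*} [Field F] [NumberField F]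

local notation "HS" => HeightOneSpectrum (𝓞 F)

instance fintype_residue (v : HeightOneSpectrum (𝓞 F)) : Fintype (𝓞 F ⧸ v.asIdeal) :=
  Fintype.ofFinite _

/-- `T_v` on functions of the finite part. -/
def hOp (v : HeightOneSpectrum (𝓞 F)) (C : GF F → ℂ) (g : GF F) : ℂ :=
  ∑ r : RIdx v, C (g * hRep v r)

theorem hecke_eq_hOp (v : HeightOneSpectrum (𝓞 F)) (φ : Form F) (x : Xinf F) (g : GF F) :
    hecke v φ x g = hOp v (φ x) g := by
  rw [hecke, hOp, Fintype.sum_option, finsum_eq_sum_of_fintype, add_comm]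
  rfl

/-- Products of `T_v`. -/
def hWord : List (HeightOneSpectrum (𝓞 F)) → (GF F → ℂ) → (GF F → ℂ)
  | [], C => C
  | v :: ws, C => hOp v (hWord ws C)

variable {N : ℕ}

/-- Invariant on the right under the level and the centre. -/
def RightInv (N : ℕ) (C : GF F → ℂ) : Prop := ∀ g, ∀ u ∈ UZ F N, C (g * u) = C g

theorem RightInv.hOp {C : GF F → ℂ} (hC : RightInv N C) {v : HeightOneSpectrum (𝓞 F)}
    (hv : (N : 𝓞 F) ∉ v.asIdeal) : RightInv N (hOp v C) := by
  intro g u hu
  obtain ⟨k, hk, c, rfl⟩ := Red.mem_UZ.1 hu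
  obtain ⟨σ, hσ⟩ := exists_perm v hv hk
  have e : ∀ r, C (g * (k * scalarGF c) * hRep v r) = C (g * hRep v (σ r)) := fun r => by
    rw [show g * (k * scalarGF c) * hRep v r =
      g * hRep v (σ r) * ((hRep v (σ r))⁻¹ * k * hRep v r * scalarGF c) by
        rw [show g * (k * scalarGF c) * hRep v r = g * k * (scalarGF c * hRep v r) by
          simp only [mul_assoc], Red.scalarGF_comm c (hRep v r)]
        group]
    exact hC _ _ (Red.mem_UZ.2 ⟨_, hσ r, c, rfl⟩)
  simp only [Aleph.hOp, e]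
  exact Equiv.sum_comp σ fun r => C (g * hRep v r)

theorem RightInv.hWord {C : GF F → ℂ} (hC : RightInv N C) :
    ∀ {ws : List (HeightOneSpectrum (𝓞 F))}, (∀ v ∈ ws, (N : 𝓞 F) ∉ v.asIdeal) →
      RightInv N (hWord ws C)
  | [], _ => hC
  | v :: ws, h => (RightInv.hWord hC fun w hw => h w (List.mem_cons_of_mem _ hw)).hOp
      (h v List.mem_cons_self)

/-! ### The test of a word -/

/-- The finite part of a word. -/
def wordFin (N : ℕ) : List (HeightOneSpectrum (𝓞 F)) → GF F → ℂ
  | [] => (UZ F N : Set (GF F)).indicator 1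
  | v :: ws => fun y => ∑ r : RIdx v, wordFin N ws ((hRep v r)⁻¹ * y)

theorem wordFin_right (N : ℕ) : ∀ (ws : List (HeightOneSpectrum (𝓞 F))), RightInv N (wordFin N ws)
  | [], g, u, hu => by
    classical
    simp only [wordFin, Set.indicator_apply, SetLike.mem_coe, Subgroup.mul_mem_cancel_right _ hu]
    rfl
  | v :: ws, g, u, hu => by
    simp only [wordFin, ← mul_assoc]
    exact Finset.sum_congr rfl fun r _ => wordFin_right N ws _ u hu

theorem wordFin_left : ∀ {ws : List (HeightOneSpectrum (𝓞 F))},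
    (∀ v ∈ ws, (N : 𝓞 F) ∉ v.asIdeal) → ∀ u ∈ UZ F N, ∀ g, wordFin N ws (u * g) = wordFin N ws g
  | [], _, u, hu, g => by
    classical
    simp only [wordFin, Set.indicator_apply, SetLike.mem_coe, Subgroup.mul_mem_cancel_left _ hu]
    rfl
  | v :: ws, h, u, hu, g => by
    obtain ⟨k, hk, c, rfl⟩ := Red.mem_UZ.1 hu
    have hv := h v List.mem_cons_self
    obtain ⟨σ, hσ⟩ := exists_perm v hv hk
    simp only [wordFin]
    rw [← Equiv.sum_comp σ fun r => wordFin N ws ((hRep v r)⁻¹ * (k * scalarGF c * g))]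
    refine Finset.sum_congr rfl fun r _ => ?_
    rw [show (hRep v (σ r))⁻¹ * (k * scalarGF c * g) =
      ((hRep v (σ r))⁻¹ * k * hRep v r * scalarGF c) * ((hRep v r)⁻¹ * g) by
        rw [mul_assoc _ (scalarGF c) ((hRep v r)⁻¹ * g), ← mul_assoc (scalarGF c),
          Red.scalarGF_comm c (hRep v r)⁻¹]
        group]
    exact wordFin_left (fun w hw => h w (List.mem_cons_of_mem _ hw)) _
      (Red.mem_UZ.2 ⟨_, hσ r, c, rfl⟩) _

theorem wordFin_finite : ∀ (ws : List (HeightOneSpectrum (𝓞 F))),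
    ((QuotientGroup.mk : GF F → Cos F N) '' Function.support (wordFin N ws)).Finite
  | [] => by
    refine (Set.finite_singleton (QuotientGroup.mk 1 : Cos F N)).subset ?_
    rintro _ ⟨g, hg, rfl⟩
    have hg' : g ∈ UZ F N := Set.mem_of_indicator_ne_zero hg
    exact Set.mem_singleton_iff.2 (QuotientGroup.eq.2 (by simpa using inv_mem hg'))
  | v :: ws => by
    refine ((Set.finite_univ (α := RIdx v)).biUnion fun r _ =>
      ((wordFin_finite ws).image fun c : Cos F N => hRep v r • c)).subset ?_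
    rintro _ ⟨g, hg, rfl⟩
    obtain ⟨r, -, hr⟩ := Finset.exists_ne_zero_of_sum_ne_zero hg
    simp only [Set.mem_univ, Set.iUnion_true, Set.mem_iUnion]
    exact ⟨r, _, ⟨_, hr, rfl⟩, by
      show hRep v r • (((hRep v r)⁻¹ * g : GF F) : Cos F N) = _
      rw [MulAction.Quotient.smul_mk, smul_eq_mul, mul_inv_cancel_left]⟩

theorem wordFin_ok {ws : List (HeightOneSpectrum (𝓞 F))} (h : ∀ v ∈ ws, (N : 𝓞 F) ∉ v.asIdeal)
    (K : (InfinitePlace F → ℝ) → ℂ) (hL : ∃ C, LipschitzWith C K) (hK : HasCompactSupport K) :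
    (⟨wordFin N ws, K⟩ : Test F).Ok N :=
  ⟨wordFin_left h, fun u hu g => wordFin_right N ws g u hu, wordFin_finite ws, hL, hK⟩

theorem finite_wordSupp (ws : List (HeightOneSpectrum (𝓞 F))) (f : Cos F N → ℂ) :
    (Function.support fun h : Cos F N => wordFin N ws h.out * f h).Finite :=
  (wordFin_finite ws).subset fun h hh =>
    ⟨h.out, left_ne_zero_of_mul hh, QuotientGroup.out_eq' h⟩

/-- Summing a word against a right invariant function is the product of the operators. -/
theorem finsum_wordFin {C : GF F → ℂ} (hC : RightInv N C) :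
    ∀ (ws : List (HeightOneSpectrum (𝓞 F))) (g : GF F),
      (∑ᶠ h : Cos F N, wordFin N ws h.out * C (g * h.out)) = hWord ws C g
  | [], g => by
    classical
    have h1 : ((1 : GF F) : Cos F N).out ∈ UZ F N := by
      have := QuotientGroup.eq.1 (QuotientGroup.out_eq' ((1 : GF F) : Cos F N))
      simpa using inv_mem this
    rw [finsum_eq_single _ ((1 : GF F) : Cos F N)]
    · simp only [wordFin, hWord, Set.indicator_of_mem (SetLike.mem_coe.2 h1), Pi.one_apply,
        one_mul]
      exact hC g _ h1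
    · intro h hne
      have : h.out ∉ UZ F N := fun hm => hne (by
        rw [← QuotientGroup.out_eq' h, QuotientGroup.eq]
        simpa using inv_mem hm)
      simp [wordFin, this]
  | v :: ws, g => by
    classical
    simp only [wordFin, hWord, Aleph.hOp, Finset.sum_mul]
    have key : ∀ r : RIdx v, (∑ᶠ h : Cos F N, wordFin N ws ((hRep v r)⁻¹ * h.out) * C (g * h.out))
        = ∑ᶠ h : Cos F N, wordFin N ws h.out * C (g * hRep v r * h.out) := fun r => by
      rw [← finsum_comp_equiv (MulAction.toPerm (hRep v r) : Equiv.Perm (Cos F N))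
        (f := fun h => wordFin N ws ((hRep v r)⁻¹ * h.out) * C (g * h.out))]
      refine finsum_congr fun h => ?_
      obtain ⟨u, hu, he⟩ : ∃ u ∈ UZ F N, ((hRep v r) • h).out = hRep v r * h.out * u := by
        refine ⟨(hRep v r * h.out)⁻¹ * (hRep v r • h).out, QuotientGroup.eq.1 ?_, by group⟩
        rw [QuotientGroup.out_eq']
        conv_rhs => rw [← QuotientGroup.out_eq' h]
        rfl
      simp only [MulAction.toPerm_apply, he]
      rw [show (hRep v r)⁻¹ * (hRep v r * h.out * u) = h.out * u by group,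
        wordFin_right N ws _ u hu, ← mul_assoc g, ← mul_assoc g, hC _ u hu]
    rw [finsum_sum_comm]
    · exact Finset.sum_congr rfl fun r _ => (key r).trans (finsum_wordFin hC ws _)
    · intro r _
      refine ((wordFin_finite ws).image fun c : Cos F N => hRep v r • c).subset fun h hh =>
        ⟨_, ⟨(hRep v r)⁻¹ * h.out, left_ne_zero_of_mul hh, rfl⟩, ?_⟩
      show hRep v r • ((((hRep v r)⁻¹ * h.out : GF F)) : Cos F N) = h
      rw [MulAction.Quotient.smul_mk, smul_eq_mul, mul_inv_cancel_left, QuotientGroup.out_eq']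

/-! ### The rule on unipotent invariant functions -/

/-- Invariant on the left under adelic unipotents, on the right under the level. -/
structure UInv (N : ℕ) (C : GF F → ℂ) : Prop where
  right : RightInv N C
  left : ∀ b g, C (upperGF 1 b * g) = C g

theorem UInv.hOp {C : GF F → ℂ} (hC : UInv N C) {v : HeightOneSpectrum (𝓞 F)}
    (hv : (N : 𝓞 F) ∉ v.asIdeal) : UInv N (hOp v C) :=
  ⟨hC.right.hOp hv, fun b g => by simp only [Aleph.hOp, mul_assoc, hC.left]⟩

theorem UInv.hWord {C : GF F → ℂ} (hC : UInv N C) :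
    ∀ {ws : List (HeightOneSpectrum (𝓞 F))}, (∀ v ∈ ws, (N : 𝓞 F) ∉ v.asIdeal) →
      UInv N (hWord ws C)
  | [], _ => hC
  | v :: ws, h => (UInv.hWord hC fun w hw => h w (List.mem_cons_of_mem _ hw)).hOp
      (h v List.mem_cons_self)

theorem UInv.upper_eq {C : GF F → ℂ} (hC : UInv N C) (a : (Af F)ˣ) (b : Af F) (k : GF F) :
    C (upperGF a b * k) = C (upperGF a 0 * k) := by
  rw [show upperGF a b = upperGF 1 b * upperGF a 0 by
    rw [Red.upperGF_mul, one_mul, mul_zero, zero_add], mul_assoc, hC.left]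

theorem lowerDiag_eq (a : (Af F)ˣ) : lowerDiag a = upperGF a⁻¹ 0 * scalarGF a := by
  refine Units.ext ?_
  ext i j
  fin_cases i <;> fin_cases j <;>
    simp [lowerDiag, upperGF, scalarGF, Matrix.mul_apply, Fin.sum_univ_two]

/-- An element equal to `k` at `v` and to `1` elsewhere. -/
theorem exists_atV (v : HeightOneSpectrum (𝓞 F)) (hv : (N : 𝓞 F) ∉ v.asIdeal) {k : GF F}
    (hk : InLevel 1 k) : ∃ k' : GF F, InLevel N k' ∧
      loc v ((k'⁻¹ * k : GF F) : Matrix (Fin 2) (Fin 2) (Af F)) = 1 := by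
  classical
  set E : Matrix (Fin 2) (Fin 2) (v.adicCompletion F) → Matrix (Fin 2) (Fin 2) (Af F) := fun M =>
    1 + Matrix.of fun i j => adeleSingle v ((M - 1) i j)
  have hself : ∀ M, loc v (E M) = M := fun M => by
    refine Matrix.ext fun i j => ?_
    show (1 : Matrix (Fin 2) (Fin 2) (Af F)) i j v + adeleSingle v ((M - 1) i j) v = M i j
    rw [adeleSingle_apply_self, show (1 : Matrix (Fin 2) (Fin 2) (Af F)) i j v =
      (1 : Matrix (Fin 2) (Fin 2) (v.adicCompletion F)) i j from congrFun (congrFun (loc_one v) i) j,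
      Matrix.sub_apply, add_sub_cancel]
  have hne : ∀ M {w : HeightOneSpectrum (𝓞 F)}, w ≠ v → loc w (E M) = 1 := fun M w hw => by
    refine Matrix.ext fun i j => ?_
    show (1 : Matrix (Fin 2) (Fin 2) (Af F)) i j w + adeleSingle v ((M - 1) i j) w = _
    rw [adeleSingle_apply_ne v _ hw, add_zero]
    exact congrFun (congrFun (loc_one w) i) j
  have hmul : ∀ M M', M * M' = 1 → E M * E M' = 1 := fun M M' h => loc_ext fun w => by
    rw [loc_mul, loc_one]
    rcases eq_or_ne w v with rfl | hw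
    · rw [hself, hself, h]
    · rw [hne _ hw, hne _ hw, one_mul]
  set K := loc v (k : Matrix (Fin 2) (Fin 2) (Af F))
  set K' := loc v ((k⁻¹ : GF F) : Matrix (Fin 2) (Fin 2) (Af F))
  have h1 : K * K' = 1 := by rw [← loc_mul, ← Units.val_mul, mul_inv_cancel, Units.val_one, loc_one]
  have h2 : K' * K = 1 := by rw [← loc_mul, ← Units.val_mul, inv_mul_cancel, Units.val_one, loc_one]
  refine ⟨⟨E K, E K', hmul _ _ h1, hmul _ _ h2⟩, inLevel_iff.2 fun w => ?_, ?_⟩
  · show Red.EntLe w _ (loc w (E K) - 1) ∧ Red.EntLe w _ (loc w (E K') - 1)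
    rcases eq_or_ne w v with rfl | hw
    · rw [hself, hself, Red.valued_natCast_eq_one hv, sub_eq_add_neg, sub_eq_add_neg]
      exact ⟨(Red.entLe_of_inLevel_one hk w).add (Red.entLe_one w).neg,
        (Red.entLe_of_inLevel_one (Red.InLevel.inv hk) w).add (Red.entLe_one w).neg⟩
    · rw [hne _ hw, hne _ hw, sub_self]
      exact ⟨fun i j => by simp, fun i j => by simp⟩
  · show loc v (E K' * (k : Matrix (Fin 2) (Fin 2) (Af F))) = 1
    rw [loc_mul, hself]
    exact h2

/-- The rule: `T_v` moves the torus variable by `π^±`. -/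
theorem UInv.hOp_rule {C : GF F → ℂ} (hC : UInv N C) {v : HeightOneSpectrum (𝓞 F)}
    (hv : (N : 𝓞 F) ∉ v.asIdeal) (a : (Af F)ˣ) {k : GF F} (hk : InLevel 1 k) :
    Aleph.hOp v C (upperGF a 0 * k) =
      (Nat.card (𝓞 F ⧸ v.asIdeal) : ℂ) * C (upperGF (a * unifIdele v) 0 * k) +
        C (upperGF (a * (unifIdele v)⁻¹) 0 * k) := by
  obtain ⟨k₁, hk₁, hloc⟩ := exists_atV v hv hk
  obtain ⟨k₂, hk₂def⟩ : ∃ k₂, k₂ = k₁⁻¹ * k := ⟨_, rfl⟩
  rw [← hk₂def] at hloc
  have hk₂ : InLevel 1 k₂ := hk₂def ▸ Red.InLevel.mul (Red.InLevel.inv (Red.inLevel_one_of_inLevel hk₁)) hk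
  -- `k₂` commutes with the representatives
  have hcomm : ∀ r, k₂ * hRep v r = hRep v r * k₂ := fun r => Units.ext (loc_ext fun w => by
    rw [Units.val_mul, Units.val_mul, loc_mul, loc_mul]
    rcases eq_or_ne w v with rfl | hw
    · rw [hloc, one_mul, mul_one]
    · rw [(loc_hRep_ne v hw r).1, one_mul, mul_one])
  have hk' : ∀ g, C (g * k) = C (g * k₂) := fun g => by
    rw [show g * k = g * k₂ * (k₂⁻¹ * k₁ * k₂) by rw [hk₂def]; group]
    refine hC.right _ _ (Red.mem_UZ.2 ⟨_, ?_, 1, (by rw [Red.scalarGF_one, mul_one])⟩)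
    simpa using Red.InLevel.conj (Red.InLevel.inv hk₂) hk₁
  obtain ⟨σ, hσ⟩ := exists_perm v hv hk₁
  have e : ∀ r, C (upperGF a 0 * k * hRep v r) = C (upperGF a 0 * hRep v (σ r) * k₂) := fun r => by
    rw [show upperGF a 0 * k * hRep v r = upperGF a 0 * k₁ * (k₂ * hRep v r) by
      rw [hk₂def]; group, hcomm, show upperGF a 0 * k₁ * (hRep v r * k₂) =
      upperGF a 0 * hRep v (σ r) * k₂ * (k₂⁻¹ * ((hRep v (σ r))⁻¹ * k₁ * hRep v r) * k₂) by group]
    refine hC.right _ _ (Red.mem_UZ.2 ⟨_, ?_, 1, (by rw [Red.scalarGF_one, mul_one])⟩)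
    simpa using Red.InLevel.conj (Red.InLevel.inv hk₂) (hσ r)
  simp only [Aleph.hOp, e]
  rw [Equiv.sum_comp σ fun r => C (upperGF a 0 * hRep v r * k₂), Fintype.sum_option, add_comm,
    hk', hk']
  congr 1
  · rw [Finset.sum_congr rfl fun u _ => show C (upperGF a 0 * hRep v (some u) * k₂) =
      C (upperGF (a * unifIdele v) 0 * k₂) by
        simp only [hRep]; rw [Red.upperGF_mul, hC.upper_eq], Finset.sum_const, nsmul_eq_mul,
      Finset.card_univ, Fintype.card_eq_nat_card]
  · simp only [hRep, lowerDiag_eq]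
    rw [← mul_assoc, Red.upperGF_mul, mul_zero, zero_add, mul_assoc _ (scalarGF _),
      Red.scalarGF_comm, ← mul_assoc]
    exact hC.right _ _ (Subgroup.subset_closure (Or.inr ⟨_, rfl⟩))

end FLTAgent.LT.Aleph
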