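import Fermat.Agent.LT.TF.Aleph.Const
import Fermat.Agent.LT.TF.Aleph.Word
import Fermat.Agent.LT.TF.Aleph.Family
import Fermat.Agent.LT.RS.Mode

/-!
A killing family at the places over a rational prime `p ≡ -1 mod N`, applied to an invariant locally
integrable function on the points, gives a function all whose constant terms vanish.
-/

set_option autoImplicit false
set_option linter.unusedSectionVars false
set_option linter.style.longLine false

noncomputable section

namespace FLTAgent.LT.Aleph

open NumberField IsDedekindDomain MeasureTheory WithZero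
open FLTAgent.LT.RS (boxSet HasPeriod Idx)

variable {F : Type*} [Field F] [NumberField F] {N : ℕ}

/-! ### Functions on points as forms -/

/-- A function on the points as a form. -/
def formOf (φ : Pt F N → ℂ) : Form F := fun x g => φ (x, QuotientGroup.mk g)

theorem formOf_mul_right (φ : Pt F N → ℂ) (x : Xinf F) (g : GF F) {u : GF F} (hu : u ∈ UZ F N) :
    formOf φ x (g * u) = formOf φ x g :=
  congrArg (fun c => φ (x, c)) (QuotientGroup.eq.2 (by simpa [mul_inv_rev] using hu))

theorem automorphic_formOf {φ : Pt F N → ℂ} (h : ∀ γ p, φ (smulPt γ p) = φ p) :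
    Automorphic N (formOf φ) where
  left_inv γ x g := h γ (x, QuotientGroup.mk g)
  right_inv k hk x g := formOf_mul_right φ x g (Subgroup.subset_closure (Or.inl hk))
  central a x g := formOf_mul_right φ x g (Subgroup.subset_closure (Or.inr ⟨a, rfl⟩))

variable (N) in
/-- The support of a word. -/
def wSupp (ws : List (HeightOneSpectrum (𝓞 F))) : Finset (Cos F N) :=
  (wordFin_finite (N := N) ws).toFinset

theorem hWord_eq_sum {C : GF F → ℂ} (hC : RightInv N C) (ws : List (HeightOneSpectrum (𝓞 F)))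
    (g : GF F) :
    hWord ws C g = ∑ h ∈ wSupp N ws, wordFin N ws h.out * C (g * h.out) := by
  rw [← finsum_wordFin hC ws g]
  refine finsum_eq_sum_of_support_subset _ fun h hh => ?_
  simp only [wSupp, Set.Finite.coe_toFinset]
  exact ⟨h.out, left_ne_zero_of_mul hh, QuotientGroup.out_eq' h⟩

/-- The convolution of a radial factor with a form. -/
def conv (K : (InfinitePlace F → ℝ) → ℂ) (Φ : Form F) (x : Xinf F) (g : GF F) : ℂ :=
  ∫ y, K (fun w => hdist (x w) (y w)) * Φ y g ∂infMeasure F

theorem testOp_word (φ : Pt F N → ℂ) {ws : List (HeightOneSpectrum (𝓞 F))}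
    (hws : ∀ v ∈ ws, (N : 𝓞 F) ∉ v.asIdeal) (K : (InfinitePlace F → ℝ) → ℂ) (x : Xinf F)
    (g : GF F) :
    testOp ⟨wordFin N ws, K⟩ φ (x, (g : Cos F N)) = hWord ws (conv K (formOf φ) x) g := by
  have hC : RightInv N (conv K (formOf φ) x) := fun g' u hu => by
    simp only [conv, formOf_mul_right φ _ g' hu]
  have h1 : testOp ⟨wordFin N ws, K⟩ φ (x, (g : Cos F N)) =
      hWord ws (conv K (formOf φ) x) (g : Cos F N).out := by
    rw [← finsum_wordFin hC ws]
    rfl
  rw [h1]
  have hu : g⁻¹ * (g : Cos F N).out ∈ UZ F N := QuotientGroup.eq.1 (QuotientGroup.out_eq' _).symm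
  conv_lhs => rw [← mul_inv_cancel_left g (g : Cos F N).out]
  exact hC.hWord hws g _ hu

/-- The operator of a family. -/
def Fam.op {ι : Type*} (A : Fam ι (InfinitePlace F)) (pl : ι → HeightOneSpectrum (𝓞 F))
    (φ : Pt F N → ℂ) (p : Pt F N) : ℂ :=
  ∑ k, A.coef k * testOp ⟨wordFin N ((A.word k).map pl), A.rad k⟩ φ p

/-! ### The box integral of a convolution -/

theorem exists_compact_dist (x : Xinf F) (R : ℝ) :
    ∃ W : Set (Xinf F), IsCompact W ∧ ∀ y, (∀ w, hdist (x w) (y w) ≤ R) → y ∈ W := by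
  refine ⟨Set.pi Set.univ fun w => {q : H3 | coshDist (x w) q ≤ Real.cosh R},
    isCompact_univ_pi fun w => RS.isCompact_coshBall _ _, fun y hy w _ => ?_⟩
  have h1 := Hyp.one_le_coshDist (x w) (y w)
  show coshDist (x w) (y w) ≤ _
  rw [← Real.cosh_arcosh h1]
  exact Real.cosh_le_cosh.2 (by
    rw [abs_of_nonneg (Real.arcosh_nonneg h1)]
    exact (hy w).trans (le_abs_self R))

variable {Φ : Form F}

theorem box_conv (hl : LocForm Φ) {K : (InfinitePlace F → ℝ) → ℂ} (hKc : Continuous K)
    (hKs : HasCompactSupport K) (g : GF F) (m : ℕ) (x : Xinf F) :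
    Measurable (fun z : Idx F → ℝ => conv K Φ (translate (boxVec m z) x) g) ∧
      IntegrableOn (fun z : Idx F → ℝ => conv K Φ (translate (boxVec m z) x) g) (boxSet (Idx F)) ∧
      ∫ z in boxSet (Idx F), conv K Φ (translate (boxVec m z) x) g =
        ∫ y, K (fun w => hdist (x w) (y w)) * ctm Φ m g y ∂infMeasure F := by
  obtain ⟨R, hR⟩ := hKs.isCompact.isBounded.subset_closedBall 0
  obtain ⟨W, hW, hWy⟩ := exists_compact_dist x R
  set k : Xinf F → ℂ := fun y => K fun w => hdist (x w) (y w)
  have hk0 : ∀ y ∉ W, k y = 0 := fun y hy => by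
    by_contra hne
    refine hy (hWy y fun w => ?_)
    have h1 := hR (subset_tsupport _ hne)
    rw [Metric.mem_closedBall, dist_zero_right] at h1
    exact (le_abs_self _).trans ((norm_le_pi_norm (fun w => hdist (x w) (y w)) w).trans h1)
  have hkc : Continuous k := hKc.comp (continuous_pi fun w =>
    continuous_hdist.comp (continuous_const.prodMk (continuous_apply w)))
  set G : (Idx F → ℝ) × Xinf F → ℂ := fun p => k p.2 * Φ (translate (boxVec m p.1) p.2) g
  have e : ∀ z, conv K Φ (translate (boxVec m z) x) g = ∫ y, G (z, y) ∂infMeasure F := fun z => by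
    rw [conv, ← (measurePreserving_translate (boxVec m z)).integral_comp
      (measurableEmbedding_translate _)]
    simp only [hdist_translate, G, k]
  have hGm : Measurable G := (hkc.measurable.comp measurable_snd).mul
    ((hl.meas g).comp (continuous_boxTranslate m).measurable)
  obtain ⟨C, hC⟩ := hKc.bounded_above_of_compact_support hKs
  have hGi : Integrable G
      (((volume : Measure (Idx F → ℝ)).restrict (boxSet (Idx F))).prod (infMeasure F)) := by
    have hi := locallyIntegrable_ctm (hl.meas g) (hl.locInt g) m hW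
    have h1 : IntegrableOn G (Set.univ ×ˢ W)
        (((volume : Measure (Idx F → ℝ)).restrict (boxSet (Idx F))).prod (infMeasure F)) := by
      rw [IntegrableOn, ← Measure.prod_restrict, Measure.restrict_univ]
      exact hi.bdd_mul (hkc.comp continuous_snd).aestronglyMeasurable
        (Filter.Eventually.of_forall fun p => hC _)
    refine h1.integrable_of_forall_notMem_eq_zero fun p hp => ?_
    have : p.2 ∉ W := fun h => hp ⟨Set.mem_univ _, h⟩
    simp [G, hk0 _ this]
  simp only [e]
  refine ⟨(hGm.stronglyMeasurable.integral_prod_right').measurable,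
    hGi.integral_prod_left, ?_⟩
  rw [integral_integral_swap hGi]
  refine integral_congr_ae (Filter.Eventually.of_forall fun y => ?_)
  simp only [G, ctm, k]
  exact integral_const_mul _ _

theorem exists_common_period (hN : 0 < N) (ha : Automorphic N Φ) (s : Finset (GF F)) :
    ∃ M, 0 < M ∧ ∀ g ∈ s, HasPeriod Φ g M := by
  classical
  induction s using Finset.induction_on with
  | empty => exact ⟨1, one_pos, by simp⟩
  | @insert g s hg ih =>
    obtain ⟨M, hM, hs⟩ := ih
    obtain ⟨m, hm⟩ := RS.exists_hasPeriod hN ha g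
    refine ⟨m * M, Nat.mul_pos hm.pos hM, fun h hh => ?_⟩
    rcases Finset.mem_insert.1 hh with rfl | hh
    · exact hm.mul hM
    · exact (hs h hh).mul_left hm.pos

/-! ### Places over `p` -/

variable {ι : Type*} [Fintype ι]

/-- The places over a rational prime congruent to `-1`, inert of residue degree two. -/
structure Places (N p : ℕ) (pl : ι → HeightOneSpectrum (𝓞 F)) : Prop where
  pos : 0 < p
  dvd : N ∣ p + 1
  inj : Function.Injective pl
  above : ∀ v : HeightOneSpectrum (𝓞 F), (p : 𝓞 F) ∈ v.asIdeal → ∃ j, pl j = v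
  val : ∀ j, Valued.v ((p : Af F) (pl j)) = exp (-1 : ℤ)
  card_res : ∀ j, Nat.card (𝓞 F ⧸ (pl j).asIdeal) = p ^ 2
  card_eq : Fintype.card ι = Fintype.card (InfinitePlace F)

variable {p : ℕ} {pl : ι → HeightOneSpectrum (𝓞 F)}

theorem Places.not_mem (hP : Places N p pl) (j : ι) : (N : 𝓞 F) ∉ (pl j).asIdeal := by
  intro hN'
  obtain ⟨c, hc⟩ := hP.dvd
  have hp : (p : 𝓞 F) ∈ (pl j).asIdeal := by
    by_contra h
    have h1 := hP.val j
    rw [Red.valued_natCast_eq_one h] at h1
    exact absurd h1.symm (by rw [← exp_zero, exp_inj]; omega)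
  refine (pl j).isPrime.ne_top ((Ideal.eq_top_iff_one _).2 ?_)
  have h2 : ((p + 1 : ℕ) : 𝓞 F) ∈ (pl j).asIdeal := by
    rw [hc, Nat.cast_mul]; exact Ideal.mul_mem_right _ _ hN'
  simpa using Ideal.sub_mem _ h2 hp

theorem Places.not_mem_map (hP : Places N p pl) (js : List ι) :
    ∀ v ∈ js.map pl, (N : 𝓞 F) ∉ v.asIdeal := by
  intro v hv
  obtain ⟨j, -, rfl⟩ := List.mem_map.1 hv
  exact hP.not_mem j

/-- The idele of an exponent vector. -/
def dI (pl : ι → HeightOneSpectrum (𝓞 F)) (i : ι → ℤ) : (Af F)ˣ := ∏ j, unifIdele (pl j) ^ i j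

theorem dI_zero : dI pl (0 : ι → ℤ) = 1 := by simp [dI]

theorem dI_add (i i' : ι → ℤ) : dI pl (i + i') = dI pl i * dI pl i' := by
  simp [dI, zpow_add, Finset.prod_mul_distrib]

theorem dI_single [DecidableEq ι] (j : ι) (n : ℤ) :
    dI pl (Pi.single j n) = unifIdele (pl j) ^ n := by
  rw [dI, Finset.prod_eq_single j (fun k _ hk => by simp [Pi.single_eq_of_ne hk]) (by simp)]
  simp

theorem prod_unit_apply (s : Finset ι) (u : ι → (Af F)ˣ) (v : HeightOneSpectrum (𝓞 F)) :
    ((∏ j ∈ s, u j : (Af F)ˣ) : Af F) v = ∏ j ∈ s, (u j : Af F) v := by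
  classical
  induction s using Finset.induction_on with
  | empty => simp only [Finset.prod_empty]; rfl
  | @insert a s ha ih =>
    rw [Finset.prod_insert ha, Finset.prod_insert ha, ← ih]
    rfl

theorem Places.valued_dI_one (hP : Places N p pl) (v : HeightOneSpectrum (𝓞 F)) :
    Valued.v (((dI pl 1 : (Af F)ˣ) : Af F) v) = Valued.v ((p : Af F) v) := by
  classical
  simp only [dI, Pi.one_apply, zpow_one, prod_unit_apply, map_prod]
  by_cases h : ∃ j, pl j = v
  · obtain ⟨j, rfl⟩ := h
    rw [Finset.prod_eq_single j (fun k _ hk => by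
      rw [unifIdele_apply_ne (pl k) fun h => hk (hP.inj h).symm, map_one]) (by simp),
      unifIdele_apply_self, valued_piV, hP.val j]
  · rw [Finset.prod_eq_one fun k _ => by
      rw [unifIdele_apply_ne (pl k) fun e => h ⟨k, e.symm⟩, map_one],
      Red.valued_natCast_eq_one fun hm => h (hP.above v hm)]

/-- `-p` as a unit of `F`. -/
def negP (F : Type*) [Field F] [NumberField F] (p : ℕ) (hp : 0 < p) : Fˣ :=
  Units.mk0 (-(p : F)) (neg_ne_zero.2 (Nat.cast_ne_zero.2 hp.ne'))

theorem Places.exists_factor (hP : Places N p pl) :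
    ∃ u : (Af F)ˣ, InLevel N (upperGF u 0) ∧
      toFin (diagF (negP F p hP.pos)) = upperGF (dI pl 1 * u) 0 := by
  set q : (Af F)ˣ := Units.map (algebraMap F (Af F)).toMonoidHom (negP F p hP.pos)
  have hq : (q : Af F) = -(p : Af F) := by simp [q, negP]
  have hdiag : toFin (diagF (negP F p hP.pos)) = upperGF q 0 := by
    refine Units.ext ?_
    ext i j
    fin_cases i <;> fin_cases j <;> simp [toFin, diagF, upperGF, q]
  refine ⟨(dI pl 1)⁻¹ * q, ?_, by rw [mul_inv_cancel_left, hdiag]⟩
  have h1 : ∀ v, Valued.v ((((dI pl 1)⁻¹ * q : (Af F)ˣ) : Af F) v) = 1 := fun v => by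
    show Valued.v ((((dI pl 1)⁻¹ : (Af F)ˣ) : Af F) v * (q : Af F) v) = 1
    rw [map_mul, Red.valued_inv, hP.valued_dI_one, hq,
      show (-(p : Af F)) v = -((p : Af F) v) from rfl, Valuation.map_neg,
      inv_mul_cancel₀ (Red.valued_natCast_ne_zero hP.pos v)]
  have h2 : ∀ v, Valued.v (((((dI pl 1)⁻¹ * q : (Af F)ˣ) : Af F) - 1) v) ≤
      Valued.v ((N : Af F) v) := by
    intro v
    by_cases hv : (N : 𝓞 F) ∈ v.asIdeal
    · have hne : ∀ j, v ≠ pl j := fun j e => hP.not_mem j (e ▸ hv)
      have hd : ((dI pl 1 : (Af F)ˣ) : Af F) v = 1 := by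
        simp only [dI, Pi.one_apply, zpow_one, prod_unit_apply]
        exact Finset.prod_eq_one fun k _ => unifIdele_apply_ne (pl k) (hne k)
      have hd' : (((dI pl 1)⁻¹ : (Af F)ˣ) : Af F) v = 1 := by
        simp only [dI, Pi.one_apply, zpow_one, ← Finset.prod_inv_distrib, prod_unit_apply]
        exact Finset.prod_eq_one fun k _ => unifIdele_inv_apply_ne (pl k) (hne k)
      show Valued.v ((((dI pl 1)⁻¹ : (Af F)ˣ) : Af F) v * (q : Af F) v - 1) ≤ _
      obtain ⟨c, hc⟩ := hP.dvd
      have hc' : (p : Af F) v + 1 = (N : Af F) v * (c : Af F) v := by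
        have h := congrArg (fun n : ℕ => (n : Af F)) hc
        simp only [Nat.cast_mul, Nat.cast_add, Nat.cast_one] at h
        exact congrArg (fun a : Af F => a v) h
      rw [hd', one_mul, hq, show (-(p : Af F)) v = -((p : Af F) v) from rfl,
        show -((p : Af F) v) - 1 = -((p : Af F) v + 1) by ring, Valuation.map_neg, hc', map_mul]
      exact mul_le_of_le_one_right' (Red.valued_natCast_le_one c v)
    · rw [Red.valued_natCast_eq_one hv]
      exact (Valuation.map_sub _ _ _).trans (max_le (h1 v).le (map_one _).le)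
  refine Red.inLevel_upperGF (fun v => ⟨h1 v, h2 v, ?_⟩) fun v => by
    rw [show (0 : Af F) v = 0 from rfl, map_zero]; exact zero_le
  set u : (Af F)ˣ := (dI pl 1)⁻¹ * q
  have e : ((u⁻¹ : (Af F)ˣ) : Af F) - 1 = -(((u⁻¹ : (Af F)ˣ) : Af F) * ((u : Af F) - 1)) := by
    rw [mul_sub, Units.inv_mul, mul_one, neg_sub]
  rw [e]
  show Valued.v (-(((u⁻¹ : (Af F)ˣ) : Af F) v * ((u : Af F) - 1) v)) ≤ _
  rw [Valuation.map_neg, map_mul, Red.valued_inv, h1, inv_one, one_mul]
  exact h2 v

theorem logHt_diag_axis (hp : 0 < p) (L : InfinitePlace F → ℝ) :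
    logHt (actInf (diagF (negP F p hp)) (axisPt L)) = L + fun _ => Real.log p := by
  funext w
  show Real.log _ = _
  rw [(actInf_diagF _ _ w).2]
  simp [negP, axisPt, Real.log_mul, hp.ne', Real.log_exp, add_comm]

theorem ctH_diag [IsTotallyComplex F] (hN : 0 < N) (ha : Automorphic N Φ) (hl : LocForm Φ)
    (hp : 0 < p) (g : GF F) (L : InfinitePlace F → ℝ) :
    ctH Φ (toFin (diagF (negP F p hp)) * g) (L + fun _ => Real.log p) = ctH Φ g L := by
  rw [← logHt_diag_axis hp L, ← ct_eq_ctH hN ha hl]
  exact ct_diag_mul hN ha hl g (-(p : ℤ)) _ (by simp [negP]) _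

/-! ### The Hecke iteration on the torus -/

theorem hWord_torus [DecidableEq ι] {C : GF F → ℂ} (hC : UInv N C) (hP : Places N p pl)
    (a : (Af F)ˣ) {k : GF F} (hk : InLevel 1 k) (G : Grp ι (InfinitePlace F) → ℂ)
    (L : InfinitePlace F → ℝ) (c : ℂ)
    (hG : ∀ i, G (i, L) = (p : ℂ) ^ (∑ j, i j) * c * C (upperGF (a * dI pl i) 0 * k)) :
    ∀ (js : List ι) (i : ι → ℤ),
      (p : ℂ) ^ (∑ j, i j) * c * hWord (js.map pl) C (upperGF (a * dI pl i) 0 * k) =
        (p : ℂ) ^ js.length * shiftOp (monOp js) G (i, L)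
  | [], i => by
    simp [hWord, monOp, hG, map_one]
  | j :: js, i => by
    have hp : (p : ℂ) ≠ 0 := Nat.cast_ne_zero.2 hP.pos.ne'
    have hu : UInv N (hWord (js.map pl) C) := hC.hWord (hP.not_mem_map js)
    have h1 := hWord_torus hC hP a hk G L c hG js (i + Pi.single j 1)
    have h2 := hWord_torus hC hP a hk G L c hG js (i + -Pi.single j 1)
    rw [dI_add, dI_single, zpow_one, ← mul_assoc a] at h1
    rw [dI_add, ← Pi.single_neg, dI_single, zpow_neg_one, ← mul_assoc a] at h2
    simp only [Pi.add_apply, Finset.sum_add_distrib, Finset.sum_pi_single', Finset.mem_univ,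
      if_true] at h1 h2
    rw [zpow_add₀ hp] at h1 h2
    rw [zpow_one] at h1
    rw [zpow_neg_one] at h2
    show _ * hOp (pl j) (hWord (js.map pl) C) _ = _
    rw [hu.hOp_rule (hP.not_mem j) _ hk, hP.card_res j]
    have e : shiftOp (monOp (j :: js)) G (i, L) = shiftOp (monOp js) G (i + Pi.single j 1, L) +
        shiftOp (monOp js) G (i + -Pi.single j 1, L) := by
      rw [show monOp (P := InfinitePlace F) (j :: js) = symShift (letter j) * monOp js by
        simp [monOp], shiftOp_mul]
      simp [symShift, map_add, LinearMap.add_apply, shiftOp_single, letter, Prod.neg_mk]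
    rw [← Pi.single_neg] at e
    rw [e, List.length_cons, pow_succ' (p : ℂ) js.length, mul_assoc (p : ℂ),
      mul_add ((p : ℂ) ^ js.length),
      ← h1, ← h2]
    push_cast
    field_simp

/-! ### The theorem -/

/-- The weight `e^{-Σ l}`. -/
def expNeg (l : InfinitePlace F → ℝ) : ℂ := ((Real.exp (-∑ w, l w) : ℝ) : ℂ)

theorem continuous_expNeg : Continuous (expNeg (F := F)) := by unfold expNeg; fun_prop

theorem expNeg_ne_zero (l : InfinitePlace F → ℝ) : expNeg l ≠ 0 :=
  Complex.ofReal_ne_zero.2 (Real.exp_pos _).ne'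

theorem expNeg_add (l l' : InfinitePlace F → ℝ) : expNeg (l + l') = expNeg l * expNeg l' := by
  simp only [expNeg, Pi.add_apply, Finset.sum_add_distrib, neg_add, Real.exp_add,
    Complex.ofReal_mul]

theorem uInv_ctH [IsTotallyComplex F] (hN : 0 < N) (ha : Automorphic N Φ) (hl : LocForm Φ)
    (L : InfinitePlace F → ℝ) : UInv N fun g => ctH Φ g L :=
  ⟨fun g u hu => ct_mul_right hN ha hl g hu _, fun b g => ct_upper_mul hN ha hl g b _⟩

theorem integrable_ctH_shift [IsTotallyComplex F] (hN : 0 < N) (ha : Automorphic N Φ)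
    (hl : LocForm Φ) {f : (InfinitePlace F → ℝ) → ℂ} (hf : Continuous f) (hfs : HasCompactSupport f)
    (g : GF F) (L0 : InfinitePlace F → ℝ) : Integrable fun l => f l * ctH Φ g (L0 + l) := by
  have h1 : LocallyIntegrable fun l => ctH Φ g (L0 + l) := by
    refine locallyIntegrable_iff.2 fun S hS => ?_
    have h2 := (locallyIntegrable_ctH hN ha hl g).integrableOn_isCompact
      (hS.image (continuous_const_add L0))
    rwa [(measurePreserving_add_left volume L0).integrableOn_image
      (measurableEmbedding_addLeft _)] at h2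
  exact h1.integrable_smul_left_of_hasCompactSupport hf hfs

theorem Fam.formOf_op (A : Fam ι (InfinitePlace F)) (hP : Places N p pl) (φ : Pt F N → ℂ)
    (x : Xinf F) (g : GF F) :
    formOf (A.op pl φ) x g = ∑ k, ∑ h ∈ wSupp N ((A.word k).map pl),
      A.coef k * (wordFin N ((A.word k).map pl) h.out *
        conv (A.rad k) (formOf φ) x (g * h.out)) := by
  simp only [formOf, Fam.op]
  refine Finset.sum_congr rfl fun k _ => ?_
  have hC : RightInv N (conv (A.rad k) (formOf φ) x) := fun g' u hu => by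
    simp only [conv, formOf_mul_right φ _ g' hu]
  rw [testOp_word φ (hP.not_mem_map _), hWord_eq_sum hC, Finset.mul_sum]

theorem Fam.box_op [IsTotallyComplex F] {A : Fam ι (InfinitePlace F)} (hA : A.Reg)
    (hP : Places N p pl) (hN : 0 < N) {φ : Pt F N → ℂ} (ha : Automorphic N (formOf φ))
    (hl : LocForm (formOf φ)) {g : GF F} {m : ℕ} (hper : HasPeriod (formOf (A.op pl φ)) g m)
    (x : Xinf F) :
    ∫ z in boxSet (Idx F), formOf (A.op pl φ) (translate (boxVec m z) x) g =
      ∑ k, A.coef k * ∫ l, expNeg l * A.abel k l *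
        hWord ((A.word k).map pl) (fun g' => ctH (formOf φ) g' (logHt x + l)) g := by
  classical
  have hψ := fun y => Fam.formOf_op A hP φ y g
  set Φ := formOf φ
  set ws : A.κ → List (HeightOneSpectrum (𝓞 F)) := fun k => (A.word k).map pl
  set b : A.κ → Cos F N → ℂ := fun k h => wordFin N (ws k) h.out
  obtain ⟨M, hM, hMper⟩ := exists_common_period hN ha
    (Finset.univ.biUnion fun k => (wSupp N (ws k)).image fun h => g * h.out)
  have hKc : ∀ k, Continuous (A.rad k) := fun k => (hA.lipschitz k).choose_spec.continuous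
  have hbox := fun k (h : Cos F N) (n : ℕ) =>
    box_conv hl (hKc k) (hA.compact k) (g * h.out) n x
  have hψm : Measurable fun z : Idx F → ℝ => formOf (A.op pl φ) (translate (boxVec m z) x) g := by
    simp only [hψ]
    exact Finset.measurable_sum _ fun k _ => Finset.measurable_sum _ fun h _ =>
      ((hbox k h m).1.const_mul _).const_mul _
  have e1 : ∫ z in boxSet (Idx F), formOf (A.op pl φ) (translate (boxVec m z) x) g =
      ∫ z in boxSet (Idx F), formOf (A.op pl φ) (translate (boxVec (m * M) z) x) g := by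
    rw [← integral_box_affine hψm (translate_boxVec_rvec hper x) (k := (M : ℤ))
      (by exact_mod_cast hM.ne') 0]
    simp [RS.boxVec_smul]
  rw [e1]
  simp only [hψ]
  have hint : ∀ k h, IntegrableOn
      (fun z => A.coef k * (b k h *
        conv (A.rad k) Φ (translate (boxVec (m * M) z) x) (g * h.out)))
      (boxSet (Idx F)) := fun k h => ((hbox k h (m * M)).2.1.const_mul _).const_mul _
  rw [integral_finsetSum _ fun k _ => integrable_finsetSum _ fun h _ => hint k h]
  refine Finset.sum_congr rfl fun k _ => ?_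
  rw [integral_finsetSum _ fun h _ => hint k h]
  have hCint : ∀ g', Integrable fun l => expNeg l * A.abel k l * ctH Φ g' (logHt x + l) :=
    fun g' => integrable_ctH_shift hN ha hl (continuous_expNeg.mul (hA.cont_abel k))
      (hA.compact_abel k).mul_left g' _
  simp only [integral_const_mul, ← Finset.mul_sum,
    hWord_eq_sum (uInv_ctH hN ha hl _).right]
  congr 1
  simp only [Finset.mul_sum]
  rw [integral_finsetSum _ fun h _ => ((hCint (g * h.out)).const_mul
    (b k h)).congr (Filter.Eventually.of_forall fun l => by simp only [b]; ring)]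
  refine Finset.sum_congr rfl fun h hh => ?_
  rw [(hbox k h (m * M)).2.2]
  have hp' : HasPeriod Φ (g * h.out) (m * M) := (hMper _ (Finset.mem_biUnion.2
    ⟨k, Finset.mem_univ _, Finset.mem_image_of_mem _ hh⟩)).mul_left hper.pos
  simp only [← ct_eq (hl.meas _) hp', ct_eq_ctH hN ha hl]
  rw [(hA.hasAbel k x _ (locallyIntegrable_ctH hN ha hl (g * h.out))).2, ← integral_const_mul]
  congr 1
  funext l
  simp only [expNeg, b, ws]
  ring

/-- The constant term along the torus, with its normalisation. -/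
def torusFun (Φ : Form F) (p : ℕ) (pl : ι → HeightOneSpectrum (𝓞 F)) (a : (Af F)ˣ) (k : GF F)
    (g : Grp ι (InfinitePlace F)) : ℂ :=
  (p : ℂ) ^ (∑ j, g.1 j) * expNeg g.2 * ctH Φ (upperGF (a * dI pl g.1) 0 * k) g.2

theorem sliceInt_torusFun [IsTotallyComplex F] (hN : 0 < N) (ha : Automorphic N Φ)
    (hl : LocForm Φ) (a : (Af F)ˣ) (k : GF F) : SliceInt (torusFun Φ p pl a k) := by
  intro i
  set f : (InfinitePlace F → ℝ) → ℂ := ctH Φ (upperGF (a * dI pl i) 0 * k) with hf
  have h : LocallyIntegrable f := locallyIntegrable_ctH hN ha hl _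
  set c : ℂ := (p : ℂ) ^ (∑ j, i j) with hc
  show LocallyIntegrable fun L => c * expNeg L * f L
  refine locallyIntegrable_iff.2 fun S hS => ?_
  have hcont : ContinuousOn (fun L : InfinitePlace F → ℝ => c * expNeg L) S :=
    (continuous_const.mul continuous_expNeg).continuousOn
  exact IntegrableOn.continuousOn_mul hcont (h.integrableOn_isCompact hS) hS

theorem diagPeriodic_torusFun [IsTotallyComplex F] (hN : 0 < N) (ha : Automorphic N Φ)
    (hl : LocForm Φ) (hP : Places N p pl) (a : (Af F)ˣ) {k : GF F} (hk : InLevel 1 k) :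
    DiagPeriodic (fun _ : InfinitePlace F => Real.log p) (torusFun Φ p pl a k) := by
  intro i L
  obtain ⟨u, hu, huq⟩ := hP.exists_factor
  have hp : (p : ℂ) ≠ 0 := Nat.cast_ne_zero.2 hP.pos.ne'
  have hpr : (0 : ℝ) < p := Nat.cast_pos.2 hP.pos
  have hc := Red.InLevel.conj (Red.InLevel.inv hk) hu
  rw [inv_inv] at hc
  have e5 : ctH Φ (upperGF (a * dI pl (i + 1)) 0 * k) (L + fun _ => Real.log p) =
      ctH Φ (upperGF (a * dI pl i) 0 * k) L := by
    rw [← ctH_diag hN ha hl hP.pos (upperGF (a * dI pl i) 0 * k) L, huq]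
    refine ((uInv_ctH hN ha hl _).right _ _ (Red.mem_UZ.2 ⟨_, hc, 1,
      by rw [Red.scalarGF_one, mul_one]⟩)).symm.trans ?_
    rw [show upperGF (a * dI pl (i + 1)) 0 * k * (k⁻¹ * upperGF u 0 * k) =
        upperGF (a * dI pl (i + 1)) 0 * upperGF u 0 * k by group,
      ← mul_assoc (upperGF (dI pl 1 * u) 0), Red.upperGF_mul, Red.upperGF_mul, dI_add]
    simp only [mul_zero, add_zero]
    congr 3
    simp only [mul_comm, mul_assoc, mul_left_comm]
  simp only [torusFun, e5, expNeg_add, Pi.add_apply, Pi.one_apply, Finset.sum_add_distrib,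
    zpow_add₀ hp]
  have e6 : expNeg (fun _ : InfinitePlace F => Real.log p) = ((p : ℂ) ^ Fintype.card ι)⁻¹ := by
    rw [expNeg, Finset.sum_const, Finset.card_univ, ← hP.card_eq, nsmul_eq_mul, Real.exp_neg,
      Real.exp_nat_mul, Real.exp_log hpr]
    simp
  rw [e6, Finset.sum_const, Finset.card_univ, nsmul_eq_mul, mul_one, zpow_natCast]
  field_simp

/-- **A killing family produces cusp functions.** -/
theorem Fam.cusp_op [IsTotallyComplex F] [DecidableEq ι] {A : Fam ι (InfinitePlace F)}
    (hA : A.Reg) (hK : A.Kills (p : ℝ) fun _ => Real.log p) (hP : Places N p pl) (hN : 0 < N)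
    {φ : Pt F N → ℂ} (hinv : ∀ γ q, φ (smulPt γ q) = φ q) (hl : LocForm (formOf φ)) :
    Cusp (formOf (A.op pl φ)) := by
  intro g m hm hper x
  have ha : Automorphic N (formOf φ) := automorphic_formOf hinv
  set Φ := formOf φ
  set L0 := logHt x
  show ∫ z in boxSet (Idx F), formOf (A.op pl φ) (translate (boxVec m z) x) g = 0
  rw [Fam.box_op hA hP hN ha hl ⟨hm, hper⟩ x]
  obtain ⟨k₀, hk₀, h0⟩ := Red.exists_upper g
  obtain ⟨a, b₀, c, hab⟩ := Red.eq_upperGF_mul_scalar _ h0
  have hg : g = upperGF a b₀ * k₀⁻¹ * scalarGF c := by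
    rw [← mul_inv_cancel_right g k₀, hab, mul_assoc, mul_assoc, Red.scalarGF_comm]
  have hk : InLevel 1 k₀⁻¹ := Red.InLevel.inv hk₀
  have key := hK _ (sliceInt_torusFun hN ha hl a k₀⁻¹)
    (diagPeriodic_torusFun hN ha hl hP a hk) (0, L0)
  have e : ∀ k, (p : ℂ) ^ (A.word k).length *
      (∫ y, A.abel k y *
        shiftOp (monOp (A.word k)) (torusFun Φ p pl a k₀⁻¹) ((0, L0) + (0, y))) =
      expNeg L0 * ∫ l, expNeg l * A.abel k l *
        hWord ((A.word k).map pl) (fun g' => ctH Φ g' (L0 + l)) g := by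
    intro k
    rw [← integral_const_mul, ← integral_const_mul]
    congr 1
    funext l
    have hu := uInv_ctH hN ha hl (L0 + l) (Φ := Φ)
    have h := hWord_torus hu hP a hk (torusFun Φ p pl a k₀⁻¹) (L0 + l) (expNeg (L0 + l))
      (fun i => rfl) (A.word k) 0
    have h' := hu.hWord (hP.not_mem_map (A.word k))
    simp only [Pi.zero_apply, Finset.sum_const_zero, zpow_zero, one_mul, dI_zero, mul_one] at h
    conv_rhs => rw [hg, h'.right _ _ (Subgroup.subset_closure (Or.inr ⟨c, rfl⟩)), h'.upper_eq]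
    rw [Prod.mk_add_mk, zero_add, mul_left_comm, ← h, expNeg_add]
    ring
  simp only [Complex.ofReal_natCast, mul_assoc] at key
  simp only [mul_assoc] at e
  simp only [e, mul_left_comm _ (expNeg L0), ← Finset.mul_sum] at key
  simp only [mul_assoc]
  exact (mul_eq_zero.1 key).resolve_left (expNeg_ne_zero _)

end FLTAgent.LT.Aleph
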