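import Fermat.Agent.LT.Red.Level

/-!
The representatives of the double coset of `T_v` are permuted by elements of the level.
-/

set_option autoImplicit false
set_option linter.unusedSectionVars false

noncomputable section

namespace FLTAgent.LT.Aleph

open NumberField IsDedekindDomain WithZero
open FLTAgent.LT.Red (loc EntLe loc_mul loc_one inLevel_iff valued_natCast_eq_one)

variable {F : Type*} [Field F] [NumberField F]

local notation "HS" => HeightOneSpectrum (𝓞 F)

/-- The index set of the representatives. -/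
abbrev RIdx (v : HS) := Option (𝓞 F ⧸ v.asIdeal)

instance finite_residue (v : HS) : Finite (𝓞 F ⧸ v.asIdeal) :=
  Ideal.finiteQuotientOfFreeOfNeBot _ v.ne_bot

/-- The representatives of `T_v`. -/
def hRep (v : HS) : RIdx v → GF F
  | some u => upperGF (unifIdele v)
      (adeleSingle v (((Quotient.out u : 𝓞 F) : F) : v.adicCompletion F))
  | none => lowerDiag (unifIdele v)

variable (v : HeightOneSpectrum (𝓞 F))

/-- The uniformizer in the completion. -/
def piV : v.adicCompletion F := ((unif v : F) : v.adicCompletion F)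

theorem valued_piV : Valued.v (piV v) = exp (-1 : ℤ) := by
  rw [piV, HeightOneSpectrum.adicCompletion.valued_coe]
  exact (HeightOneSpectrum.valuation_exists_uniformizer F v).choose_spec

theorem piV_ne_zero : piV v ≠ 0 := unif_coe_ne_zero v

theorem valued_div_piV_le {x : v.adicCompletion F} (h : Valued.v x < 1) :
    Valued.v ((piV v)⁻¹ * x) ≤ 1 := by
  rcases eq_or_ne (Valued.v x) 0 with h0 | h0
  · rw [map_mul, h0, mul_zero]; exact zero_le_one
  rw [map_mul, map_inv₀, valued_piV, inv_mul_le_iff₀ (exp_pos), mul_one]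
  rw [← exp_log h0, ← exp_zero, exp_lt_exp] at h
  rw [← exp_log h0, exp_le_exp]
  omega

theorem one_lt_valued_inv_piV : 1 < Valued.v ((piV v)⁻¹) := by
  rw [map_inv₀, valued_piV, ← exp_neg, ← exp_zero, exp_lt_exp]
  norm_num

/-- The representative at `v`. -/
def lRep : RIdx v → Matrix (Fin 2) (Fin 2) (v.adicCompletion F)
  | some u => !![piV v, (((Quotient.out u : 𝓞 F) : F) : v.adicCompletion F); 0, 1]
  | none => !![1, 0; 0, piV v]

/-- Its inverse. -/
def lInv : RIdx v → Matrix (Fin 2) (Fin 2) (v.adicCompletion F)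
  | some u => !![(piV v)⁻¹, -((piV v)⁻¹ * (((Quotient.out u : 𝓞 F) : F) : v.adicCompletion F));
      0, 1]
  | none => !![1, 0; 0, (piV v)⁻¹]

theorem unifIdele_apply_self : ((unifIdele v : (Af F)ˣ) : Af F) v = piV v := by
  classical
  exact RestrictedProduct.mulSingle_eq_same (fun w : HeightOneSpectrum (𝓞 F) => w.adicCompletionIntegers F) _ _

theorem unifIdele_inv_apply_self : (((unifIdele v)⁻¹ : (Af F)ˣ) : Af F) v = (piV v)⁻¹ := by
  classical
  exact RestrictedProduct.mulSingle_eq_same (fun w : HeightOneSpectrum (𝓞 F) => w.adicCompletionIntegers F) _ _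

theorem unifIdele_apply_ne {w : HS} (h : w ≠ v) : ((unifIdele v : (Af F)ˣ) : Af F) w = 1 := by
  classical
  exact RestrictedProduct.mulSingle_eq_of_ne (fun w : HeightOneSpectrum (𝓞 F) => w.adicCompletionIntegers F) _ h

theorem unifIdele_inv_apply_ne {w : HS} (h : w ≠ v) :
    (((unifIdele v)⁻¹ : (Af F)ˣ) : Af F) w = 1 := by
  classical
  exact RestrictedProduct.mulSingle_eq_of_ne (fun w : HeightOneSpectrum (𝓞 F) => w.adicCompletionIntegers F) _ h

theorem adeleSingle_apply_self (x : v.adicCompletion F) : adeleSingle v x v = x := by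
  classical
  exact RestrictedProduct.single_eq_same (fun w : HeightOneSpectrum (𝓞 F) => w.adicCompletionIntegers F) _ _

theorem adeleSingle_apply_ne (x : v.adicCompletion F) {w : HS} (h : w ≠ v) :
    adeleSingle v x w = 0 := by
  classical
  exact RestrictedProduct.single_eq_of_ne' (fun w : HeightOneSpectrum (𝓞 F) => w.adicCompletionIntegers F) _ h.symm

theorem loc_hRep_self (r : RIdx v) :
    loc v (hRep v r : Matrix (Fin 2) (Fin 2) (Af F)) = lRep v r ∧
      loc v (((hRep v r)⁻¹ : GF F) : Matrix (Fin 2) (Fin 2) (Af F)) = lInv v r := by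
  cases r with
  | none =>
    refine ⟨Matrix.ext fun i j => ?_, Matrix.ext fun i j => ?_⟩ <;> fin_cases i <;> fin_cases j
    all_goals first
      | rfl
      | exact unifIdele_apply_self v
      | exact unifIdele_inv_apply_self v
  | some u =>
    refine ⟨Matrix.ext fun i j => ?_, Matrix.ext fun i j => ?_⟩ <;> fin_cases i <;> fin_cases j
    all_goals first
      | rfl
      | exact unifIdele_apply_self v
      | exact unifIdele_inv_apply_self v
      | exact adeleSingle_apply_self v _
      | (show -((((unifIdele v)⁻¹ : (Af F)ˣ) : Af F) v * adeleSingle v _ v) = _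
         rw [unifIdele_inv_apply_self, adeleSingle_apply_self]
         rfl)

theorem loc_hRep_ne {w : HS} (h : w ≠ v) (r : RIdx v) :
    loc w (hRep v r : Matrix (Fin 2) (Fin 2) (Af F)) = 1 ∧
      loc w (((hRep v r)⁻¹ : GF F) : Matrix (Fin 2) (Fin 2) (Af F)) = 1 := by
  cases r with
  | none =>
    refine ⟨Matrix.ext fun i j => ?_, Matrix.ext fun i j => ?_⟩ <;> fin_cases i <;> fin_cases j
    all_goals first
      | rfl
      | exact unifIdele_apply_ne v h
      | exact unifIdele_inv_apply_ne v h
  | some u =>
    refine ⟨Matrix.ext fun i j => ?_, Matrix.ext fun i j => ?_⟩ <;> fin_cases i <;> fin_cases j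
    all_goals first
      | rfl
      | exact unifIdele_apply_ne v h
      | exact unifIdele_inv_apply_ne v h
      | exact adeleSingle_apply_ne v _ h
      | (show -((((unifIdele v)⁻¹ : (Af F)ˣ) : Af F) w * adeleSingle v _ w) = _
         rw [adeleSingle_apply_ne v _ h, mul_zero, neg_zero]
         rfl)

theorem valued_int_le_one (y : 𝓞 F) : Valued.v (((y : F)) : v.adicCompletion F) ≤ 1 := by
  rw [HeightOneSpectrum.adicCompletion.valued_coe]
  exact v.valuation_le_one y

theorem exists_res {x : v.adicCompletion F} (hx : Valued.v x ≤ 1) :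
    ∃ u : 𝓞 F ⧸ v.asIdeal,
      Valued.v (x - (((Quotient.out u : 𝓞 F) : F) : v.adicCompletion F)) < 1 := by
  have hγ : exp (-1 : ℤ) < 1 := by rw [← exp_zero, exp_lt_exp]; norm_num
  obtain ⟨y, hy⟩ := Red.exists_int_near v hx (γ := exp (-1 : ℤ)) exp_ne_zero
  set z : 𝓞 F := Quotient.out (Ideal.Quotient.mk v.asIdeal y)
  refine ⟨Ideal.Quotient.mk _ y, ?_⟩
  have hz : z - y ∈ v.asIdeal := Ideal.Quotient.eq.1 (Ideal.Quotient.mk_out _)
  rw [show x - ((z : F) : v.adicCompletion F) = (x - ((y : F) : v.adicCompletion F)) +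
    -(((z : F) : v.adicCompletion F) - ((y : F) : v.adicCompletion F)) by ring]
  refine Valued.v.map_add_lt (hy.trans_lt hγ) ?_
  rw [Valuation.map_neg, ← Red.coe_sub_completion, HeightOneSpectrum.adicCompletion.valued_coe,
    ← map_sub, HeightOneSpectrum.valuation_of_algebraMap, v.intValuation_lt_one_iff_mem]
  exact hz

theorem det_entLe {K : Matrix (Fin 2) (Fin 2) (v.adicCompletion F)} (hK : EntLe v 1 K) :
    Valued.v K.det ≤ 1 := by
  rw [Matrix.det_fin_two]
  refine (Valued.v.map_sub _ _).trans (max_le ?_ ?_) <;> rw [map_mul] <;>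
    exact mul_le_one' (hK _ _) (hK _ _)

theorem exists_target {K : Matrix (Fin 2) (Fin 2) (v.adicCompletion F)} (hK : EntLe v 1 K)
    (hdet : Valued.v K.det = 1) (r : RIdx v) :
    ∃ r', EntLe v 1 (lInv v r' * K * lRep v r) := by
  -- the reduced line of `r` and its image
  set b : Fin 2 → v.adicCompletion F := match r with
    | some u => ![(((Quotient.out u : 𝓞 F) : F) : v.adicCompletion F), 1]
    | none => ![1, 0] with hb
  set A := K 0 0 * b 0 + K 0 1 * b 1 with hA
  set B := K 1 0 * b 0 + K 1 1 * b 1 with hB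
  have hb1 : ∀ i, Valued.v (b i) ≤ 1 := fun i => by
    cases r <;> fin_cases i <;> simp [hb] <;> exact v.valuation_le_one _
  have hlin : ∀ i j : Fin 2, Valued.v (K i 0 * b 0 + K j 1 * b 1) ≤ 1 := fun i j =>
    Valued.v.map_add_le (by rw [map_mul]; exact mul_le_one' (hK i 0) (hb1 0))
      (by rw [map_mul]; exact mul_le_one' (hK j 1) (hb1 1))
  have hvA : Valued.v A ≤ 1 := hlin 0 0
  have hvB : Valued.v B ≤ 1 := hlin 1 1
  have hprim : Valued.v A = 1 ∨ Valued.v B = 1 := by
    by_contra hne
    push Not at hne
    have hA' : Valued.v A < 1 := lt_of_le_of_ne hvA hne.1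
    have hB' : Valued.v B < 1 := lt_of_le_of_ne hvB hne.2
    have h0 : Valued.v (K.det * b 0) < 1 := by
      rw [show K.det * b 0 = K 1 1 * A - K 0 1 * B by rw [Matrix.det_fin_two, hA, hB]; ring]
      refine (Valued.v.map_sub _ _).trans_lt (max_lt ?_ ?_) <;> rw [map_mul]
      · exact mul_lt_one_of_nonneg_of_lt_one_right (hK 1 1) zero_le hA'
      · exact mul_lt_one_of_nonneg_of_lt_one_right (hK 0 1) zero_le hB'
    have h1 : Valued.v (K.det * b 1) < 1 := by
      rw [show K.det * b 1 = K 0 0 * B - K 1 0 * A by rw [Matrix.det_fin_two, hA, hB]; ring]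
      refine (Valued.v.map_sub _ _).trans_lt (max_lt ?_ ?_) <;> rw [map_mul]
      · exact mul_lt_one_of_nonneg_of_lt_one_right (hK 0 0) zero_le hB'
      · exact mul_lt_one_of_nonneg_of_lt_one_right (hK 1 0) zero_le hA'
    rw [map_mul, hdet, one_mul] at h0 h1
    cases r <;> simp [hb] at h0 h1
  -- the columns of `K * lRep r` lie on the line of `r'`
  rcases eq_or_lt_of_le hvB with hB1 | hBlt
  · obtain ⟨u', hu'⟩ := exists_res v (x := A / B) (by rw [map_div₀, hB1, div_one]; exact hvA)
    refine ⟨some u', ?_⟩
    set c := (((Quotient.out u' : 𝓞 F) : F) : v.adicCompletion F)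
    have hc : Valued.v c ≤ 1 := valued_int_le_one v _
    have hAB : Valued.v (A - c * B) < 1 := by
      have hB0 : B ≠ 0 := fun h => by simp [h] at hB1
      rw [show A - c * B = B * (A / B - c) by field_simp, map_mul, hB1, one_mul]
      exact hu'
    have hcol : ∀ i : Fin 2, Valued.v (piV v * (K 0 i - c * K 1 i)) < 1 := fun i => by
      rw [map_mul]
      refine mul_lt_one_of_nonneg_of_lt_one_left zero_le ?_
        ((Valued.v.map_sub _ _).trans (max_le (hK 0 i) ?_))
      · rw [valued_piV, ← exp_zero, exp_lt_exp]; norm_num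
      · rw [map_mul]; exact mul_le_one' hc (hK 1 i)
    have hπ : Valued.v (piV v) ≤ 1 := by
      rw [valued_piV, ← exp_zero, exp_le_exp]; norm_num
    intro i j
    cases r with
    | some u =>
      fin_cases i <;> fin_cases j <;>
        simp only [lInv, lRep, Matrix.mul_apply, Fin.sum_univ_two, Matrix.of_apply,
          Matrix.cons_val', Matrix.cons_val_zero, Matrix.cons_val_one, Matrix.cons_val_fin_one,
          Fin.zero_eta, Fin.mk_one]
      · refine le_of_eq_of_le (congrArg Valued.v ?_) (valued_div_piV_le v (hcol 0))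
        ring
      · refine le_of_eq_of_le (congrArg Valued.v ?_) (valued_div_piV_le v hAB)
        simp only [hA, hB, hb, Matrix.cons_val_zero, Matrix.cons_val_one]
        ring
      · simp only [zero_mul, one_mul, zero_add, mul_zero, add_zero]
        rw [map_mul]
        exact mul_le_one' (hK 1 0) hπ
      · refine le_of_eq_of_le (congrArg Valued.v ?_) hvB
        simp only [hB, hb, Matrix.cons_val_zero, Matrix.cons_val_one]
        ring
    | none =>
      fin_cases i <;> fin_cases j <;>
        simp only [lInv, lRep, Matrix.mul_apply, Fin.sum_univ_two, Matrix.of_apply,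
          Matrix.cons_val', Matrix.cons_val_zero, Matrix.cons_val_one, Matrix.cons_val_fin_one,
          Fin.zero_eta, Fin.mk_one]
      · refine le_of_eq_of_le (congrArg Valued.v ?_) (valued_div_piV_le v hAB)
        simp only [hA, hB, hb, Matrix.cons_val_zero, Matrix.cons_val_one]
        ring
      · refine le_of_eq_of_le (congrArg Valued.v ?_) (valued_div_piV_le v (hcol 1))
        ring
      · refine le_of_eq_of_le (congrArg Valued.v ?_) hvB
        simp only [hB, hb, Matrix.cons_val_zero, Matrix.cons_val_one]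
        ring
      · simp only [zero_mul, one_mul, zero_add, mul_zero, add_zero]
        rw [map_mul]
        exact mul_le_one' (hK 1 1) hπ
  · refine ⟨none, fun i j => ?_⟩
    have hπ : Valued.v (piV v) ≤ 1 := by
      rw [valued_piV, ← exp_zero, exp_le_exp]; norm_num
    have hu : ∀ i : Fin 2, Valued.v (piV v * K 1 i) < 1 := fun i => by
      rw [map_mul]
      refine mul_lt_one_of_nonneg_of_lt_one_left zero_le ?_ (hK 1 i)
      rw [valued_piV, ← exp_zero, exp_lt_exp]; norm_num
    have hu0 : ∀ i : Fin 2, Valued.v (piV v * K 0 i) ≤ 1 := fun i => by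
      rw [map_mul]
      exact mul_le_one' hπ (hK 0 i)
    cases r with
    | some u =>
      fin_cases i <;> fin_cases j <;>
        simp only [lInv, lRep, Matrix.mul_apply, Fin.sum_univ_two, Matrix.of_apply,
          Matrix.cons_val', Matrix.cons_val_zero, Matrix.cons_val_one, Matrix.cons_val_fin_one,
          Fin.zero_eta, Fin.mk_one]
      · exact le_of_eq_of_le (congrArg Valued.v (by ring)) (hu0 0)
      · exact le_of_eq_of_le (congrArg Valued.v (by simp [hA, hb])) hvA
      · exact le_of_eq_of_le (congrArg Valued.v (by ring)) (valued_div_piV_le v (hu 0))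
      · refine le_of_eq_of_le (congrArg Valued.v ?_) (valued_div_piV_le v hBlt)
        simp only [hB, hb, Matrix.cons_val_zero, Matrix.cons_val_one]
        ring
    | none =>
      fin_cases i <;> fin_cases j <;>
        simp only [lInv, lRep, Matrix.mul_apply, Fin.sum_univ_two, Matrix.of_apply,
          Matrix.cons_val', Matrix.cons_val_zero, Matrix.cons_val_one, Matrix.cons_val_fin_one,
          Fin.zero_eta, Fin.mk_one]
      · exact le_of_eq_of_le (congrArg Valued.v (by simp [hA, hb])) hvA
      · exact le_of_eq_of_le (congrArg Valued.v (by ring)) (hu0 1)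
      · refine le_of_eq_of_le (congrArg Valued.v ?_) (valued_div_piV_le v hBlt)
        simp only [hB, hb, Matrix.cons_val_zero, Matrix.cons_val_one]
        ring
      · exact le_of_eq_of_le (congrArg Valued.v (by ring)) (valued_div_piV_le v (hu 1))

theorem lRep_mul_lInv (r : RIdx v) : lRep v r * lInv v r = 1 := by
  have := piV_ne_zero v
  cases r <;> ext i j <;> fin_cases i <;> fin_cases j <;>
    simp [lRep, lInv, Matrix.mul_apply, Fin.sum_univ_two, this]

theorem eq_of_entLe {r r' : RIdx v} (h : EntLe v 1 (lInv v r' * lRep v r)) : r = r' := by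
  have hbig := one_lt_valued_inv_piV v
  cases r with
  | none =>
    cases r' with
    | none => rfl
    | some u' =>
      have h00 := h 0 0
      simp [lInv, lRep, Matrix.mul_apply, Fin.sum_univ_two] at h00
      exact absurd h00 (not_le.2 (by simpa using hbig))
  | some u =>
    cases r' with
    | none =>
      have h11 := h 1 1
      simp [lInv, lRep, Matrix.mul_apply, Fin.sum_univ_two] at h11
      exact absurd h11 (not_le.2 (by simpa using hbig))
    | some u' =>
      have h01 := h 0 1
      simp only [lInv, lRep, Matrix.mul_apply, Fin.sum_univ_two, Matrix.of_apply,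
        Matrix.cons_val', Matrix.cons_val_zero, Matrix.cons_val_one, Matrix.cons_val_fin_one,
        mul_one] at h01
      set a : 𝓞 F := Quotient.out u
      set a' : 𝓞 F := Quotient.out u'
      rw [← sub_eq_add_neg, ← mul_sub, map_mul, map_inv₀, valued_piV,
        inv_mul_le_iff₀ exp_pos, mul_one, ← Red.coe_sub_completion,
        HeightOneSpectrum.adicCompletion.valued_coe, ← map_sub,
        HeightOneSpectrum.valuation_of_algebraMap,
        show exp (-1 : ℤ) = exp (-((1 : ℕ) : ℤ)) by norm_num,
        v.intValuation_le_pow_iff_mem, pow_one] at h01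
      have := Ideal.Quotient.eq.2 h01
      rw [Ideal.Quotient.mk_out, Ideal.Quotient.mk_out] at this
      rw [this]

/-- Representatives are permuted by the level. -/
theorem exists_perm {N : ℕ} (hv : (N : 𝓞 F) ∉ v.asIdeal) {k : GF F} (hk : InLevel N k) :
    ∃ σ : Equiv.Perm (RIdx v), ∀ r, InLevel N ((hRep v (σ r))⁻¹ * k * hRep v r) := by
  have hN1 : Valued.v ((N : Af F) v) = 1 := valued_natCast_eq_one hv
  set K := loc v (k : Matrix (Fin 2) (Fin 2) (Af F))
  set K' := loc v ((k⁻¹ : GF F) : Matrix (Fin 2) (Fin 2) (Af F))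
  have hK : EntLe v 1 K := Red.entLe_of_inLevel_one (Red.inLevel_one_of_inLevel hk) v
  have hK' : EntLe v 1 K' :=
    Red.entLe_of_inLevel_one (Red.InLevel.inv (Red.inLevel_one_of_inLevel hk)) v
  have hKK : K * K' = 1 := by rw [← loc_mul, ← Units.val_mul, mul_inv_cancel, Units.val_one, loc_one]
  have hKK' : K' * K = 1 := by rw [← loc_mul, ← Units.val_mul, inv_mul_cancel, Units.val_one, loc_one]
  have hd : Valued.v K.det = 1 := by
    refine le_antisymm (det_entLe v hK) (le_of_not_gt fun hlt => ?_)
    have := congrArg (fun M => Valued.v (Matrix.det M)) hKK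
    simp only [Matrix.det_mul, map_mul, Matrix.det_one, map_one] at this
    exact (ne_of_lt (mul_lt_one_of_nonneg_of_lt_one_left zero_le hlt (det_entLe v hK'))) this
  choose σ hσ using exists_target v hK hd
  have hdR : ∀ r, Valued.v (lRep v r).det = exp (-1 : ℤ) := fun r => by
    cases r <;> simp [lRep, Matrix.det_fin_two, valued_piV]
  have hdI : ∀ r, Valued.v (lInv v r).det = exp (1 : ℤ) := fun r => by
    have := congrArg (fun M => Valued.v (Matrix.det M)) (lRep_mul_lInv v r)
    simp only [Matrix.det_mul, map_mul, Matrix.det_one, map_one, hdR] at this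
    calc Valued.v (lInv v r).det = exp (1 : ℤ) * (exp (-1 : ℤ) * Valued.v (lInv v r).det) := by
          rw [← mul_assoc, ← exp_add, show (1 : ℤ) + -1 = 0 by norm_num, exp_zero, one_mul]
      _ = _ := by rw [this, mul_one]
  -- inverses of unimodular integral matrices are integral
  have hinv : ∀ r, EntLe v 1 (lInv v r * K' * lRep v (σ r)) := fun r => by
    set M := lInv v (σ r) * K * lRep v r with hM
    set M' := lInv v r * K' * lRep v (σ r) with hM'
    have hMM : M * M' = 1 := by
      rw [hM, hM', show lInv v (σ r) * K * lRep v r * (lInv v r * K' * lRep v (σ r)) =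
        lInv v (σ r) * K * (lRep v r * lInv v r) * K' * lRep v (σ r) by simp only [mul_assoc],
        lRep_mul_lInv, mul_one, mul_assoc (lInv v (σ r)), hKK, mul_one]
      exact mul_eq_one_comm.1 (lRep_mul_lInv v (σ r))
    have hdM : Valued.v M.det = 1 := by
      rw [hM, Matrix.det_mul, Matrix.det_mul, map_mul, map_mul, hdI, hd, hdR, mul_one, ← exp_add,
        show (1 : ℤ) + -1 = 0 by norm_num, exp_zero]
    have e : M' = (M.det)⁻¹ • M.adjugate := by
      rw [← Matrix.inv_eq_right_inv hMM, Matrix.inv_def, Ring.inverse_eq_inv]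
    intro i j
    rw [e, Matrix.smul_apply, smul_eq_mul, map_mul, map_inv₀, hdM, inv_one, one_mul,
      Matrix.adjugate_fin_two]
    fin_cases i <;> fin_cases j <;> simp <;> exact hσ r _ _
  have hinj : Function.Injective σ := fun r r' e => by
    have h1 := (hinv r).mul (hσ r')
    rw [mul_one, e, show lInv v r * K' * lRep v (σ r') * (lInv v (σ r') * K * lRep v r') =
      lInv v r * K' * (lRep v (σ r') * lInv v (σ r')) * K * lRep v r' by simp only [mul_assoc],
      lRep_mul_lInv, mul_one, mul_assoc (lInv v r), hKK', mul_one] at h1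
    exact (eq_of_entLe v h1).symm
  refine ⟨Equiv.ofBijective σ (Finite.injective_iff_bijective.1 hinj), fun r => ?_⟩
  rw [Equiv.ofBijective_apply, inLevel_iff]
  intro w
  rw [mul_inv_rev, mul_inv_rev, inv_inv]
  simp only [Units.val_mul, loc_mul]
  rcases eq_or_ne w v with rfl | hw
  · rw [(loc_hRep_self w r).1, (loc_hRep_self w r).2, (loc_hRep_self w (σ r)).1,
      (loc_hRep_self w (σ r)).2, hN1, sub_eq_add_neg, sub_eq_add_neg, ← mul_assoc (lInv w r)]
    exact ⟨(hσ r).add (Red.entLe_one w).neg, (hinv r).add (Red.entLe_one w).neg⟩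
  · rw [(loc_hRep_ne v hw r).1, (loc_hRep_ne v hw r).2, (loc_hRep_ne v hw (σ r)).1,
      (loc_hRep_ne v hw (σ r)).2]
    simp only [one_mul, mul_one]
    exact inLevel_iff.1 hk w

end FLTAgent.LT.Aleph
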