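import Mathlib.Algebra.MonoidAlgebra.Basic
import Mathlib.Algebra.MvPolynomial.Eval
import Mathlib.Algebra.MvPolynomial.Degrees
import Mathlib.Tactic.LinearCombination
import Mathlib.Analysis.Complex.Basic

/-!
The algebra of the cusp projector: translations of functions on `(ι → ℤ) × (P → ℝ)`, and a
polynomial in three symmetric shifts which kills the functions invariant under the diagonal shift.
-/

set_option autoImplicit false
set_option linter.unusedSectionVars false

noncomputable section

namespace FLTAgent.LT.Aleph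

open AddMonoidAlgebra

variable {ι P : Type*}

/-- Hecke shifts and height shifts. -/
abbrev Grp (ι P : Type*) := (ι → ℤ) × (P → ℝ)

section op

variable {G : Type*} [AddCommGroup G]

/-- Translations as endomorphisms. -/
def transHom : Multiplicative G →* Module.End ℂ (G → ℂ) where
  toFun a :=
    { toFun := fun F g => F (g + a.toAdd)
      map_add' := fun _ _ => rfl
      map_smul' := fun _ _ => rfl }
  map_one' := LinearMap.ext fun F => funext fun g => by simp
  map_mul' a b := LinearMap.ext fun F => funext fun g => by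
    simp [add_comm a.toAdd b.toAdd, add_assoc]

/-- The action of the group algebra by translations. -/
def shiftOp : AddMonoidAlgebra ℂ G →ₐ[ℂ] Module.End ℂ (G → ℂ) :=
  AddMonoidAlgebra.lift ℂ (Module.End ℂ (G → ℂ)) G transHom

theorem shiftOp_single (a : G) (c : ℂ) (F : G → ℂ) (g : G) :
    shiftOp (single a c) F g = c * F (g + a) := by
  simp [shiftOp, transHom]

theorem shiftOp_mul (a b : AddMonoidAlgebra ℂ G) (F : G → ℂ) :
    shiftOp (a * b) F = shiftOp a (shiftOp b F) := by
  rw [map_mul]; rfl

theorem shiftOp_mem {S : Submodule ℂ (G → ℂ)}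
    (hS : ∀ (a : G), ∀ F ∈ S, (fun g => F (g + a)) ∈ S) (x : AddMonoidAlgebra ℂ G) :
    ∀ F ∈ S, shiftOp x F ∈ S := by
  intro F hF
  rw [← sum_coeff_single x, Finsupp.sum, map_sum, LinearMap.sum_apply]
  refine S.sum_mem fun a _ => ?_
  rw [show shiftOp (single a (x.coeff a)) F = x.coeff a • fun g => F (g + a) from
    funext fun g => by rw [shiftOp_single]; rfl]
  exact S.smul_mem _ (hS a F hF)

end op

/-- The quartic with roots `W + W⁻¹`, `W = a^± b^± c^±`, in terms of `a + a⁻¹`, `b + b⁻¹`,
`c + c⁻¹`. -/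
def quartic {R : Type*} [CommRing R] (A B C y : R) : R :=
  let s := A * B
  let m := A ^ 2 + B ^ 2 - 4
  let k := y ^ 2 + C ^ 2 - 4
  k ^ 2 + k * (-(C * y * s) + s ^ 2 - 2 * m) + C ^ 2 * y ^ 2 * m - C * y * m * s + m ^ 2

theorem map_quartic {R S : Type*} [CommRing R] [CommRing S] (f : R →+* S) (A B C y : R) :
    f (quartic A B C y) = quartic (f A) (f B) (f C) (f y) := by
  simp [quartic, map_ofNat]

theorem quartic_factor {R : Type*} [CommRing R] {a a' b b' c c' : R} (ha : a * a' = 1)
    (hb : b * b' = 1) (hc : c * c' = 1) (y : R) :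
    quartic (a + a') (b + b') (c + c') y =
      (y - (a * b * c + a' * b' * c')) * (y - (a * b * c' + a' * b' * c)) *
        ((y - (a * b' * c + a' * b * c')) * (y - (a * b' * c' + a' * b * c))) := by
  set C := c + c' with hC
  set u := a * b + a' * b' with hu
  set v := a * b' + a' * b with hv
  have hs : u + v = (a + a') * (b + b') := by rw [hu, hv]; ring
  have hm : u * v = (a + a') ^ 2 + (b + b') ^ 2 - 4 := by
    linear_combination (a ^ 2 + a' ^ 2) * hb + (b ^ 2 + b' ^ 2) * ha - 2 * (ha + hb) + 0 * hc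
  have h1 : (y - (a * b * c + a' * b' * c')) * (y - (a * b * c' + a' * b' * c)) =
      y ^ 2 + C ^ 2 - 4 - u * C * y + u ^ 2 := by
    rw [hC, hu]
    linear_combination ((a * b) ^ 2 + (a' * b') ^ 2 - 2) * hc +
      (c ^ 2 + c' ^ 2) * b * b' * ha + (c ^ 2 + c' ^ 2) * hb - 2 * (b * b') * ha - 2 * hb
  have h2 : (y - (a * b' * c + a' * b * c')) * (y - (a * b' * c' + a' * b * c)) =
      y ^ 2 + C ^ 2 - 4 - v * C * y + v ^ 2 := by
    rw [hC, hv]
    linear_combination ((a * b') ^ 2 + (a' * b) ^ 2 - 2) * hc +
      (c ^ 2 + c' ^ 2) * b * b' * ha + (c ^ 2 + c' ^ 2) * hb - 2 * (b * b') * ha - 2 * hb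
  rw [h1, h2, quartic, ← hs, ← hm]
  ring

/-- The flips of the sign of some coordinates. -/
def flipHom (f : P → Bool) : (P → ℝ) →+ (P → ℝ) where
  toFun a w := if f w then a w else -a w
  map_zero' := funext fun w => by simp
  map_add' a b := funext fun w => by
    by_cases h : f w <;> simp [h, add_comm]

theorem flipHom_flipHom (f : P → Bool) (a : P → ℝ) : flipHom f (flipHom f a) = a :=
  funext fun w => by by_cases h : f w <;> simp [flipHom, h]

/-- `[a] + [-a]`. -/
def symShift {G : Type*} [AddCommGroup G] (a : G) : AddMonoidAlgebra ℂ G :=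
  single a 1 + single (-a) 1

theorem symShift_map {G H : Type*} [AddCommGroup G] [AddCommGroup H] (f : G →+ H) (a : G) :
    mapDomainRingHom ℂ f (symShift a) = symShift (f a) := by
  simp [symShift, map_add]

variable [Fintype P] [DecidableEq P]

/-- The projector polynomial. -/
def alephPoly (l : P → ℝ) : MvPolynomial (Fin 3) (AddMonoidAlgebra ℂ (P → ℝ)) :=
  ∏ f : P → Bool, quartic (MvPolynomial.X 0) (MvPolynomial.X 1) (MvPolynomial.X 2)
    (MvPolynomial.C (symShift (flipHom f l)))

/-- The unit vectors of the Hecke shifts. -/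
def eVec (j : Fin 3) : Grp (Fin 3) P := (Pi.single j 1, 0)

/-- Height shifts inside all shifts. -/
def inHt : (P → ℝ) →+ Grp (Fin 3) P := AddMonoidHom.inr _ _

/-- Evaluation at the symmetric shifts, after a flip of the heights. -/
def toShifts (f : P → Bool) :
    MvPolynomial (Fin 3) (AddMonoidAlgebra ℂ (P → ℝ)) →+* AddMonoidAlgebra ℂ (Grp (Fin 3) P) :=
  MvPolynomial.eval₂Hom (mapDomainRingHom ℂ (inHt.comp (flipHom f))) fun j => symShift (eVec j)

/-- Functions invariant under the diagonal shift. -/
def DiagPeriodic {κ : Type*} (l : P → ℝ) (F : Grp κ P → ℂ) : Prop :=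
  ∀ i L, F (i + 1, L + l) = F (i, L)

theorem shiftOp_aleph (l : P → ℝ) (f : P → Bool) (F : Grp (Fin 3) P → ℂ)
    (hF : DiagPeriodic l F) : shiftOp (toShifts f (alephPoly l)) F = 0 := by
  classical
  set Φ := toShifts (P := P) f
  have hX : ∀ j, Φ (MvPolynomial.X j) = symShift (eVec j) := fun j => by
    simp [Φ, toShifts]
  have hy : Φ (MvPolynomial.C (symShift (flipHom f l))) = symShift (inHt l) := by
    simp [Φ, toShifts, symShift, flipHom_flipHom, mapDomain_single, map_neg]
  obtain ⟨R, hR⟩ : symShift (inHt l) -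
      symShift (eVec 0 + eVec 1 + eVec 2 : Grp (Fin 3) P) ∣ Φ (alephPoly l) := by
    rw [alephPoly, map_prod]
    refine dvd_trans ?_ (Finset.dvd_prod_of_mem _ (Finset.mem_univ f))
    rw [map_quartic, hX, hX, hX, hy]
    simp only [symShift]
    rw [quartic_factor
      (by simp [single_mul_single, one_def]) (by simp [single_mul_single, one_def])
      (by simp [single_mul_single, one_def])]
    refine dvd_mul_of_dvd_left (dvd_mul_of_dvd_left (dvd_of_eq ?_) _) _
    simp [single_mul_single, add_comm, add_left_comm, add_assoc]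
  rw [hR, mul_comm, shiftOp_mul]
  have h0 : shiftOp (symShift (inHt l) - symShift (eVec 0 + eVec 1 + eVec 2 : Grp (Fin 3) P)) F
      = 0 := by
    funext ⟨i, L⟩
    have he : (eVec 0 + eVec 1 + eVec 2 : Grp (Fin 3) P) = (1, 0) := by
      refine Prod.ext (funext fun j => ?_) (by simp [eVec])
      fin_cases j <;> simp [eVec]
    simp only [symShift, map_sub, map_add, LinearMap.sub_apply, LinearMap.add_apply,
      Pi.sub_apply, Pi.add_apply, Pi.zero_apply, shiftOp_single, one_mul, he, inHt,
      AddMonoidHom.inr_apply, Prod.mk_add_mk, Prod.neg_mk, neg_zero, add_zero]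
    have h1 : F (i + 1, L) = F (i, L - l) := by simpa using hF i (L - l)
    have h2 : F (i + -1, L) = F (i, L + l) := by
      simpa using (hF (i + -1) L).symm
    rw [h1, h2, sub_eq_add_neg L l]
    ring
  rw [h0, map_zero]

/-- The constant coefficient does not vanish. -/
theorem alephPoly_value (l : P → ℝ) :
    AddMonoidAlgebra.lift ℂ ℂ (P → ℝ) 1 (MvPolynomial.constantCoeff (alephPoly l)) =
      16 ^ 2 ^ Fintype.card P := by
  rw [alephPoly, map_prod, map_prod]
  simp [quartic, symShift, map_ofNat]
  norm_num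

end FLTAgent.LT.Aleph
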