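import Fermat.Agent.LT.TF.Aleph.Kill
import Fermat.Agent.LT.Asai.Kfield
import Fermat.Agent.LT.Asai.TraceValues
import Fermat.Agent.LT.Recip.Frobenius
import Fermat.Agent.LT.Octahedral.Group
import Fermat.Agent.Eisen.UnramValue
import Fermat.Agent.Chebotarev.Main

/-!
The prime of the cusp projector: `p ≡ -1 mod N` with a Frobenius element of order eight. It gives
three places of `M` and one of `K`, all unramified of degree two, with vanishing eigenvalue.
-/

set_option autoImplicit false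
set_option linter.unusedSectionVars false
set_option linter.style.haveILetI false

noncomputable section

namespace FLTAgent.LT.Aleph

open NumberField IsDedekindDomain
open scoped Pointwise

local notation "M3" => Matrix (Fin 2) (Fin 2) (ZMod 3)

/-! ### The group -/

theorem mem_quat_iff {g : G3} :
    g ∈ Octa.quat ↔ (g : M3) = 1 ∨ (g : M3) = -1 ∨
      ((g : M3).det = 1 ∧ (g : M3) * (g : M3) = -1) := by
  refine ⟨Asai.val_of_mem_quat, ?_⟩
  rintro (h | h | ⟨h1, h2⟩)
  · rw [show g = 1 from Units.ext h]; exact one_mem _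
  · have hI : g3I ∈ Octa.quat := Asai.mem_quat_one_or (by decide) (by decide)
    rw [show g = g3I * g3I from Units.ext (by rw [h]; decide)]
    exact mul_mem hI hI
  · exact Asai.mem_quat_one_or h1 h2

theorem normal_quat : Octa.quat.Normal := by
  refine ⟨fun n hn g => ?_⟩
  rw [mem_quat_iff] at hn ⊢
  have hinv : (g : M3) * ((g⁻¹ : G3) : M3) = 1 := by
    rw [← Units.val_mul, mul_inv_cancel, Units.val_one]
  have hinv' : ((g⁻¹ : G3) : M3) * (g : M3) = 1 := by
    rw [← Units.val_mul, inv_mul_cancel, Units.val_one]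
  simp only [Units.val_mul]
  rcases hn with h | h | ⟨h1, h2⟩
  · exact Or.inl (by rw [h, mul_one, hinv])
  · exact Or.inr (Or.inl (by rw [h, mul_neg_one, neg_mul, hinv]))
  · refine Or.inr (Or.inr ⟨?_, ?_⟩)
    · rw [Matrix.det_mul, Matrix.det_mul, h1, mul_one, ← Matrix.det_mul, hinv, Matrix.det_one]
    · rw [show (g : M3) * (n : M3) * ((g⁻¹ : G3) : M3) * ((g : M3) * (n : M3) *
          ((g⁻¹ : G3) : M3)) = (g : M3) * ((n : M3) * (((g⁻¹ : G3) : M3) * (g : M3)) * (n : M3)) *
          ((g⁻¹ : G3) : M3) by simp only [mul_assoc], hinv', mul_one, h2, mul_neg_one, neg_mul, hinv]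

theorem card_quat_set :
    Fintype.card {m : M3 // m = 1 ∨ m = -1 ∨ (m.det = 1 ∧ m * m = -1)} = 8 := by
  decide +kernel

theorem card_quat : Nat.card Octa.quat = 8 := by
  have hu : ∀ m : M3, (m = 1 ∨ m = -1 ∨ (m.det = 1 ∧ m * m = -1)) →
      ∃ m', m * m' = 1 ∧ m' * m = 1 := by
    rintro m (h | h | ⟨-, h⟩)
    · exact ⟨1, by simp [h], by simp [h]⟩
    · exact ⟨-1, by simp [h], by simp [h]⟩
    · exact ⟨-m, by rw [mul_neg, h, neg_neg], by rw [neg_mul, h, neg_neg]⟩
  have e : Octa.quat ≃ {m : M3 // m = 1 ∨ m = -1 ∨ (m.det = 1 ∧ m * m = -1)} :=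
    { toFun := fun g => ⟨((g : G3) : M3), mem_quat_iff.1 g.2⟩
      invFun := fun m => ⟨⟨m.1, (hu m.1 m.2).choose, (hu m.1 m.2).choose_spec.1,
        (hu m.1 m.2).choose_spec.2⟩, mem_quat_iff.2 m.2⟩
      left_inv := fun g => Subtype.ext (Units.ext rfl)
      right_inv := fun m => rfl }
  rw [Nat.card_congr e, Nat.card_eq_fintype_card, card_quat_set]

theorem index_quat : Octa.quat.index = 6 := by
  have h := Subgroup.card_mul_index Octa.quat
  rw [card_quat, show Nat.card G3 = 48 by
    rw [Matrix.card_GL_field]; simp [Fin.prod_univ_two]] at h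
  omega

/-- `SL₂(𝔽₃)` lies in the commutator subgroup. -/
theorem mem_commutator_of_det {h : G3} (hd : Matrix.GeneralLinearGroup.det h = 1) :
    h ∈ commutator G3 := by
  let D : G3 := ⟨!![-1, 0; 0, 1], !![-1, 0; 0, 1], by decide, by decide⟩
  let T : G3 := ⟨!![1, 1; 0, 1], !![1, -1; 0, 1], by decide, by decide⟩
  let L : G3 := ⟨!![1, 0; 1, 1], !![1, 0; -1, 1], by decide, by decide⟩
  have hT : T ∈ commutator G3 := by
    rw [show T = D * T * D⁻¹ * T⁻¹ from Units.ext (by decide)]
    exact Subgroup.commutator_mem_commutator (Subgroup.mem_top D) (Subgroup.mem_top T)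
  have hL : L ∈ commutator G3 := by
    rw [show L = D * L * D⁻¹ * L⁻¹ from Units.ext (by decide)]
    exact Subgroup.commutator_mem_commutator (Subgroup.mem_top D) (Subgroup.mem_top L)
  have key : ∀ a b c e : ZMod 3, a * e - b * c = 1 → ∃ i j k l : Fin 3,
      !![a, b; c, e] = !![1, 1; 0, 1] ^ (i : ℕ) * !![1, 0; 1, 1] ^ (j : ℕ) *
        !![1, 1; 0, 1] ^ (k : ℕ) * !![1, 0; 1, 1] ^ (l : ℕ) := by
    decide +kernel
  have h1 : h 0 0 * h 1 1 - h 0 1 * h 1 0 = 1 := by
    have := congrArg Units.val hd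
    rwa [Matrix.GeneralLinearGroup.val_det_apply, Matrix.det_fin_two] at this
  obtain ⟨i, j, k, l, hijkl⟩ := key _ _ _ _ h1
  rw [← Matrix.eta_fin_two] at hijkl
  rw [show h = T ^ (i : ℕ) * L ^ (j : ℕ) * T ^ (k : ℕ) * L ^ (l : ℕ) from
    Units.ext (by simp only [Units.val_mul, Units.val_pow_eq_pow_val]; exact hijkl)]
  exact mul_mem (mul_mem (mul_mem (pow_mem hT _) (pow_mem hL _)) (pow_mem hT _)) (pow_mem hL _)

/-! ### The prime -/

/-- A prime `≡ -1 mod N` whose Frobenius elements have order eight. -/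
structure AlephPrime (d : Octa) (N p : ℕ) : Prop where
  prime : p.Prime
  dvd : N ∣ p + 1
  coprime : ¬ p ∣ N
  inertia : ∀ A : ValuationSubring Qb, A.LiesOverPrime p →
    ∀ σ ∈ A.inertiaSubgroupIn ℚ, d.rbar σ = 1
  frob : ∀ A : ValuationSubring Qb, A.LiesOverPrime p → ∀ φ : Gam, A.IsFrobeniusAt φ p →
    IsConj g3Eight (d.rbar φ)

variable {d : Octa} {N p : ℕ}

/-- **Existence.** -/
theorem exists_alephPrime (d : Octa) {N : ℕ} (hN : d.Good N) : ∃ p, AlephPrime d N p := by
  obtain ⟨hN0, h3, hram⟩ := hN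
  haveI : NeZero N := ⟨hN0.ne'⟩
  obtain ⟨σ0, hσ0⟩ := cycMod_surjective (M := N) (-1)
  -- adjust by a commutator
  have hdet : Matrix.GeneralLinearGroup.det (d.rbar σ0) =
      Matrix.GeneralLinearGroup.det g3Eight := by
    rw [d.det_eq, show WeierstrassCurve.modThreeCyclotomicChar σ0 = cycMod 3 σ0 from rfl,
      ← cycMod_castHom h3, hσ0]
    refine Units.ext ?_
    rw [ZMod.unitsMap_def, Units.coe_map, MonoidHom.coe_coe, Units.val_neg, Units.val_one, map_neg,
      map_one]
    decide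
  have hc : (d.rbar σ0)⁻¹ * g3Eight ∈ (commutator Gam).map d.rbar := by
    rw [commutator_def, Subgroup.map_commutator, Subgroup.map_top_of_surjective _ d.surj,
      ← commutator_def]
    exact mem_commutator_of_det (by rw [map_mul, map_inv, hdet, inv_mul_cancel])
  obtain ⟨τ, hτ, hτ'⟩ := Subgroup.mem_map.1 hc
  have hτc : cycMod N τ = 1 := MonoidHom.mem_ker.1 (Abelianization.commutator_subset_ker _ hτ)
  have hfin : GaloisFactorsThroughFiniteLevel (d.rbar.prod (cycMod N)) := by
    obtain ⟨h1, h2⟩ := Octa.fixing_of_open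
      (show IsOpen (d.rbar.ker : Set Gam) from d.isOpen_comap ⊥)
    obtain ⟨C, hC, hCker⟩ := cycMod_finiteLevel (M := N)
    refine ⟨IntermediateField.fixedField d.rbar.ker ⊔ C, inferInstance, fun σ hσ => ?_⟩
    have hr : d.rbar σ = 1 := by
      refine MonoidHom.mem_ker.1 (h1 ▸ (IntermediateField.mem_fixingSubgroup_iff _ σ).2 ?_)
      exact fun x hx => hσ x (le_sup_left (b := C) hx)
    simp only [MonoidHom.prod_apply, hr, hCker σ fun x hx => hσ x (le_sup_right
      (a := IntermediateField.fixedField d.rbar.ker) hx)]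
    rfl
  obtain ⟨p, hp, hpS, A, hA, -, φ, hφ, hφσ⟩ :=
    Chebotarev.exists_frobenius_of_factorsThroughFiniteLevel _ hfin (σ0 * τ) N.primeFactors
  rw [MonoidHom.prod_apply, MonoidHom.prod_apply, Prod.ext_iff] at hφσ
  obtain ⟨hφr, hφc⟩ := hφσ
  replace hφr : d.rbar φ = g3Eight :=
    hφr.trans (show d.rbar (σ0 * τ) = _ by rw [map_mul, hτ', mul_inv_cancel_left])
  replace hφc : cycMod N φ = -1 := hφc.trans (show cycMod N (σ0 * τ) = _ by rw [map_mul, hτc, hσ0, mul_one])
  have hpN : ¬ p ∣ N := fun h => hpS (Nat.mem_primeFactors.2 ⟨hp, h, hN0.ne'⟩)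
  have hI : ∀ B : ValuationSubring Qb, B.LiesOverPrime p →
      ∀ σ ∈ B.inertiaSubgroupIn ℚ, d.rbar σ = 1 := fun B hB => hram p hp hpN B hB
  refine ⟨p, hp, ?_, hpN, hI, fun B hB ψ hψ => ?_⟩
  · rw [← ZMod.natCast_eq_zero_iff, Nat.cast_add, Nat.cast_one,
      ← cycMod_frobenius hA hφ ((hp.coprime_iff_not_dvd.2 hpN).symm), hφc]
    simp
  · obtain ⟨t, ht⟩ := Frobenius.exists_smul_eq hp hA hB
    have hψ' := Frobenius.isFrobeniusAt_conj hp.pos hφ t
    rw [ht] at hψ'
    have := hI B hB _ (Frobenius.inv_mul_mem_inertiaSubgroupIn hp.pos hψ' hψ)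
    rw [map_mul, map_inv, inv_mul_eq_one] at this
    rw [← this, map_mul, map_mul, map_inv, hφr]
    exact isConj_iff.2 ⟨d.rbar t, rfl⟩

/-- The facts about a Frobenius element at `p`. -/
theorem AlephPrime.facts (h : AlephPrime d N p) {A : ValuationSubring Qb}
    (hA : A.LiesOverPrime p) {φ : Gam} (hφ : A.IsFrobeniusAt φ p) :
    φ ∉ d.GK ∧ φ ^ 2 ∈ d.GM ∧ d.tr0 (φ ^ 2) = 0 := by
  obtain ⟨t, ht⟩ := isConj_iff.1 (h.frob A hA φ hφ)
  have hdet : Matrix.GeneralLinearGroup.det (d.rbar φ) = -1 := by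
    rw [← ht, map_mul, map_mul, map_inv, mul_inv_cancel_comm]
    exact Units.ext (by decide)
  have e : d.rbar (φ ^ 2) = t * g3Eight ^ 2 * t⁻¹ := by rw [map_pow, ← ht, conj_pow]
  have hq : g3Eight ^ 2 ∈ Octa.quat :=
    Asai.mem_quat_one_or (by decide) (by decide)
  refine ⟨fun hK => ?_, ?_, ?_⟩
  · rw [show Matrix.GeneralLinearGroup.det (d.rbar φ) = 1 from hK] at hdet
    exact absurd (congrArg Units.val hdet) (by decide)
  · show d.rbar (φ ^ 2) ∈ Octa.quat
    rw [e]
    exact normal_quat.conj_mem _ hq t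
  · rw [Asai.tr0_eq, Asai.trace_liftMat_of_sq d, map_zero]
    rw [← Units.val_mul, e, show t * g3Eight ^ 2 * t⁻¹ * (t * g3Eight ^ 2 * t⁻¹) =
      t * (g3Eight ^ 2 * g3Eight ^ 2) * t⁻¹ by group, Units.val_mul, Units.val_mul,
      show ((g3Eight ^ 2 * g3Eight ^ 2 : G3) : M3) = -1 by decide, mul_neg_one, neg_mul,
      ← Units.val_mul, mul_inv_cancel, Units.val_one]

/-! ### Fields between -/

/-- A Galois field between `K` and `M`. -/
structure Between (d : Octa) (F : IntermediateField ℚ Qb) : Prop where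
  finite : FiniteDimensional ℚ F
  galois : IsGalois ℚ F
  ge : d.GM ≤ F.fixingSubgroup
  le : F.fixingSubgroup ≤ d.GK

theorem GM_le_GK (d : Octa) : d.GM ≤ d.GK := fun σ hσ => by
  refine MonoidHom.mem_ker.2 (Units.ext ?_)
  rcases mem_quat_iff.1 hσ with h | h | ⟨h, -⟩ <;>
    simp [Matrix.GeneralLinearGroup.val_det_apply, h]
  decide

theorem isGalois_fixedField {H : Subgroup Gam} (hH : IsOpen (H : Set Gam)) (hn : H.Normal) :
    IsGalois ℚ (IntermediateField.fixedField H) := by
  have := Octa.isGalois_Qb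
  have e := (Octa.fixing_of_open hH).1
  obtain ⟨-, hgal⟩ := (InfiniteGalois.isOpen_and_normal_iff_finite_and_isGalois _).1
    ⟨(congrArg (fun S : Subgroup Gam => IsOpen (S : Set Gam)) e).mpr hH, e.symm ▸ hn⟩
  convert hgal
  exact Subsingleton.elim _ _

theorem between_Kf (d : Octa) : Between d d.Kf :=
  ⟨inferInstance, isGalois_fixedField d.isOpen_GK (MonoidHom.normal_ker _),
    by rw [d.fixing_Kf]; exact GM_le_GK d, d.fixing_Kf.le⟩

theorem between_Mf (d : Octa) : Between d d.Mf :=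
  ⟨inferInstance, isGalois_fixedField d.isOpen_GM (normal_quat.comap _), d.fixing_Mf.ge,
    d.fixing_Mf.le.trans (GM_le_GK d)⟩

variable {F : IntermediateField ℚ Qb} [NumberField F]

theorem Between.exists_valuation (h : AlephPrime d N p) (hF : Between d F)
    (v : HeightOneSpectrum (𝓞 F)) (hv : (p : 𝓞 F) ∈ v.asIdeal) :
    v.intValuation (p : 𝓞 F) = WithZero.exp (-1 : ℤ) ∧
      Nat.card (𝓞 F ⧸ v.asIdeal) = p ^ 2 := by
  haveI := hF.finite
  haveI := hF.galois
  obtain ⟨A, hA, hAv⟩ := TW.exists_placeIn F v h.prime hv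
  have hmem : ∀ x : 𝓞 F, x ∈ v.asIdeal ↔ ((x : F) : Qb) ∈ A.nonunits := by
    rw [← hAv]; exact fun x => TW.mem_placeIn
  have hI : A.inertiaSubgroupIn ℚ ≤ F.fixingSubgroup := fun σ hσ => hF.ge (by
    show d.rbar σ ∈ Octa.quat
    rw [h.inertia A hA σ hσ]; exact one_mem _)
  constructor
  · -- unramified
    have hp0 : (p : Qb) ≠ 0 := Nat.cast_ne_zero.2 h.prime.ne_zero
    set P := A.valuation (p : Qb)
    have hP0 : P ≠ 0 := (Valuation.ne_zero_iff _).2 hp0
    have hP1 : P < 1 := by
      have := (hmem _).1 hv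
      rw [ValuationSubring.mem_nonunits_iff] at this
      simpa using this
    have hgen : ∀ x ∈ v.asIdeal, A.valuation ((x : F) : Qb) ≤ P := by
      intro x hx
      rcases eq_or_ne x 0 with rfl | hx0
      · simp
      have hx0' : ((x : F) : Qb) ≠ 0 := by simpa using hx0
      obtain ⟨k, hk⟩ := Eisen.valuation_eq_zpow_of_inertia_le F h.prime hA hI
        (x : F).2 hx0'
      have h1 := (hmem x).1 hx
      rw [ValuationSubring.mem_nonunits_iff, hk] at h1
      rw [hk]
      have hk1 : 1 ≤ k := by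
        by_contra hle
        exact absurd h1 (not_lt.2 (one_le_zpow_of_nonpos₀ (zero_lt_iff.2 hP0) hP1.le (by omega)))
      calc P ^ k ≤ P ^ (1 : ℤ) := (zpow_le_zpow_iff_right_of_lt_one₀ (zero_lt_iff.2 hP0) hP1).2 hk1
        _ = P := zpow_one P
    refine le_antisymm ((v.intValuation_le_pow_iff_mem _ 1).2 (by rwa [pow_one]))
      (not_lt.1 fun hlt => ?_)
    have h2 : (p : 𝓞 F) ∈ v.asIdeal ^ 2 := by
      refine (v.intValuation_le_pow_iff_mem _ 2).1 ?_
      rw [HeightOneSpectrum.intValuation_if_neg _ (Nat.cast_ne_zero.2 h.prime.ne_zero),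
        WithZero.exp_lt_exp] at hlt
      rw [HeightOneSpectrum.intValuation_if_neg _ (Nat.cast_ne_zero.2 h.prime.ne_zero),
        WithZero.exp_le_exp]
      omega
    have h3 : A.valuation ((((p : 𝓞 F) : F)) : Qb) ≤ P * P := by
      rw [sq] at h2
      refine Submodule.mul_induction_on (C := fun x : 𝓞 F => A.valuation ((x : F) : Qb) ≤ P * P) h2
        (fun a ha b hb => ?_) fun a b ha hb => ?_
      · push_cast
        rw [map_mul]
        exact mul_le_mul' (hgen a ha) (hgen b hb)
      · push_cast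
        exact Valuation.map_add_le _ ha hb
    have h4 : P ≤ P * P := by simpa using h3
    exact absurd h4 (not_le.2 (mul_lt_of_lt_one_left (zero_lt_iff.2 hP0) hP1))
  · obtain ⟨φ, hφ⟩ := Frobenius.exists_isFrobeniusAt h.prime hA
    obtain ⟨hnK, hsq, -⟩ := h.facts hA hφ
    obtain ⟨f, hf, hcard⟩ := Recip.exists_natCard_residue (K := F) h.prime hA
    rw [hAv] at hcard
    have hle : Nat.card (𝓞 F ⧸ v.asIdeal) ≤ p ^ 2 := by
      rw [← hAv]
      refine Recip.natCard_residue_le h.prime hA (Nat.one_lt_pow two_ne_zero h.prime.one_lt)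
        ((Frobenius.isFrobeniusAt_iff_centre (pow_pos h.prime.pos 2)).2 fun x =>
          TW.Local.frobenius_pow_sub_mem h.prime hφ 2 x) (hF.ge hsq)
    rw [hcard] at hle ⊢
    have hf2 : f ≤ 2 := (Nat.pow_le_pow_iff_right h.prime.one_lt).1 hle
    have hf1 : f ≠ 1 := fun e => by
      obtain ⟨σ, hσF, hσ⟩ := Recip.exists_frobenius_fixing (K := F) h.prime hA
      rw [hAv, hcard, e, pow_one] at hσ
      exact (h.facts hA hσ).1 (hF.le hσF)
    rw [show f = 2 by omega]

theorem Between.card_places (h : AlephPrime d N p) (hF : Between d F) :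
    2 * {v : HeightOneSpectrum (𝓞 F) | (p : 𝓞 F) ∈ v.asIdeal}.ncard = Module.finrank ℚ F := by
  classical
  have hfin := Red.finite_natCast_mem (F := F) h.prime.pos
  set S := hfin.toFinset
  have hI : Ideal.span {(p : 𝓞 F)} ≠ 0 := by simp [h.prime.ne_zero]
  have hp0 : (p : 𝓞 F) ≠ 0 := Nat.cast_ne_zero.2 h.prime.ne_zero
  have hpow : ∀ v : HeightOneSpectrum (𝓞 F), v.maxPowDividing (Ideal.span {(p : 𝓞 F)}) =
      if v ∈ S then v.asIdeal else 1 := fun v => by
    have hiv := HeightOneSpectrum.intValuation_if_neg v hp0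
    have hmp : v.maxPowDividing (Ideal.span {(p : 𝓞 F)}) = v.asIdeal ^
        (Associates.mk v.asIdeal).count (Associates.mk (Ideal.span {(p : 𝓞 F)})).factors := rfl
    rw [hmp]
    split_ifs with hv
    · rw [(hF.exists_valuation h v (hfin.mem_toFinset.1 hv)).1, WithZero.exp_inj] at hiv
      rw [show (Associates.mk v.asIdeal).count
        (Associates.mk (Ideal.span {(p : 𝓞 F)})).factors = 1 by omega, pow_one]
    · rw [v.intValuation_eq_one_iff.2 fun hm => hv (hfin.mem_toFinset.2 hm), ← WithZero.exp_zero,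
        WithZero.exp_inj] at hiv
      rw [show (Associates.mk v.asIdeal).count
        (Associates.mk (Ideal.span {(p : 𝓞 F)})).factors = 0 by omega, pow_zero]
  have hprod := Ideal.finprod_heightOneSpectrum_factorization hI
  rw [finprod_eq_prod_of_mulSupport_subset (s := S) _ fun v hv => by
    by_contra hne
    refine hv ?_
    show v.maxPowDividing _ = 1
    rw [hpow, if_neg (by simpa using hne)]] at hprod
  have h1 := congrArg Ideal.absNorm hprod
  rw [map_prod, Ideal.absNorm_span_natCast, RingOfIntegers.rank] at h1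
  rw [Finset.prod_congr rfl fun v hv => show Ideal.absNorm _ = p ^ 2 by
    rw [hpow, if_pos hv, Ideal.absNorm_apply, Submodule.cardQuot_apply]
    exact (hF.exists_valuation h v (hfin.mem_toFinset.1 hv)).2, Finset.prod_const, ← pow_mul] at h1
  rw [← Nat.pow_right_injective h.prime.two_le h1, Set.ncard_eq_toFinset_card _ hfin]

theorem Between.isTotallyComplex (hF : Between d F) : IsTotallyComplex F := by
  haveI := hF.finite
  have hKF : d.Kf ≤ F := by
    have := Octa.isGalois_Qb
    rw [← InfiniteGalois.fixedField_fixingSubgroup F]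
    exact IntermediateField.fixedField_antitone hF.le
  haveI := Asai.isTotallyComplex_Kf d
  refine ⟨fun w => ?_⟩
  by_contra hw
  rw [InfinitePlace.not_isComplex_iff_isReal] at hw
  have := hw.comap (IntermediateField.inclusion hKF).toRingHom
  exact InfinitePlace.not_isReal_iff_isComplex.2 (IsTotallyComplex.isComplex _) this

theorem Between.card_infinitePlace (h : AlephPrime d N p) (hF : Between d F) :
    Fintype.card (InfinitePlace F) =
      {v : HeightOneSpectrum (𝓞 F) | (p : 𝓞 F) ∈ v.asIdeal}.ncard := by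
  classical
  haveI := hF.isTotallyComplex
  have h1 : InfinitePlace.nrRealPlaces F = 0 := IsTotallyComplex.nrRealPlaces_eq_zero (K := F)
  have h2 := InfinitePlace.card_add_two_mul_card_eq_rank F
  have h3 := InfinitePlace.card_eq_nrRealPlaces_add_nrComplexPlaces F
  have h4 := hF.card_places h
  omega

/-- The places over `p`. -/
theorem Between.places (h : AlephPrime d N p) (hF : Between d F) {ι : Type*} [Fintype ι]
    (e : ι ≃ {v : HeightOneSpectrum (𝓞 F) | (p : 𝓞 F) ∈ v.asIdeal}) :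
    Places N p fun j => (e j : HeightOneSpectrum (𝓞 F)) where
  pos := h.prime.pos
  dvd := h.dvd
  inj := Subtype.val_injective.comp e.injective
  above v hv := ⟨e.symm ⟨v, hv⟩, by simp⟩
  val j := by rw [Red.valued_natCast]; exact (hF.exists_valuation h _ (e j).2).1
  card_res j := (hF.exists_valuation h _ (e j).2).2
  card_eq := by
    rw [hF.card_infinitePlace h, ← Nat.card_coe_set_eq, ← Nat.card_congr e,
      Nat.card_eq_fintype_card]

/-- The Hecke operators at the places over `p` kill the eigenfunctions of `ρ`. -/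
theorem hecke_eq_zero (h : AlephPrime d N p) (hF : Between d F) {φ : Form F}
    (he : EigenRho d F N φ) (v : HeightOneSpectrum (𝓞 F)) (hv : (p : 𝓞 F) ∈ v.asIdeal)
    (x : Xinf F) (g : GF F) : hecke v φ x g = 0 := by
  haveI := hF.finite
  obtain ⟨A, hA, hAv⟩ := TW.exists_placeIn F v h.prime hv
  obtain ⟨σ, hσ⟩ := Frobenius.exists_isFrobeniusAt h.prime hA
  obtain ⟨-, hsq, htr⟩ := h.facts hA hσ
  rw [he p h.prime h.coprime A hA v (by rw [← hAv]; exact fun x => TW.mem_placeIn) σ hσ 2
    (hF.exists_valuation h v hv).2 hsq x g, htr]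
  ring

theorem finrank_Mf (d : Octa) : Module.finrank ℚ d.Mf = 6 := by
  have := Octa.isGalois_Qb
  rw [IntermediateField.finrank_eq_fixingSubgroup_index, d.fixing_Mf, Octa.GM,
    Subgroup.index_comap_of_surjective _ d.surj, index_quat]

/-- **The three places of `M`.** -/
theorem exists_places_Mf (h : AlephPrime d N p) :
    ∃ pl : Fin 3 → HeightOneSpectrum (𝓞 d.Mf), Places N p pl ∧
      ∀ φ : Form d.Mf, EigenRho d d.Mf N φ → ∀ j x g, hecke (pl j) φ x g = 0 := by
  classical
  have hfin := Red.finite_natCast_mem (F := d.Mf) h.prime.pos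
  have hc := (between_Mf d).card_places h
  rw [finrank_Mf] at hc
  haveI := hfin.to_subtype
  obtain ⟨e⟩ := Finite.card_eq.1 (show Nat.card (Fin 3) =
    Nat.card {v : HeightOneSpectrum (𝓞 d.Mf) | (p : 𝓞 d.Mf) ∈ v.asIdeal} by
      rw [Nat.card_coe_set_eq, Nat.card_eq_fintype_card, Fintype.card_fin]; omega)
  exact ⟨_, (between_Mf d).places h e, fun φ he j => hecke_eq_zero h (between_Mf d) he _ (e j).2⟩

/-- **The place of `K`.** -/
theorem exists_place_Kf (h : AlephPrime d N p) :
    ∃ pl : Fin 1 → HeightOneSpectrum (𝓞 d.Kf), Places N p pl ∧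
      ∀ φ : Form d.Kf, EigenRho d d.Kf N φ → ∀ j x g, hecke (pl j) φ x g = 0 := by
  classical
  have hfin := Red.finite_natCast_mem (F := d.Kf) h.prime.pos
  have hc := (between_Kf d).card_places h
  rw [Asai.finrank_Kf] at hc
  haveI := hfin.to_subtype
  obtain ⟨e⟩ := Finite.card_eq.1 (show Nat.card (Fin 1) =
    Nat.card {v : HeightOneSpectrum (𝓞 d.Kf) | (p : 𝓞 d.Kf) ∈ v.asIdeal} by
      rw [Nat.card_coe_set_eq, Nat.card_eq_fintype_card, Fintype.card_fin]; omega)
  exact ⟨_, (between_Kf d).places h e, fun φ he j => hecke_eq_zero h (between_Kf d) he _ (e j).2⟩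

end FLTAgent.LT.Aleph
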