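import Fermat.Agent.LT.TF.Aleph.Kill
import Mathlib.MeasureTheory.Integral.IntegralEqImproper

/-!
The scalar of a killing family on eigenfunctions with spectral parameter zero and vanishing Hecke
eigenvalues: the constant coefficient.
-/

set_option autoImplicit false
set_option linter.unusedSectionVars false
set_option linter.style.haveILetI false

noncomputable section

namespace FLTAgent.LT.Aleph

open NumberField IsDedekindDomain MeasureTheory Real Set
open FLTAgent.LT.RS (Idx)

/-- The spherical transform at parameter zero of a radial kernel is the integral of its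
transform. -/
theorem integral_radKer_zero {h : ℝ → ℝ} (H : Hyp.AbelDatum h) :
    ∫ r in Ioi (0 : ℝ), Hyp.radKer h r * (4 * π * r * sinh r) = ∫ x, h x := by
  obtain ⟨R, hR0, hR⟩ := H.exists_bound
  have hd : Continuous (deriv h) := H.contDiff_deriv.continuous
  have hh : Continuous h := H.diff.continuous
  have hsd : HasCompactSupport (deriv h) := H.compact.deriv
  have i1 : Integrable fun r => r * deriv h r :=
    (continuous_id.mul hd).integrable_of_hasCompactSupport hsd.mul_left
  have i2 : Integrable h := hh.integrable_of_hasCompactSupport H.compact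
  have hparts : ∫ r in Ioi (0 : ℝ), (h r + r * deriv h r) = 0 := by
    have hder : ∀ r ∈ Ici (0 : ℝ), HasDerivAt (fun r => r * h r) (h r + r * deriv h r) r :=
      fun r _ => by simpa using (hasDerivAt_id r).fun_mul (H.diff r).hasDerivAt
    have hlim : Filter.Tendsto (fun r => r * h r) Filter.atTop (nhds 0) :=
      tendsto_const_nhds.congr' (Filter.eventually_atTop.2
        ⟨R, fun r hr => by simp [(hR r (hr.trans (le_abs_self r))).1]⟩)
    rw [integral_Ioi_of_hasDerivAt_of_tendsto' hder (i2.add i1).integrableOn hlim]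
    simp
  rw [integral_add i2.integrableOn i1.integrableOn] at hparts
  have he : ∫ x, h x = 2 * ∫ r in Ioi (0 : ℝ), h r := by
    rw [← integral_comp_abs (f := h)]
    refine integral_congr_ae (Filter.Eventually.of_forall fun x => ?_)
    rcases abs_choice x with e | e <;> simp [e, H.even]
  rw [he, setIntegral_congr_fun measurableSet_Ioi fun r hr => show
    Hyp.radKer h r * (4 * π * r * sinh r) = -2 * (r * deriv h r) by
      have : 0 < sinh r := sinh_pos_iff.2 hr
      rw [H.radKer_eq hr]; field_simp; ring, integral_const_mul]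
  linarith

/-! ### One radial factor at every place -/

variable {P : Type*} [Fintype P]

theorem integral_prod_eigen_fin : ∀ (n : ℕ) (k : Fin n → H3 → H3 → ℂ) (c : Fin n → ℂ)
    (x : Fin n → H3) (f : (Fin n → H3) → ℂ), Continuous f →
    (∀ i p, Continuous (k i p) ∧ HasCompactSupport (k i p)) →
    (∀ i y, ∫ q, k i (y i) q * f (Function.update y i q) ∂hypMeasure = c i * f y) →
    ∫ y, (∏ i, k i (x i) (y i)) * f y ∂(Measure.pi fun _ : Fin n => hypMeasure) =
      (∏ i, c i) * f x
  | 0, k, c, x, f, _, _, _ => by
    rw [Measure.pi_of_empty, integral_dirac]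
    simp [Subsingleton.elim x isEmptyElim]
  | n + 1, k, c, x, f, hf, hk, he => by
    classical
    set e := (MeasurableEquiv.piFinSuccAbove (fun _ : Fin (n + 1) => H3) 0).symm
    have hp : MeasurePreserving e
        (hypMeasure.prod (Measure.pi fun _ : Fin n => hypMeasure))
        (Measure.pi fun _ : Fin (n + 1) => hypMeasure) :=
      (measurePreserving_piFinSuccAbove (fun _ : Fin (n + 1) => hypMeasure) 0).symm
    have hcons : ∀ q y, e (q, y) = Fin.cons q y := fun q y => by
      simp [e, MeasurableEquiv.piFinSuccAbove]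
      rfl
    have hint : Integrable (fun y => (∏ i, k i (x i) (y i)) * f y)
        (Measure.pi fun _ : Fin (n + 1) => hypMeasure) := by
      refine ((continuous_finsetProd _ fun i _ =>
        (hk i (x i)).1.comp (continuous_apply i)).mul hf).integrable_of_hasCompactSupport
        (HasCompactSupport.mul_right ?_)
      refine HasCompactSupport.intro (isCompact_univ_pi fun i => (hk i (x i)).2) fun y hy => ?_
      simp only [Set.mem_pi, Set.mem_univ, true_implies, not_forall] at hy
      obtain ⟨i, hi⟩ := hy
      exact Finset.prod_eq_zero (f := fun i => k i (x i) (y i)) (Finset.mem_univ i)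
        (image_eq_zero_of_notMem_tsupport (f := k i (x i)) hi)
    rw [← hp.integral_comp e.measurableEmbedding,
      integral_prod (fun z => (∏ i, k i (x i) (e z i)) * f (e z))
        ((hp.integrable_comp_emb e.measurableEmbedding).2 hint)]
    have inner : ∀ q, ∫ y, (∏ i, k i (x i) (e (q, y) i)) * f (e (q, y))
        ∂(Measure.pi fun _ : Fin n => hypMeasure) =
        (∏ i : Fin n, c i.succ) * (k 0 (x 0) q * f (Function.update x 0 q)) := fun q => by
      simp only [hcons, Fin.prod_univ_succ, Fin.cons_zero, Fin.cons_succ, mul_assoc,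
        integral_const_mul]
      have ih := integral_prod_eigen_fin n (fun i => k i.succ) (fun i => c i.succ) (Fin.tail x)
        (fun y => f (Fin.cons q y)) (hf.comp (continuous_const.finCons continuous_id))
        (fun i p => hk i.succ p) (fun i y => by
          have := he i.succ (Fin.cons q y)
          simpa [Fin.cons_succ, Fin.cons_update] using this)
      simp only [Fin.tail] at ih
      rw [ih, show Function.update x 0 q = Fin.cons q (Fin.tail x) by
        conv_lhs => rw [← Fin.cons_self_tail x]
        exact Fin.update_cons_zero _ _ _]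
      ring
    simp only [inner]
    simp only [integral_const_mul, he 0 x, Fin.prod_univ_succ]
    ring

theorem integral_prod_eigen (k : P → H3 → H3 → ℂ) (c : P → ℂ)
    (x : P → H3) (f : (P → H3) → ℂ) (hf : Continuous f)
    (hk : ∀ i p, Continuous (k i p) ∧ HasCompactSupport (k i p))
    (he : ∀ [DecidableEq P] (i : P) (y : P → H3),
      ∫ q, k i (y i) q * f (Function.update y i q) ∂hypMeasure = c i * f y) :
    ∫ y, (∏ i, k i (x i) (y i)) * f y ∂(Measure.pi fun _ : P => hypMeasure) =
      (∏ i, c i) * f x := by
  classical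
  set σ := (Fintype.equivFin P).symm
  set e := MeasurableEquiv.piCongrLeft (fun _ : P => H3) σ
  have hp : MeasurePreserving e (Measure.pi fun _ : Fin (Fintype.card P) => hypMeasure)
      (Measure.pi fun _ : P => hypMeasure) :=
    measurePreserving_piCongrLeft (fun _ : P => hypMeasure) σ
  have hev : ∀ z i, e z (σ i) = z i := fun z i => by
    simp [e, MeasurableEquiv.piCongrLeft, Equiv.piCongrLeft_apply_apply]
  have hez : ∀ z, e z = fun w => z (σ.symm w) := fun z => funext fun w => by
    conv_lhs => rw [← σ.apply_symm_apply w, hev]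
  rw [← hp.integral_comp e.measurableEmbedding]
  have hprod : ∀ z, ∏ i, k i (x i) (e z i) = ∏ i, k (σ i) (x (σ i)) (z i) := fun z => by
    rw [← σ.prod_comp fun i => k i (x i) (e z i)]
    simp only [hev]
  simp only [hprod]
  have hupd : ∀ z i q, e (Function.update z i q) = Function.update (e z) (σ i) q := fun z i q => by
    funext w
    rcases eq_or_ne w (σ i) with rfl | hw
    · rw [hev, Function.update_self, Function.update_self]
    · obtain ⟨j, rfl⟩ := σ.surjective w
      rw [hev, Function.update_of_ne (fun h => hw (by rw [h])), Function.update_of_ne hw, hev]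
  have h := integral_prod_eigen_fin _ (fun i => k (σ i)) (fun i => c (σ i)) (fun i => x (σ i))
    (fun z => f (e z))
    (hf.comp (by rw [show (e : _ → P → H3) = fun z w => z (σ.symm w) from funext hez]; fun_prop))
    (fun i p => hk (σ i) p) fun i y => by
      simp only [hupd, show k (σ i) (y i) = k (σ i) (e y (σ i)) by rw [hev]]
      exact he (σ i) (e y)
  rw [h, σ.prod_comp c]
  congr 2
  funext w
  rw [hez]
  simp

variable {F : Type*} [Field F] [NumberField F] {N : ℕ} {Φ : Form F}

/-- A product of radial factors acts on functions with parameter zero by the product of the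
integrals of the transforms. -/
theorem conv_radProd {h : InfinitePlace F → ℝ → ℝ} (H : ∀ w, Hyp.AbelDatum (h w))
    (hc : ∀ g, Continuous fun x => Φ x g) (hz : ZeroEigen Φ) (x : Xinf F) (g : GF F) :
    conv (radProd h) Φ x g = (∫ l, prodFun h l) * Φ x g := by
  set Hc : InfinitePlace F → ℝ → ℂ := fun w c =>
    ((Hyp.radKer (h w) (arcosh (max c 1)) * min 1 (max 0 c) : ℝ) : ℂ)
  have hHc : ∀ w, Continuous (Hc w) := fun w => Complex.continuous_ofReal.comp
    (((H w).continuous_radKer.comp (continuousOn_arcosh.comp_continuous (by fun_prop)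
      fun c => le_max_right c 1)).mul (by fun_prop))
  have hHs : ∀ w, HasCompactSupport (Hc w) := fun w => by
    obtain ⟨R, hR0, hR⟩ := (H w).exists_bound
    refine HasCompactSupport.intro (K := Icc 0 (cosh R)) isCompact_Icc fun c hc => ?_
    rcases lt_or_ge c 0 with h0 | h0
    · simp [Hc, max_eq_left h0.le]
    · have h1 : cosh R < c := not_le.1 fun h' => hc ⟨h0, h'⟩
      have h2 : R ≤ arcosh (max c 1) := by
        rw [← arcosh_cosh hR0.le]
        exact (arcosh_le_arcosh (cosh_pos R) (lt_max_of_lt_right one_pos)).2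
          (h1.le.trans (le_max_left _ _))
      simp [Hc, (hR _ (h2.trans (le_abs_self _))).2.2]
  have hv : ∀ w c, 1 ≤ c → Hc w c = ((Hyp.radKer (h w) (arcosh c) : ℝ) : ℂ) := fun w c hc' => by
    simp [Hc, max_eq_left hc', max_eq_right (zero_le_one.trans hc'), min_eq_left hc']
  have e : ∀ (x y : Xinf F), radProd h (fun w => hdist (x w) (y w)) =
      ∏ w, Hc w (coshDist (x w) (y w)) := fun x y => by
    simp [radProd, hdist, hv _ _ (Hyp.one_le_coshDist _ _)]
  have hsc : ∀ w, ∫ r in Ioi (0 : ℝ), Hc w (cosh r) * ((4 * π * r * sinh r : ℝ) : ℂ) =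
      ((∫ l, h w l : ℝ) : ℂ) := fun w => by
    rw [← integral_radKer_zero (H w), ← integral_complex_ofReal]
    refine setIntegral_congr_fun measurableSet_Ioi fun r hr => ?_
    simp [hv _ _ (one_le_cosh r), arcosh_cosh (le_of_lt hr)]
  have hk : ∀ w p, Continuous (fun q => Hc w (coshDist p q)) ∧
      HasCompactSupport fun q => Hc w (coshDist p q) := fun w p => by
    obtain ⟨K, hK, hK0⟩ := RS.exists_compact_support (hHs w) p
    exact ⟨(hHc w).comp (Hyp.continuous_coshDist.comp (continuous_const.prodMk continuous_id)),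
      HasCompactSupport.intro hK hK0⟩
  simp only [conv, e]
  refine (integral_prod_eigen (fun w p q => Hc w (coshDist p q))
    (fun w => ((∫ l, h w l : ℝ) : ℂ)) x (fun y => Φ y g) (hc g) hk ?_).trans ?_
  · intro _ w y
    have h1 := hz w y g (Hc w) (hHc w) (hHs w)
    rw [hsc] at h1
    convert h1 using 6
  · congr 1
    simp only [prodFun]
    rw [volume_pi, integral_fintype_prod_eq_prod fun w (l : ℝ) => ((h w l : ℝ) : ℂ)]
    exact Finset.prod_congr rfl fun w _ => integral_ofReal.symm

/-! ### Words -/

theorem hWord_zero : ∀ ws : List (HeightOneSpectrum (𝓞 F)), hWord ws (0 : GF F → ℂ) = 0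
  | [] => rfl
  | v :: ws => by
    rw [hWord, hWord_zero ws]
    funext g
    simp [hOp]

theorem LocForm.integrable_conv (hl : LocForm Φ) {K : (InfinitePlace F → ℝ) → ℂ}
    (hKc : Continuous K) (hKs : HasCompactSupport K) (x : Xinf F) (g : GF F) :
    Integrable (fun y => K (fun w => hdist (x w) (y w)) * Φ y g) (infMeasure F) := by
  obtain ⟨R, hR⟩ := hKs.isCompact.isBounded.subset_closedBall 0
  obtain ⟨W, hW, hWy⟩ := exists_compact_dist x R
  refine (hl.locInt g).integrable_smul_left_of_hasCompactSupport
    (g := fun y : Xinf F => K fun w => hdist (x w) (y w))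
    (hKc.comp (continuous_pi fun w =>
      continuous_hdist.comp (continuous_const.prodMk (continuous_apply w))))
    (HasCompactSupport.intro hW fun y hy => ?_)
  by_contra hne
  refine hy (hWy y fun w => ?_)
  have h1 := hR (subset_tsupport _ hne)
  rw [Metric.mem_closedBall, dist_zero_right] at h1
  exact (le_abs_self _).trans ((norm_le_pi_norm (fun w => hdist (x w) (y w)) w).trans h1)

theorem hWord_conv_eq_zero (hl : LocForm Φ) {K : (InfinitePlace F → ℝ) → ℂ}
    (hKc : Continuous K) (hKs : HasCompactSupport K) (x : Xinf F) :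
    ∀ (ws : List (HeightOneSpectrum (𝓞 F))), ws ≠ [] →
      (∀ v ∈ ws, ∀ y g, hecke v Φ y g = 0) → hWord ws (conv K Φ x) = 0
  | [], h, _ => absurd rfl h
  | [v], _, h => by
    funext g
    simp only [hWord, hOp, conv, Pi.zero_apply]
    rw [← integral_finsetSum _ fun r _ => hl.integrable_conv hKc hKs x _]
    refine integral_eq_zero_of_ae (Filter.Eventually.of_forall fun y => ?_)
    simp only [Pi.zero_apply, ← Finset.mul_sum]
    rw [← hOp, ← hecke_eq_hOp, h v List.mem_cons_self, mul_zero]
  | v :: w :: ws, _, h => by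
    rw [hWord, hWord_conv_eq_zero hl hKc hKs x (w :: ws) (List.cons_ne_nil _ _)
      fun u hu => h u (List.mem_cons_of_mem _ hu)]
    exact hWord_zero [v]

/-- The scalar of a family on an eigenfunction. -/
theorem Fam.op_eigen {ι : Type*} (A : Fam ι (InfinitePlace F)) (hA : A.Reg)
    {pl : ι → HeightOneSpectrum (𝓞 F)} (hpl : ∀ j, (N : 𝓞 F) ∉ (pl j).asIdeal)
    {φ : Pt F N → ℂ} (hl : LocForm (formOf φ))
    (hT : ∀ j y g, hecke (pl j) (formOf φ) y g = 0)
    (hrad : ∀ k, A.word k = [] → ∀ x g,
      conv (A.rad k) (formOf φ) x g = (∫ l, A.abel k l) * formOf φ x g)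
    (q : Pt F N) : A.op pl φ q = A.value * φ q := by
  obtain ⟨x, c⟩ := q
  obtain ⟨g, rfl⟩ := QuotientGroup.mk_surjective c
  rw [Fam.op, Fam.value, Finset.sum_mul]
  refine Finset.sum_congr rfl fun k _ => ?_
  rw [testOp_word φ (fun v hv => by
    obtain ⟨j, -, rfl⟩ := List.mem_map.1 hv
    exact hpl j)]
  split_ifs with hk
  · rw [hk, List.map_nil, hWord, hrad k hk, ← mul_assoc]
    rfl
  · rw [hWord_conv_eq_zero hl (hA.lipschitz k).choose_spec.continuous (hA.compact k) x _
      (by simpa using hk) fun v hv => ?_]
    · simp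
    · obtain ⟨j, -, rfl⟩ := List.mem_map.1 hv
      exact hT j

/-- The three place family on a cusp form with parameter zero killed by the three operators. -/
theorem alephFam_op_eigen {g : ℝ → ℝ} (hg : Hyp.AbelDatum g) (l : InfinitePlace F → ℝ) (p : ℝ)
    [DecidableEq (InfinitePlace F)]
    {pl : Fin 3 → HeightOneSpectrum (𝓞 F)} (hpl : ∀ j, (N : 𝓞 F) ∉ (pl j).asIdeal)
    {φ : Pt F N → ℂ} (hc : ∀ g, Continuous fun x => formOf φ x g) (hz : ZeroEigen (formOf φ))
    (hT : ∀ j y g, hecke (pl j) (formOf φ) y g = 0) (q : Pt F N) :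
    (alephFam l p g).op pl φ q =
      16 ^ 2 ^ Fintype.card (InfinitePlace F) *
        ((∫ x, g x : ℝ) : ℂ) ^ Fintype.card (InfinitePlace F) * φ q := by
  haveI : LocallyCompactSpace (Set.Ioi (0 : ℝ)) := isOpen_Ioi.locallyCompactSpace
  haveI : IsLocallyFiniteMeasure hypMeasure := isLocallyFiniteMeasure_of_isFiniteMeasureOnCompacts
  rw [Fam.op_eigen _ (alephFam_reg hg l p) hpl ⟨fun g => (hc g).measurable,
    fun g => (hc g).locallyIntegrable⟩ hT (fun k _ x g' =>
      conv_radProd (fun w => abelDatum_symFun hg _ w) hc hz x g'), alephFam_value hg]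

end FLTAgent.LT.Aleph
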