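import Fermat.Agent.LT.TF.Aleph.Family
import Fermat.Agent.LT.TF.RadialOne
import Fermat.Agent.LT.TF.Regular
import Mathlib.Analysis.Convolution

/-!
The family of three places seen on a field with one place: the radial factor is the convolution of
the three factors, its transform the convolution of their transforms.
-/

set_option autoImplicit false
set_option linter.unusedSectionVars false
set_option linter.style.haveILetI false

noncomputable section

namespace FLTAgent.LT.Aleph

open MeasureTheory Real Set
open scoped Pointwise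

/-! ### Convolutions on the line -/

/-- Continuous with compact support. -/
structure CCFun (a : ℝ → ℂ) : Prop where
  cont : Continuous a
  compact : HasCompactSupport a

/-- Convolution on the line. -/
def convR (a b : ℝ → ℂ) (s : ℝ) : ℂ := ∫ u, a u * b (s - u)

/-- The correlation with a locally integrable function. -/
def corrR (b f : ℝ → ℂ) (s : ℝ) : ℂ := ∫ v, b v * f (s + v)

variable {a b c f : ℝ → ℂ}

theorem CCFun.convR (ha : CCFun a) (hb : CCFun b) : CCFun (convR a b) := by
  have e : Aleph.convR a b = convolution a b (ContinuousLinearMap.mul ℂ ℂ) volume := rfl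
  rw [e]
  exact ⟨hb.compact.continuous_convolution_right _ ha.cont.locallyIntegrable hb.cont,
    ha.compact.convolution _ hb.compact⟩

theorem CCFun.mul_continuous (hb : CCFun b) {e : ℝ → ℂ} (he : Continuous e) :
    CCFun fun v => e v * b v :=
  ⟨he.mul hb.cont, hb.compact.mul_left⟩

theorem continuous_corrR (hb : CCFun b) (hf : LocallyIntegrable f) : Continuous (corrR b f) := by
  have h1 : HasCompactSupport fun z => b (-z) := hb.compact.comp_homeomorph (Homeomorph.neg ℝ)
  have e : corrR b f = convolution f (fun z => b (-z)) (ContinuousLinearMap.mul ℂ ℂ) volume := by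
    funext s
    rw [corrR, convolution_def, ← integral_sub_right_eq_self (fun v => b v * f (s + v)) s]
    refine integral_congr_ae (Filter.Eventually.of_forall fun t => ?_)
    simp [mul_comm]
  rw [e]
  exact h1.continuous_convolution_right _ hf (hb.cont.comp continuous_neg)

theorem LocallyIntegrable.comp_add_left' {f : ℝ → ℂ} (hf : LocallyIntegrable f) (s : ℝ) :
    LocallyIntegrable fun v => f (s + v) := by
  refine locallyIntegrable_iff.2 fun A hA => ?_
  have h1 := hf.integrableOn_isCompact (hA.image (continuous_const_add s))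
  rwa [(measurePreserving_add_left volume s).integrableOn_image
    (measurableEmbedding_addLeft _)] at h1

/-- The pairing of a convolution. -/
theorem integral_convR_mul (ha : CCFun a) (hb : CCFun b) (hf : LocallyIntegrable f) :
    ∫ s, convR a b s * f s = ∫ u, a u * corrR b f u := by
  obtain ⟨A, hA⟩ := ha.cont.bounded_above_of_compact_support ha.compact
  obtain ⟨B, hB⟩ := hb.cont.bounded_above_of_compact_support hb.compact
  set K := tsupport a + tsupport b
  have hK : IsCompact K := ha.compact.isCompact.add hb.compact.isCompact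
  set G : ℝ × ℝ → ℂ := fun q => a q.1 * b (q.2 - q.1) * f q.2
  have hG : Integrable G (volume.prod volume) := by
    refine (((integrable_indicator_iff ha.compact.isCompact.measurableSet).2
      (integrableOn_const (C := (A * B : ℝ)) ha.compact.isCompact.measure_lt_top.ne)).mul_prod
      ((integrable_indicator_iff hK.measurableSet).2 (hf.integrableOn_isCompact hK).norm)).mono'
      ?_ (Filter.Eventually.of_forall fun q => ?_)
    · exact (((ha.cont.comp continuous_fst).mul
        (hb.cont.comp (continuous_snd.sub continuous_fst))).aestronglyMeasurable).mul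
          hf.aestronglyMeasurable.comp_snd
    · show ‖a q.1 * b (q.2 - q.1) * f q.2‖ ≤ _
      have hA0 : 0 ≤ A := (norm_nonneg _).trans (hA 0)
      have hB0 : 0 ≤ B := (norm_nonneg _).trans (hB 0)
      by_cases h : a q.1 = 0 ∨ b (q.2 - q.1) = 0
      · rcases h with h | h <;>
        · rw [h]
          simp only [zero_mul, mul_zero, norm_zero]
          exact mul_nonneg (Set.indicator_nonneg (fun _ _ => mul_nonneg hA0 hB0) _)
            (Set.indicator_nonneg (fun _ _ => norm_nonneg _) _)
      · push Not at h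
        have h1 : q.1 ∈ tsupport a := subset_tsupport _ h.1
        have h2 : q.2 ∈ K := ⟨q.1, h1, q.2 - q.1, subset_tsupport _ h.2, add_sub_cancel _ _⟩
        rw [Set.indicator_of_mem h1, Set.indicator_of_mem h2, norm_mul, norm_mul]
        exact mul_le_mul_of_nonneg_right (mul_le_mul (hA _) (hB _) (norm_nonneg _) hA0)
          (norm_nonneg _)
  calc ∫ s, convR a b s * f s = ∫ s, ∫ u, G (u, s) := by
        refine integral_congr_ae (Filter.Eventually.of_forall fun s => ?_)
        simp only [convR, G, ← integral_mul_const]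
    _ = ∫ u, ∫ s, G (u, s) := (integral_integral_swap (f := fun u s => G (u, s)) hG).symm
    _ = _ := by
        refine integral_congr_ae (Filter.Eventually.of_forall fun u => ?_)
        simp only [G, mul_assoc, integral_const_mul, corrR]
        congr 1
        rw [← integral_add_left_eq_self (fun s => b (s - u) * f s) u]
        simp

/-! ### One place -/

/-- `H` has the horospherical integrals `e^{-l} a(l)`. -/
def HasAbel1 (H : ℝ → ℝ) (a : ℝ → ℂ) : Prop :=
  ∀ (x : H3) (f : ℝ → ℂ), LocallyIntegrable f →
    Integrable (fun y => ((H (hdist x y) : ℝ) : ℂ) * f (Real.log (y.2 : ℝ))) hypMeasure ∧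
      ∫ y, ((H (hdist x y) : ℝ) : ℂ) * f (Real.log (y.2 : ℝ)) ∂hypMeasure =
        ∫ l, ((exp (-l) : ℝ) : ℂ) * a l * f (Real.log (x.2 : ℝ) + l)

/-- A function of the height is integrable on balls. -/
theorem integrableOn_ball_log (hf : LocallyIntegrable f) (x : H3) (R : ℝ) :
    IntegrableOn (fun y : H3 => f (Real.log (y.2 : ℝ))) {y | hdist x y ≤ R} hypMeasure := by
  rw [← (Hyp.measurePreserving_horo x).integrableOn_comp_preimage (Hyp.horoEquiv x).measurableEmbedding]
  set ρ := sqrt (2 * cosh R * exp |R|)
  have hsub : Hyp.horo x ⁻¹' {y | hdist x y ≤ R} ⊆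
      Set.Icc (-|R|) |R| ×ˢ Metric.closedBall (0 : ℂ) ρ := by
    rintro ⟨l, ζ⟩ hy
    have hy' : hdist x (Hyp.horo x (l, ζ)) ≤ R := hy
    have hl : |l| ≤ R := by
      have := (abs_log_sub_le_hdist x (Hyp.horo x (l, ζ))).trans hy'
      rwa [Hyp.log_horo_snd, sub_add_cancel_left, abs_neg] at this
    have hc : coshDist x (Hyp.horo x (l, ζ)) ≤ cosh R := by
      rw [← cosh_hdist]
      exact cosh_le_cosh.2 (by rw [abs_of_nonneg (hdist_nonneg _ _)]; exact hy'.trans (le_abs_self R))
    rw [Hyp.coshDist_horo] at hc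
    refine ⟨abs_le.1 (hl.trans (le_abs_self R)), mem_closedBall_zero_iff.2 ?_⟩
    rw [← Real.sqrt_sq (norm_nonneg ζ), ← Complex.normSq_eq_norm_sq]
    refine Real.sqrt_le_sqrt ?_
    have h1 : exp (-|R|) * Complex.normSq ζ ≤ exp l * Complex.normSq ζ :=
      mul_le_mul_of_nonneg_right (exp_le_exp.2 (by linarith [neg_abs_le l, le_abs_self R]))
        (Complex.normSq_nonneg _)
    have h2 : exp (-|R|) * Complex.normSq ζ ≤ 2 * cosh R := by
      simp only at hc
      linarith [one_le_cosh l]
    calc Complex.normSq ζ = exp (-|R|) * Complex.normSq ζ * exp |R| := by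
          rw [mul_right_comm, ← exp_add, neg_add_cancel, exp_zero, one_mul]
      _ ≤ _ := mul_le_mul_of_nonneg_right h2 (exp_pos _).le
  refine IntegrableOn.mono_set ?_ hsub
  have h1 := (LocallyIntegrable.comp_add_left' hf (Real.log (x.2 : ℝ))).integrableOn_isCompact
    (isCompact_Icc (a := -|R|) (b := |R|))
  have h2 : IntegrableOn (fun _ : ℂ => (1 : ℂ)) (Metric.closedBall (0 : ℂ) ρ) :=
    integrableOn_const measure_closedBall_lt_top.ne
  rw [IntegrableOn, Measure.volume_eq_prod, ← Measure.prod_restrict]
  refine (h1.mul_prod h2).congr (Filter.Eventually.of_forall fun y => ?_)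
  simp [Hyp.log_horo_snd]

/-- The transform of a composition is the convolution of the transforms. -/
theorem HasAbel1.conv {H G : ℝ → ℝ} (hH : Rad1 H) (hG : Rad1 G) (ha : CCFun a) (hb : CCFun b)
    (HA : HasAbel1 H a) (GB : HasAbel1 G b) : HasAbel1 (conv1 H G) (Aleph.convR a b) := by
  intro x f hf
  obtain ⟨A, -, hA⟩ := hH.exists_radius
  obtain ⟨B, -, hB⟩ := hG.exists_radius
  obtain ⟨C, hC0, hC⟩ := hH.exists_bound
  obtain ⟨D, hD0, hD⟩ := hG.exists_bound
  haveI : IsFiniteMeasureOnCompacts hypMeasure := inferInstance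
  set U : Set H3 := {u | hdist x u ≤ A}
  set W : Set H3 := {y | hdist x y ≤ A + B}
  have hU : MeasurableSet U := measurableSet_le (continuous_hdist_left x).measurable measurable_const
  have hW : MeasurableSet W := measurableSet_le (continuous_hdist_left x).measurable measurable_const
  have hUfin : hypMeasure U < ⊤ := by
    refine lt_of_le_of_lt (measure_mono fun u (hu : hdist x u ≤ A) => ?_)
      (RS.isCompact_coshBall x (cosh A)).measure_lt_top
    show coshDist x u ≤ cosh A
    rw [← cosh_hdist]
    exact cosh_le_cosh.2 (by rw [abs_of_nonneg (hdist_nonneg _ _)]; exact hu.trans (le_abs_self A))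
  have hW' := integrableOn_ball_log hf x (A + B)
  set Φ : H3 × H3 → ℂ := fun q => ((H (hdist x q.1) : ℝ) : ℂ) *
    (((G (hdist q.1 q.2) : ℝ) : ℂ) * f (Real.log (q.2.2 : ℝ)))
  have hΦm : AEStronglyMeasurable Φ (hypMeasure.prod hypMeasure) := by
    have hfm : AEStronglyMeasurable (fun y : H3 => f (Real.log (y.2 : ℝ))) hypMeasure := by
      refine (aestronglyMeasurable_iUnion_iff (s := fun n : ℕ => {y : H3 | hdist x y ≤ n})).2
        (fun n => (integrableOn_ball_log hf x n).aestronglyMeasurable) |> fun h => ?_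
      rwa [show (⋃ n : ℕ, {y : H3 | hdist x y ≤ n}) = Set.univ from Set.eq_univ_of_forall fun y =>
        Set.mem_iUnion.2 (exists_nat_ge (hdist x y)), Measure.restrict_univ] at h
    exact ((Complex.continuous_ofReal.comp
        (hH.continuous.comp ((continuous_hdist_left x).comp continuous_fst))).aestronglyMeasurable).mul
      (((Complex.continuous_ofReal.comp
        (hG.continuous.comp continuous_hdist_pair)).aestronglyMeasurable).mul hfm.comp_snd)
  have hΦ : Integrable Φ (hypMeasure.prod hypMeasure) := by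
    refine (((integrable_indicator_iff hU).2 (integrableOn_const (C := (C * D : ℝ)) hUfin.ne)).mul_prod
      ((integrable_indicator_iff hW).2 hW'.norm)).mono' hΦm (Filter.Eventually.of_forall fun q => ?_)
    by_cases h : H (hdist x q.1) = 0 ∨ G (hdist q.1 q.2) = 0
    · rcases h with h | h <;>
      · simp only [Φ, h, Complex.ofReal_zero, zero_mul, mul_zero, norm_zero]
        exact mul_nonneg (Set.indicator_nonneg (fun _ _ => mul_nonneg hC0 hD0) _)
          (Set.indicator_nonneg (fun _ _ => norm_nonneg _) _)
    · push Not at h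
      have h1 : hdist x q.1 ≤ A := (le_abs_self _).trans (not_lt.1 fun hl => h.1 (hA _ hl))
      have h2 : hdist q.1 q.2 ≤ B := (le_abs_self _).trans (not_lt.1 fun hl => h.2 (hB _ hl))
      rw [Set.indicator_of_mem (show q.1 ∈ U from h1),
        Set.indicator_of_mem (show q.2 ∈ W from (hdist_triangle _ _ _).trans (add_le_add h1 h2))]
      simp only [Φ, norm_mul, Complex.norm_real, Real.norm_eq_abs]
      rw [← mul_assoc]
      exact mul_le_mul_of_nonneg_right (mul_le_mul (hC _) (hD _) (abs_nonneg _) hC0) (norm_nonneg _)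
  have e : ∀ y, ((conv1 H G (hdist x y) : ℝ) : ℂ) * f (Real.log (y.2 : ℝ)) =
      ∫ u, Φ (u, y) ∂hypMeasure := fun y => by
    rw [← conv1_eq, ← integral_complex_ofReal, ← integral_mul_const]
    simp only [Φ, Complex.ofReal_mul, mul_assoc]
  simp only [e]
  refine ⟨hΦ.integral_prod_right, ?_⟩
  rw [← integral_integral_swap (f := fun u y => Φ (u, y)) hΦ]
  -- the inner integral
  set eb : ℝ → ℂ := fun v => ((exp (-v) : ℝ) : ℂ) * b v
  have heb : CCFun eb := hb.mul_continuous (by fun_prop)
  have hin : ∀ u, ∫ y, Φ (u, y) ∂hypMeasure =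
      ((H (hdist x u) : ℝ) : ℂ) * corrR eb f (Real.log (u.2 : ℝ)) := fun u => by
    simp only [Φ, integral_const_mul, corrR, eb]
    rw [(GB u f hf).2]
  simp only [hin]
  rw [(HA x _ (continuous_corrR heb hf).locallyIntegrable).2]
  set F : ℝ → ℂ := fun s => ((exp (-s) : ℝ) : ℂ) * f (Real.log (x.2 : ℝ) + s)
  have hF : LocallyIntegrable F := by
    have h1 := LocallyIntegrable.comp_add_left' hf (Real.log (x.2 : ℝ))
    refine locallyIntegrable_iff.2 fun S hS => ?_
    exact IntegrableOn.continuousOn_mul (by fun_prop : Continuous fun s => ((exp (-s) : ℝ) : ℂ)).continuousOn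
      (h1.integrableOn_isCompact hS) hS
  have key := integral_convR_mul ha hb hF
  calc ∫ l, ((exp (-l) : ℝ) : ℂ) * a l * corrR eb f (Real.log (x.2 : ℝ) + l)
      = ∫ u, a u * corrR b F u := by
        refine integral_congr_ae (Filter.Eventually.of_forall fun u => ?_)
        simp only [corrR, eb, F, ← integral_const_mul]
        refine integral_congr_ae (Filter.Eventually.of_forall fun v => ?_)
        simp only [neg_add, Real.exp_add, Complex.ofReal_mul, add_assoc]
        ring
    _ = ∫ s, Aleph.convR a b s * F s := key.symm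
    _ = _ := by
        refine integral_congr_ae (Filter.Eventually.of_forall fun s => ?_)
        simp only [F]
        ring

/-- A function of one variable on tuples over a single index. -/
def oneFun {P : Type*} [Unique P] (a : ℝ → ℂ) (l : P → ℝ) : ℂ := a (l default)

section

variable {P : Type*} [Fintype P] [Unique P]

theorem integral_oneVar (φ : (P → ℝ) → ℂ) : ∫ l, φ l = ∫ s : ℝ, φ fun _ => s := by
  have hm : MeasurePreserving (MeasurableEquiv.funUnique P ℝ).symm volume volume := by
    convert (volume_preserving_funUnique P ℝ).symm _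
  rw [← hm.integral_comp (MeasurableEquiv.measurableEmbedding _)]
  refine integral_congr_ae (Filter.Eventually.of_forall fun s => congrArg φ (funext fun w => ?_))
  rw [MeasurableEquiv.funUnique_symm_apply]
  simp [uniqueElim]

theorem locallyIntegrable_oneVar {f : (P → ℝ) → ℂ} (hf : LocallyIntegrable f) :
    LocallyIntegrable fun s : ℝ => f fun _ => s := by
  refine locallyIntegrable_iff.2 fun A hA => ?_
  have hA' : IsCompact ((fun s : ℝ => (fun _ : P => s)) '' A) :=
    hA.image (continuous_pi fun _ => continuous_id)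
  have hm : MeasurePreserving (MeasurableEquiv.funUnique P ℝ).symm volume volume := by
    convert (volume_preserving_funUnique P ℝ).symm _
  exact (hm.integrableOn_image (MeasurableEquiv.measurableEmbedding _)).1
    (hf.integrableOn_isCompact hA')

/-- Transfer to tuples over a single index. -/
theorem HasAbel1.hasAbel {H : ℝ → ℝ} (HA : HasAbel1 H a) :
    HasAbel (P := P) (fun r => ((H (r default) : ℝ) : ℂ)) (oneFun a) := by
  intro x f hf
  obtain ⟨h1, h2⟩ := HA (x default) _ (locallyIntegrable_oneVar hf)
  have hm : MeasurePreserving (MeasurableEquiv.funUnique P H3)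
      (Measure.pi fun _ : P => hypMeasure) hypMeasure := by
    convert measurePreserving_funUnique hypMeasure P
  have e : ∀ y : P → H3, ((H (hdist (x default) (y default)) : ℝ) : ℂ) * f (logHt y) =
      (fun q : H3 => ((H (hdist (x default) q) : ℝ) : ℂ) * f fun _ => Real.log (q.2 : ℝ))
        (MeasurableEquiv.funUnique P H3 y) := fun y => by
    show _ = _ * f _
    congr 2
    funext w
    rw [Unique.eq_default w]
    rfl
  simp only [e]
  refine ⟨(hm.integrable_comp_emb (MeasurableEquiv.measurableEmbedding _)).2 h1, ?_⟩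
  rw [hm.integral_comp (MeasurableEquiv.measurableEmbedding _)
    (fun q : H3 => ((H (hdist (x default) q) : ℝ) : ℂ) * f fun _ => Real.log (q.2 : ℝ)), h2,
    integral_oneVar]
  refine integral_congr_ae (Filter.Eventually.of_forall fun s => ?_)
  simp only [oneFun, Fintype.sum_unique]
  congr 2
  funext w
  rw [Unique.eq_default w]
  rfl

/-- Transfer from tuples over a single index. -/
theorem HasAbel.hasAbel1 {H : ℝ → ℝ}
    (HA : HasAbel (P := P) (fun r => ((H (r default) : ℝ) : ℂ)) (oneFun a)) : HasAbel1 H a := by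
  intro x f hf
  have hf' : LocallyIntegrable fun l : P → ℝ => f (l default) := by
    refine locallyIntegrable_iff.2 fun A hA => ?_
    have hA' : IsCompact ((fun l : P → ℝ => l default) '' A) := hA.image (continuous_apply default)
    have hm : MeasurePreserving (MeasurableEquiv.funUnique P ℝ) volume volume := by
      convert volume_preserving_funUnique P ℝ
    exact ((hm.integrableOn_comp_preimage (MeasurableEquiv.measurableEmbedding _)).2
      (hf.integrableOn_isCompact hA')).mono_set fun l hl => ⟨l, hl, rfl⟩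
  obtain ⟨h1, h2⟩ := HA (fun _ => x) _ hf'
  have hm : MeasurePreserving (MeasurableEquiv.funUnique P H3)
      (Measure.pi fun _ : P => hypMeasure) hypMeasure := by
    convert measurePreserving_funUnique hypMeasure P
  have e : ∀ y : P → H3, ((H (hdist x (y default)) : ℝ) : ℂ) * f (logHt y default) =
      (fun q : H3 => ((H (hdist x q) : ℝ) : ℂ) * f (Real.log (q.2 : ℝ)))
        (MeasurableEquiv.funUnique P H3 y) := fun y => rfl
  simp only [e] at h1 h2
  refine ⟨(hm.integrable_comp_emb (MeasurableEquiv.measurableEmbedding _)).1 h1, ?_⟩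
  rw [← hm.integral_comp (MeasurableEquiv.measurableEmbedding _)
    (fun q : H3 => ((H (hdist x q) : ℝ) : ℂ) * f (Real.log (q.2 : ℝ))), h2, integral_oneVar]
  refine integral_congr_ae (Filter.Eventually.of_forall fun s => ?_)
  simp [oneFun, logHt]

end

theorem hasAbel1_radKer {h : ℝ → ℝ} (hh : Hyp.AbelDatum h) :
    HasAbel1 (Hyp.radKer h) fun l => ((h l : ℝ) : ℂ) := by
  refine HasAbel.hasAbel1 (P := Fin 1) ?_
  have h1 := hasAbel_radProd (P := Fin 1) (h := fun _ => h) fun _ => hh
  convert h1 using 1
  · funext r; simp [radProd]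
  · funext l; simp [prodFun, oneFun]

/-! ### Three factors -/

theorem ccFun_abel {h : ℝ → ℝ} (hh : Hyp.AbelDatum h) : CCFun fun l => ((h l : ℝ) : ℂ) :=
  ⟨Complex.continuous_ofReal.comp hh.diff.continuous,
    hh.compact.comp_left (g := fun y : ℝ => (y : ℂ)) Complex.ofReal_zero⟩

/-- The convolution of three radial kernels. -/
def triRad (h : Fin 3 → ℝ → ℝ) : ℝ → ℝ :=
  conv1 (conv1 (Hyp.radKer (h 0)) (Hyp.radKer (h 1))) (Hyp.radKer (h 2))

/-- The convolution of three transforms. -/
def triAbel (h : Fin 3 → ℝ → ℝ) : ℝ → ℂ :=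
  convR (convR (fun l => ((h 0 l : ℝ) : ℂ)) fun l => ((h 1 l : ℝ) : ℂ)) fun l => ((h 2 l : ℝ) : ℂ)

variable {h : Fin 3 → ℝ → ℝ}

theorem rad1_triRad (hh : ∀ j, Hyp.AbelDatum (h j)) : Rad1 (triRad h) :=
  ((rad1_radKer (hh 0)).conv1 (rad1_radKer (hh 1))).conv1 (rad1_radKer (hh 2))

theorem ccFun_triAbel (hh : ∀ j, Hyp.AbelDatum (h j)) : CCFun (triAbel h) :=
  ((ccFun_abel (hh 0)).convR (ccFun_abel (hh 1))).convR (ccFun_abel (hh 2))

theorem hasAbel1_triRad (hh : ∀ j, Hyp.AbelDatum (h j)) : HasAbel1 (triRad h) (triAbel h) :=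
  HasAbel1.conv ((rad1_radKer (hh 0)).conv1 (rad1_radKer (hh 1))) (rad1_radKer (hh 2))
    ((ccFun_abel (hh 0)).convR (ccFun_abel (hh 1))) (ccFun_abel (hh 2))
    (HasAbel1.conv (rad1_radKer (hh 0)) (rad1_radKer (hh 1)) (ccFun_abel (hh 0)) (ccFun_abel (hh 1))
      (hasAbel1_radKer (hh 0)) (hasAbel1_radKer (hh 1))) (hasAbel1_radKer (hh 2))

theorem lam0_triRad (hh : ∀ j, Hyp.AbelDatum (h j)) :
    lam0 (triRad h) = ∏ j, lam0 (Hyp.radKer (h j)) := by
  rw [triRad, lam0_conv1 ((rad1_radKer (hh 0)).conv1 (rad1_radKer (hh 1))) (rad1_radKer (hh 2)),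
    lam0_conv1 (rad1_radKer (hh 0)) (rad1_radKer (hh 1)), Fin.prod_univ_three]

theorem integrable_prod_sum {n : ℕ} {a : Fin (n + 1) → ℝ → ℂ} (ha : ∀ i, CCFun (a i))
    (hf : LocallyIntegrable f) :
    Integrable fun x : Fin (n + 1) → ℝ => (∏ i, a i (x i)) * f (∑ i, x i) := by
  have h0 : LocallyIntegrable fun l : Fin 1 → ℝ => f (l 0) := by
    refine locallyIntegrable_iff.2 fun A hA => ?_
    exact (((volume_preserving_funUnique (Fin 1) ℝ).integrableOn_comp_preimage
      (MeasurableEquiv.measurableEmbedding _)).2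
      (hf.integrableOn_isCompact (hA.image (continuous_apply 0)))).mono_set fun l hl => ⟨l, hl, rfl⟩
  refine (locallyIntegrable_comp_sum (P := Fin (n + 1)) h0).integrable_smul_left_of_hasCompactSupport
    (g := fun x => ∏ i, a i (x i)) (continuous_finsetProd _ fun i _ =>
      (ha i).cont.comp (continuous_apply i)) ?_
  refine HasCompactSupport.intro (K := Set.pi Set.univ fun i => tsupport (a i))
    (isCompact_univ_pi fun i => (ha i).compact.isCompact) fun x hx => ?_
  simp only [Set.mem_pi, Set.mem_univ, true_implies, not_forall] at hx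
  obtain ⟨i, hi⟩ := hx
  exact Finset.prod_eq_zero (Finset.mem_univ i) (image_eq_zero_of_notMem_tsupport hi)

theorem integral_fin_succ {n : ℕ} {Φ : (Fin (n + 1) → ℝ) → ℂ} (hΦ : Integrable Φ) :
    ∫ x, Φ x = ∫ u : ℝ, ∫ y : Fin n → ℝ, Φ (Fin.cons u y) := by
  have hm := (volume_preserving_piFinSuccAbove (fun _ : Fin (n + 1) => ℝ) 0).symm _
  rw [← hm.integral_comp (MeasurableEquiv.measurableEmbedding _), Measure.volume_eq_prod,
    integral_prod]
  · refine integral_congr_ae (Filter.Eventually.of_forall fun u => ?_)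
    refine integral_congr_ae (Filter.Eventually.of_forall fun y => ?_)
    simp [MeasurableEquiv.piFinSuccAbove_symm_apply, Fin.insertNthEquiv, Fin.insertNth_zero]
  · exact (hm.integrable_comp_emb (MeasurableEquiv.measurableEmbedding _)).2 hΦ

/-- A product against a function of the sum, one variable at a time. -/
theorem integral_prod_sum_succ {n : ℕ} {a : Fin (n + 1) → ℝ → ℂ} (ha : ∀ i, CCFun (a i))
    (hf : LocallyIntegrable f) :
    ∫ x : Fin (n + 1) → ℝ, (∏ i, a i (x i)) * f (∑ i, x i) =
      ∫ u, a 0 u * ∫ y : Fin n → ℝ, (∏ i, a i.succ (y i)) * f (u + ∑ i, y i) := by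
  rw [integral_fin_succ (integrable_prod_sum ha hf)]
  refine integral_congr_ae (Filter.Eventually.of_forall fun u => ?_)
  simp only [Fin.prod_univ_succ, Fin.sum_univ_succ, Fin.cons_zero, Fin.cons_succ, mul_assoc,
    integral_const_mul]

theorem integral_three {a : Fin 3 → ℝ → ℂ} (ha : ∀ i, CCFun (a i)) (hf : LocallyIntegrable f) :
    ∫ x : Fin 3 → ℝ, (∏ i, a i (x i)) * f (∑ i, x i) =
      ∫ s, convR (convR (a 0) (a 1)) (a 2) s * f s := by
  have hc := continuous_corrR (ha 2) hf
  rw [integral_convR_mul ((ha 0).convR (ha 1)) (ha 2) hf,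
    integral_convR_mul (ha 0) (ha 1) hc.locallyIntegrable, integral_prod_sum_succ ha hf]
  refine integral_congr_ae (Filter.Eventually.of_forall fun u => ?_)
  show a 0 u * _ = a 0 u * _
  congr 1
  rw [integral_prod_sum_succ (a := fun i : Fin 2 => a i.succ) (fun i => ha i.succ)
    (LocallyIntegrable.comp_add_left' hf u)]
  refine integral_congr_ae (Filter.Eventually.of_forall fun v => ?_)
  show a 1 v * _ = a 1 v * _
  congr 1
  rw [integral_prod_sum_succ (a := fun i : Fin 1 => a i.succ.succ) (fun i => ha i.succ.succ)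
    (f := fun y => f (u + (v + y)))
    (LocallyIntegrable.comp_add_left' (LocallyIntegrable.comp_add_left' hf u) v)]
  refine integral_congr_ae (Filter.Eventually.of_forall fun t => ?_)
  show a 2 t * _ = a 2 t * _
  congr 1
  simp [add_assoc, volume_pi, measureReal_def, Measure.pi_empty_univ]

/-- The transform of the composition is the pushforward of the product. -/
theorem isPush_triAbel {P P' : Type*} [Fintype P] [Fintype P'] [Unique P'] (σ : Fin 3 ≃ P)
    {g : P → ℝ → ℝ} (hg : ∀ w, Hyp.AbelDatum (g w)) :
    IsPush (P' := P') (prodFun g) (oneFun (triAbel fun j => g (σ j))) := by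
  intro f hf
  have key := integral_three (a := fun i l => ((g (σ i) l : ℝ) : ℂ)) (fun i => ccFun_abel (hg _))
    (locallyIntegrable_oneVar hf)
  rw [integral_oneVar]
  refine Eq.trans ?_ (key.symm.trans ?_)
  · rfl
  · rw [← (volume_measurePreserving_piCongrLeft (fun _ : P => ℝ) σ).integral_comp
      (MeasurableEquiv.measurableEmbedding _)]
    refine integral_congr_ae (Filter.Eventually.of_forall fun x => ?_)
    have hx : ∀ i, MeasurableEquiv.piCongrLeft (fun _ : P => ℝ) σ x (σ i) = x i := fun i => by
      rw [MeasurableEquiv.coe_piCongrLeft]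
      exact Equiv.piCongrLeft_apply_apply (fun _ : P => ℝ) σ x i
    show _ = prodFun g (MeasurableEquiv.piCongrLeft (fun _ : P => ℝ) σ x) *
      f fun _ => ∑ w, MeasurableEquiv.piCongrLeft (fun _ : P => ℝ) σ x w
    simp only [prodFun, ← σ.prod_comp, ← σ.sum_comp, hx]

/-! ### The family on one place -/

variable {P P' : Type*} [Fintype P] [DecidableEq P] [Fintype P'] [Unique P']

/-- The family of three places seen on one place. -/
def alephFamK (σ : Fin 3 ≃ P) (l : P → ℝ) (p : ℝ) (g : ℝ → ℝ) : Fam (Fin 1) P' :=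
  (alephFam l p g).push
    (fun k r => ((triRad (fun j => symFun g k.2.1 (σ j)) (r default) : ℝ) : ℂ))
    fun k => oneFun (triAbel fun j => symFun g k.2.1 (σ j))

variable {σ : Fin 3 ≃ P} {l : P → ℝ} {p : ℝ} {g : ℝ → ℝ}

theorem alephFamK_isPush (hg : Hyp.AbelDatum g) (k : (alephFam l p g).κ) :
    IsPush (P' := P') ((alephFam l p g).abel k) (oneFun (triAbel fun j => symFun g k.2.1 (σ j))) :=
  isPush_triAbel σ fun w => abelDatum_symFun hg _ w

theorem alephFamK_kills (hg : Hyp.AbelDatum g) (hp : p ≠ 0) {l' : P' → ℝ}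
    (hl : 3 • l' = fun _ => ∑ w, l w) : (alephFamK σ l p g : Fam (Fin 1) P').Kills p l' := by
  haveI : Nonempty P := ⟨σ 0⟩
  exact (alephFam_kills hg l hp).push (by rwa [Fintype.card_fin]) (alephFamK_isPush hg) ⟨0⟩

theorem alephFamK_reg (hg : Hyp.AbelDatum g) : (alephFamK σ l p g : Fam (Fin 1) P').Reg := by
  have hd : ∀ (k : (alephFam l p g).κ) j, Hyp.AbelDatum (symFun g k.2.1 (σ j)) :=
    fun k j => abelDatum_symFun hg _ _
  refine ⟨fun k => ?_, fun k => ?_, fun k => ?_, fun k => ?_, fun k => ?_⟩
  · obtain ⟨C, hC⟩ := (rad1_triRad (hd k)).lipschitz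
    exact ⟨C, LipschitzWith.of_dist_le_mul fun r r' => (Complex.isometry_ofReal.dist_eq _ _).trans_le
      ((hC.dist_le_mul _ _).trans (mul_le_mul_of_nonneg_left (dist_le_pi_dist r r' default)
        C.coe_nonneg))⟩
  · obtain ⟨R, -, hR⟩ := (rad1_triRad (hd k)).exists_radius
    refine HasCompactSupport.intro (K := Set.pi Set.univ fun _ => Set.Icc (-R) R)
      (isCompact_univ_pi fun _ => isCompact_Icc) fun r hr => ?_
    show ((triRad _ (r default) : ℝ) : ℂ) = 0
    rw [hR, Complex.ofReal_zero]
    by_contra hle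
    exact hr fun w _ => by rw [Unique.eq_default w]; exact abs_le.1 (not_lt.1 hle)
  · exact (ccFun_triAbel (hd k)).cont.comp (continuous_apply default)
  · refine HasCompactSupport.intro
      (K := Set.pi Set.univ fun _ => tsupport (triAbel fun j => symFun g k.2.1 (σ j)))
      (isCompact_univ_pi fun _ => (ccFun_triAbel (hd k)).compact.isCompact) fun r hr => ?_
    exact image_eq_zero_of_notMem_tsupport (f := triAbel fun j => symFun g k.2.1 (σ j))
      (x := r default) fun hm => hr fun w _ => by rw [Unique.eq_default w]; exact hm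
  · exact (hasAbel1_triRad (hd k)).hasAbel

theorem alephFamK_value (hg : Hyp.AbelDatum g) :
    (alephFamK σ l p g : Fam (Fin 1) P').value =
      16 ^ 2 ^ Fintype.card P * ((∫ x, g x : ℝ) : ℂ) ^ Fintype.card P :=
  (Fam.value_push (alephFamK_isPush hg)).trans (alephFam_value hg l p)

/-- The family kills functions periodic under the diagonal shift by `log p`. -/
theorem alephFamK_kills_log (hg : Hyp.AbelDatum g) {p : ℕ} (hp : 0 < p) :
    (alephFamK σ (fun _ => Real.log p) p g : Fam (Fin 1) P').Kills (p : ℝ) fun _ => Real.log p :=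
  alephFamK_kills hg (Nat.cast_ne_zero.2 hp.ne') (funext fun _ => by
    simp [← σ.sum_comp, Fin.sum_univ_three, mul_comm])

/-- The radial factors as products over the place and their values at parameter zero. -/
theorem alephFamK_rads {F : Type*} [Field F] [NumberField F] [Unique (NumberField.InfinitePlace F)]
    (hg : Hyp.AbelDatum g) (k : (alephFam l p g).κ) :
    ∃ h : NumberField.InfinitePlace F → ℝ → ℝ, (∀ v, Rad1 (h v)) ∧
      (alephFamK σ l p g : Fam (Fin 1) (NumberField.InfinitePlace F)).rad k = radFun h ∧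
      (∫ x, (alephFamK σ l p g : Fam (Fin 1) (NumberField.InfinitePlace F)).abel k x) =
        ∏ v, ((lam0 (h v) : ℝ) : ℂ) := by
  have hd : ∀ j, Hyp.AbelDatum (symFun g k.2.1 (σ j)) := fun j => abelDatum_symFun hg _ _
  refine ⟨fun _ => triRad fun j => symFun g k.2.1 (σ j), fun _ => rad1_triRad hd, ?_, ?_⟩
  · funext r
    simp [radFun, alephFamK, Fam.push]
  · have h1 := alephFamK_isPush (σ := σ) (P' := NumberField.InfinitePlace F) hg k (fun _ => 1)
      (locallyIntegrable_const _)
    simp only [mul_one] at h1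
    refine h1.trans ?_
    rw [Fintype.prod_unique, lam0_triRad hd, Complex.ofReal_prod]
    show ∫ x, prodFun (symFun g k.2.1) x = _
    simp only [prodFun]
    rw [volume_pi, integral_fintype_prod_eq_prod fun w (x : ℝ) => ((symFun g k.2.1 w x : ℝ) : ℂ),
      ← σ.prod_comp]
    exact Finset.prod_congr rfl fun j _ => by rw [integral_complex_ofReal, lam0_radKer (hd j)]

end FLTAgent.LT.Aleph
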